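import Fermat.Agent.S48.H848.DiaMain
import Fermat.Agent.S48.H76.Avatar

/-!
# S48 / RES (Tower A1) — piece FF-DIA (helper848): the diamond automorphisms exist

`exists_isDiamond M d : ∃ σ, F1.IsDiamond Qbar M d σ` for every unit `d` mod `M`, hence
`isDiamond_diamondAut_848 : F1.IsDiamond Qbar M d (F1.diamondAut Qbar M d)` unconditionally.
More generally `exists_isDiamond_of_emb` for every field `L` with an embedding into `ℂ`.

Inputs: the generic transport `exists_isDiamond_of_avatar` (`DiaMain`) and the analytic avatar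
`H76.pFun` of the division values (`H76.Avatar`: `infExp_pFun`, `compSL_pFun`).
-/

set_option autoImplicit false

noncomputable section

open ModularCurve UpperHalfPlane Fermat.Agent.S24 CongruenceSubgroup
open scoped MatrixGroups

namespace Fermat.Agent.S48.H848

open Fermat.Agent.S48.F1

/-- The Eisenstein avatar `H76.pFun` satisfies the avatar interface. -/
theorem pAvatar_pFun (M : ℕ) [NeZero M] : PAvatar M (H76.pFun M) where
  infExp _ ha := H76.infExp_pFun M ha
  smul g hg a _ z := by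
    have h := congrFun (H76.compSL_pFun M a g hg) z
    rwa [H997.compSL_apply] at h

/-- **FF-DIA** over any field `L` embedded in `ℂ`. -/
theorem exists_isDiamond_of_emb (M : ℕ) [NeZero M] (L : Type*) [Field L] [Algebra ℚ L]
    (ι : L →+* ℂ) (d : (ZMod M)ˣ) :
    ∃ σ : F1L L M ≃ₐ[L] F1L L M, IsDiamond L M d σ :=
  exists_isDiamond_of_avatar M L ι (pAvatar_pFun M) d

/-- A fixed embedding `Qbar → ℂ`. -/
def qbarEmb848 : AlgebraicClosure ℚ →+* ℂ :=
  letI : Algebra ℚ (AlgebraicClosure ℚ) := AlgebraicClosure.instAlgebra ℚ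
  ((IsAlgClosed.lift : AlgebraicClosure ℚ →ₐ[ℚ] ℂ) : AlgebraicClosure ℚ →+* ℂ)

/-- **FF-DIA**: for every unit `d` there is a diamond automorphism `δ_d` of `Qbar · F1(M)`. -/
theorem exists_isDiamond (M : ℕ) [NeZero M] (d : (ZMod M)ˣ) :
    ∃ σ : F1L (AlgebraicClosure ℚ) M ≃ₐ[AlgebraicClosure ℚ] F1L (AlgebraicClosure ℚ) M,
      IsDiamond (AlgebraicClosure ℚ) M d σ :=
  exists_isDiamond_of_emb M (AlgebraicClosure ℚ) qbarEmb848 d

/-- The chosen `F1.diamondAut` is a diamond automorphism (unconditionally). -/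
theorem isDiamond_diamondAut_848 (M : ℕ) [NeZero M] (d : (ZMod M)ˣ) :
    IsDiamond (AlgebraicClosure ℚ) M d (diamondAut (AlgebraicClosure ℚ) M d) :=
  isDiamond_diamondAut (AlgebraicClosure ℚ) M d (exists_isDiamond M d)

/-- The action of `δ_d` on the generators `P_a`. -/
theorem diamondAut_divGenL (M : ℕ) [NeZero M] (d : (ZMod M)ˣ) (a : ZMod M) (ha : a ≠ 0) :
    diamondAut (AlgebraicClosure ℚ) M d (divGenL (AlgebraicClosure ℚ) M a ha) =
      divGenL (AlgebraicClosure ℚ) M ((d : ZMod M) * a) (unit_mul_ne_zero d ha) :=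
  (isDiamond_iff.mp (isDiamond_diamondAut_848 M d)).2 a ha

/-- `δ_d` fixes `Qbar · F0(M)`. -/
theorem diamondAut_fixes_full (M : ℕ) [NeZero M] (d : (ZMod M)ˣ)
    (x : F1L (AlgebraicClosure ℚ) M)
    (hx : (x : LaurentSeries (AlgebraicClosure ℚ)) ∈
      laurentBaseChange (AlgebraicClosure ℚ) (modularFunctionFieldFull M)) :
    diamondAut (AlgebraicClosure ℚ) M d x = x :=
  (isDiamond_diamondAut_848 M d).1 x hx

end Fermat.Agent.S48.H848
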