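/-
S48 piece P0 (helper848): Hecke operator `T_p` on `Γ₁(N)`-invariant functions, with the diamond
operator inserted in front of the diagonal coset.  Function level; the coset identities are those
of the Prelude proof for `Γ₀(N)`, re-proved with the lower right entry tracked modulo `N`.
-/
import Mathlib.NumberTheory.ModularForms.CongruenceSubgroups
import Mathlib.Algebra.Field.ZMod
import Mathlib.Topology.Compactification.OnePoint.ProjectiveLine
import Fermat.Prelude.Def_ModularForm_HeckeOperator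

set_option autoImplicit false

noncomputable section

namespace Fermat.Agent.S48.H848

open Matrix.SpecialLinearGroup UpperHalfPlane CongruenceSubgroup ModularForm
open scoped MatrixGroups ModularForm OnePoint

/-- Invariance of a function under the weight `k` action of `Γ₁(N)`. -/
def SI1 (N : ℕ) (k : ℤ) (f : ℍ → ℂ) : Prop :=
  ∀ g : SL(2, ℤ), g ∈ Gamma1 N → f ∣[k] (mapGL ℝ g) = f

theorem mapGL_apply848 (g : SL(2, ℤ)) (i j : Fin 2) :
    (mapGL ℝ g : GL (Fin 2) ℝ) i j = ((g i j : ℤ) : ℝ) := by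
  simp

theorem det_eq848 (g : SL(2, ℤ)) : g 0 0 * g 1 1 - g 0 1 * g 1 0 = 1 := by
  have h := g.det_coe
  rwa [Matrix.det_fin_two] at h

theorem gamma0_diag_mul_eq_one {N : ℕ} {g : SL(2, ℤ)} (hg : g ∈ Gamma0 N) :
    ((g 0 0 : ℤ) : ZMod N) * ((g 1 1 : ℤ) : ZMod N) = 1 := by
  have h := congrArg (Int.cast : ℤ → ZMod N) (det_eq848 g)
  have hc : ((g 1 0 : ℤ) : ZMod N) = 0 := Gamma0_mem.mp hg
  push_cast at h
  linear_combination h + ((g 0 1 : ℤ) : ZMod N) * hc

/-- An element of `Γ₀(N)` with lower right entry `≡ 1` lies in `Γ₁(N)`. -/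
theorem mem_Gamma1_of_mem_Gamma0 {N : ℕ} {g : SL(2, ℤ)} (hg : g ∈ Gamma0 N)
    (h1 : ((g 1 1 : ℤ) : ZMod N) = 1) : g ∈ Gamma1 N := by
  rw [Gamma1_mem]
  refine ⟨?_, h1, Gamma0_mem.mp hg⟩
  have := gamma0_diag_mul_eq_one hg
  rwa [h1, mul_one] at this

theorem mul_inv_mem_Gamma1 {N : ℕ} {α β : SL(2, ℤ)} (hα : α ∈ Gamma0 N) (hβ : β ∈ Gamma0 N)
    (h : ((α 1 1 : ℤ) : ZMod N) = ((β 1 1 : ℤ) : ZMod N)) : α * β⁻¹ ∈ Gamma1 N := by
  have hm : α * β⁻¹ ∈ Gamma0 N := (Gamma0 N).mul_mem hα ((Gamma0 N).inv_mem hβ)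
  refine mem_Gamma1_of_mem_Gamma0 hm ?_
  have hα0 : ((α 1 0 : ℤ) : ZMod N) = 0 := Gamma0_mem.mp hα
  have hβd := gamma0_diag_mul_eq_one hβ
  have e : (α * β⁻¹) 1 1 = α 1 0 * (-(β 0 1)) + α 1 1 * β 0 0 := by
    rw [Matrix.SpecialLinearGroup.coe_mul, Matrix.mul_apply, Fin.sum_univ_two,
      Matrix.SpecialLinearGroup.coe_inv, Matrix.adjugate_fin_two]
    simp
  rw [e]
  push_cast
  rw [hα0, h]
  linear_combination hβd

/-- For a `Γ₁(N)`-invariant function the slash by an element of `Γ₀(N)` only depends on the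
lower right entry modulo `N`. -/
theorem slash_eq_of_entry_eq {N : ℕ} {k : ℤ} {f : ℍ → ℂ} (hf : SI1 N k f) {α β : SL(2, ℤ)}
    (hα : α ∈ Gamma0 N) (hβ : β ∈ Gamma0 N)
    (h : ((α 1 1 : ℤ) : ZMod N) = ((β 1 1 : ℤ) : ZMod N)) :
    f ∣[k] (mapGL ℝ α) = f ∣[k] (mapGL ℝ β) := by
  have h1 := hf _ (mul_inv_mem_Gamma1 hα hβ h)
  have h2 : mapGL ℝ α = mapGL ℝ (α * β⁻¹) * mapGL ℝ β := by
    rw [← map_mul, inv_mul_cancel_right]
  rw [h2, SlashAction.slash_mul, h1]


theorem exists_SL2_848 (a b c d : ℤ) (h : a * d - b * c = 1) :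
    ∃ g : SL(2, ℤ), g 0 0 = a ∧ g 0 1 = b ∧ g 1 0 = c ∧ g 1 1 = d :=
  ⟨⟨!![a, b; c, d], by rw [Matrix.det_fin_two_of]; exact h⟩, rfl, rfl, rfl, rfl⟩

section commutation

variable {p : ℕ} (hp : p ≠ 0)
include hp

theorem heckeMatrix_mul_track (g : SL(2, ℤ)) (j j' : ℕ) (e : ℤ)
    (he : g 0 1 + j * g 1 1 = j' * (g 0 0 + j * g 1 0) + p * e) :
    ∃ g' : SL(2, ℤ), g' 1 0 = p * g 1 0 ∧ g' 1 1 = g 1 1 - g 1 0 * j' ∧
      heckeMatrix p j * mapGL ℝ g = mapGL ℝ g' * heckeMatrix p j' := by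
  have hdet := det_eq848 g
  obtain ⟨g', h00, h01, h10, h11⟩ := exists_SL2_848 (g 0 0 + j * g 1 0) e (p * g 1 0)
    (g 1 1 - g 1 0 * j') (by linear_combination hdet + (g 1 0) * he)
  refine ⟨g', h10, h11, ?_⟩
  ext i j
  fin_cases i <;> fin_cases j <;>
    simp [hp, Matrix.mul_apply, Fin.sum_univ_two, h00, h01, h10, h11]
  all_goals first
    | (have := congrArg (Int.cast : ℤ → ℝ) he; push_cast at this ⊢; linear_combination this)
    | (have := congrArg (Int.cast : ℤ → ℝ) he; push_cast at this ⊢; linear_combination -this)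
    | ring1

theorem heckeMatrix_mul_track' (g : SL(2, ℤ)) (j : ℕ) (e : ℤ)
    (he : g 0 0 + j * g 1 0 = p * e) :
    ∃ g' : SL(2, ℤ), g' 1 0 = g 1 0 ∧ g' 1 1 = p * g 1 1 ∧
      heckeMatrix p j * mapGL ℝ g = mapGL ℝ g' * heckeDiagMatrix p := by
  have hdet := det_eq848 g
  obtain ⟨g', h00, h01, h10, h11⟩ := exists_SL2_848 e (g 0 1 + j * g 1 1) (g 1 0) (p * g 1 1)
    (by linear_combination hdet - (g 1 1) * he)
  refine ⟨g', h10, h11, ?_⟩
  ext i j
  fin_cases i <;> fin_cases j <;>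
    simp [hp, Matrix.mul_apply, Fin.sum_univ_two, h00, h01, h10, h11]
  all_goals first
    | (have := congrArg (Int.cast : ℤ → ℝ) he; push_cast at this ⊢; linear_combination this)
    | (have := congrArg (Int.cast : ℤ → ℝ) he; push_cast at this ⊢; linear_combination -this)
    | ring1

theorem heckeDiagMatrix_mul_track (g : SL(2, ℤ)) (j' : ℕ) (e : ℤ)
    (he : g 1 1 = g 1 0 * j' + p * e) :
    ∃ g' : SL(2, ℤ), g' 1 0 = g 1 0 ∧ g' 1 1 = e ∧
      heckeDiagMatrix p * mapGL ℝ g = mapGL ℝ g' * heckeMatrix p j' := by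
  have hdet := det_eq848 g
  obtain ⟨g', h00, h01, h10, h11⟩ := exists_SL2_848 (p * g 0 0) (g 0 1 - g 0 0 * j') (g 1 0) e
    (by linear_combination hdet - (g 0 0) * he)
  refine ⟨g', h10, h11, ?_⟩
  ext i j
  fin_cases i <;> fin_cases j <;>
    simp [hp, Matrix.mul_apply, Fin.sum_univ_two, h00, h01, h10, h11]
  all_goals first
    | (have := congrArg (Int.cast : ℤ → ℝ) he; push_cast at this ⊢; linear_combination this)
    | (have := congrArg (Int.cast : ℤ → ℝ) he; push_cast at this ⊢; linear_combination -this)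
    | ring1

theorem heckeDiagMatrix_mul_track' (g : SL(2, ℤ)) (e : ℤ) (he : g 1 0 = p * e) :
    ∃ g' : SL(2, ℤ), g' 1 0 = e ∧ g' 1 1 = g 1 1 ∧
      heckeDiagMatrix p * mapGL ℝ g = mapGL ℝ g' * heckeDiagMatrix p := by
  have hdet := det_eq848 g
  obtain ⟨g', h00, h01, h10, h11⟩ := exists_SL2_848 (g 0 0) (p * g 0 1) e (g 1 1)
    (by linear_combination hdet + (g 0 1) * he)
  refine ⟨g', h10, h11, ?_⟩
  ext i j
  fin_cases i <;> fin_cases j <;>
    simp [hp, Matrix.mul_apply, Fin.sum_univ_two, h00, h01, h10, h11]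
  all_goals first
    | (have := congrArg (Int.cast : ℤ → ℝ) he; push_cast at this ⊢; linear_combination this)
    | (have := congrArg (Int.cast : ℤ → ℝ) he; push_cast at this ⊢; linear_combination -this)
    | ring1

end commutation

section reindex

variable {p : ℕ} [NeZero p]

theorem sum_range_eq_sum_zmod848 {M : Type*} [AddCommMonoid M] (F : ℕ → M) :
    ∑ j ∈ Finset.range p, F j = ∑ x : ZMod p, F x.val := by
  refine Finset.sum_nbij' (fun j : ℕ ↦ (j : ZMod p)) (fun x : ZMod p ↦ x.val)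
    (fun _ _ ↦ Finset.mem_univ _)
    (fun x _ ↦ Finset.mem_range.mpr x.val_lt) (fun j hj ↦ ?_) (fun x _ ↦ ?_) (fun j hj ↦ ?_)
  · exact ZMod.val_cast_of_lt (Finset.mem_range.mp hj)
  · exact ZMod.natCast_zmod_val x
  · rw [ZMod.val_cast_of_lt (Finset.mem_range.mp hj)]

theorem heckeU_eq_sum_zmod848 (k : ℤ) (f : ℍ → ℂ) :
    heckeU k p f = ∑ x : ZMod p, f ∣[k] heckeMatrix p x.val := by
  rw [heckeU_def]
  exact sum_range_eq_sum_zmod848 _

end reindex

section heckeT1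

variable {p : ℕ}

/-- Coset representatives of `T_p`, indexed by the projective line over `𝔽_p`. -/
def heckeRep848 (p : ℕ) (x : OnePoint (ZMod p)) : GL (Fin 2) ℝ :=
  x.elim (heckeDiagMatrix p) (fun j ↦ heckeMatrix p j.val)

theorem heckeRep848_infty : heckeRep848 p ∞ = heckeDiagMatrix p := rfl

theorem heckeRep848_coe (j : ZMod p) : heckeRep848 p j = heckeMatrix p j.val := rfl

/-- The diamond weight of a coset: `p` for the diagonal coset, `1` for the others. -/
def cosetWt (N p : ℕ) (x : OnePoint (ZMod p)) : ZMod N :=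
  x.elim (p : ZMod N) (fun _ ↦ 1)

theorem cosetWt_infty (N : ℕ) : cosetWt N p ∞ = (p : ZMod N) := rfl

theorem cosetWt_coe (N : ℕ) (j : ZMod p) : cosetWt N p (j : OnePoint (ZMod p)) = 1 := rfl

variable [Fact p.Prime]

variable (p) in
/-- Reduction mod `p` of the transposed-inverse-type matrix governing the permutation of cosets. -/
def redMatrix848 (g : SL(2, ℤ)) : GL (Fin 2) (ZMod p) :=
  Matrix.GeneralLinearGroup.mkOfDetNeZero
    !![((g 1 1 : ℤ) : ZMod p), ((g 0 1 : ℤ) : ZMod p);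
       ((g 1 0 : ℤ) : ZMod p), ((g 0 0 : ℤ) : ZMod p)]
    (by
      have := congrArg (Int.cast : ℤ → ZMod p) (det_eq848 g)
      push_cast at this
      rw [Matrix.det_fin_two_of,
        show ((g 1 1 : ℤ) : ZMod p) * ((g 0 0 : ℤ) : ZMod p) -
            ((g 0 1 : ℤ) : ZMod p) * ((g 1 0 : ℤ) : ZMod p) = 1 by linear_combination this]
      exact one_ne_zero)

theorem redMatrix848_apply_zero_zero (g : SL(2, ℤ)) :
    redMatrix848 p g 0 0 = ((g 1 1 : ℤ) : ZMod p) := by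
  simp [redMatrix848]

theorem redMatrix848_apply_zero_one (g : SL(2, ℤ)) :
    redMatrix848 p g 0 1 = ((g 0 1 : ℤ) : ZMod p) := by
  simp [redMatrix848]

theorem redMatrix848_apply_one_zero (g : SL(2, ℤ)) :
    redMatrix848 p g 1 0 = ((g 1 0 : ℤ) : ZMod p) := by
  simp [redMatrix848]

theorem redMatrix848_apply_one_one (g : SL(2, ℤ)) :
    redMatrix848 p g 1 1 = ((g 0 0 : ℤ) : ZMod p) := by
  simp [redMatrix848]

theorem heckeRep848_mul {N : ℕ} (hpN : ¬ p ∣ N) (g : SL(2, ℤ)) (hg : (N : ℤ) ∣ g 1 0)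
    (x : OnePoint (ZMod p)) :
    ∃ g' : SL(2, ℤ), (N : ℤ) ∣ g' 1 0 ∧
      ((g' 1 1 : ℤ) : ZMod N) * cosetWt N p x =
        cosetWt N p (redMatrix848 p g • x) * ((g 1 1 : ℤ) : ZMod N) ∧
      heckeRep848 p x * mapGL ℝ g = mapGL ℝ g' * heckeRep848 p (redMatrix848 p g • x) := by
  have hp : p ≠ 0 := (Fact.out : p.Prime).ne_zero
  have hgN : ((g 1 0 : ℤ) : ZMod N) = 0 := (ZMod.intCast_zmod_eq_zero_iff_dvd _ _).mpr hg
  induction x using OnePoint.rec with
  | infty =>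
    rw [OnePoint.smul_infty_eq_ite]
    by_cases hc : ((g 1 0 : ℤ) : ZMod p) = 0
    · rw [if_pos (by simpa [redMatrix848_apply_one_zero] using hc), heckeRep848_infty]
      obtain ⟨e, he⟩ := (ZMod.intCast_zmod_eq_zero_iff_dvd _ _).mp hc
      obtain ⟨g', hg', hg'1, hmul⟩ := heckeDiagMatrix_mul_track' hp g e he
      refine ⟨g', ?_, ?_, hmul⟩
      · rw [hg']
        have hcop : IsCoprime (N : ℤ) (p : ℤ) :=
          Nat.isCoprime_iff_coprime.mpr ((Nat.Prime.coprime_iff_not_dvd Fact.out).mpr hpN).symm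
        exact hcop.dvd_of_dvd_mul_left (he ▸ hg)
      · rw [hg'1, cosetWt_infty, mul_comm]
    · rw [if_neg (by simpa [redMatrix848_apply_one_zero] using hc), heckeRep848_infty,
        heckeRep848_coe]
      set y : ZMod p := redMatrix848 p g 0 0 / redMatrix848 p g 1 0 with hy
      obtain ⟨e, he⟩ : (p : ℤ) ∣ g 1 1 - g 1 0 * y.val := by
        rw [← ZMod.intCast_zmod_eq_zero_iff_dvd]
        push_cast
        rw [ZMod.natCast_zmod_val, hy, redMatrix848_apply_zero_zero, redMatrix848_apply_one_zero,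
          mul_div_cancel₀ _ hc, sub_self]
      obtain ⟨g', hg', hg'1, hmul⟩ :=
        heckeDiagMatrix_mul_track hp g y.val e (by linear_combination he)
      refine ⟨g', hg' ▸ hg, ?_, hmul⟩
      rw [hg'1, cosetWt_infty, cosetWt_coe, one_mul]
      have := congrArg (Int.cast : ℤ → ZMod N) he
      push_cast at this
      rw [hgN] at this
      linear_combination -this
  | coe j =>
    rw [OnePoint.smul_some_eq_ite]
    by_cases h : redMatrix848 p g 1 0 * j + redMatrix848 p g 1 1 = 0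
    · rw [if_pos h, heckeRep848_infty, heckeRep848_coe]
      rw [redMatrix848_apply_one_zero, redMatrix848_apply_one_one] at h
      obtain ⟨e, he⟩ : (p : ℤ) ∣ g 0 0 + j.val * g 1 0 := by
        rw [← ZMod.intCast_zmod_eq_zero_iff_dvd]
        push_cast
        rw [ZMod.natCast_zmod_val]
        linear_combination h
      obtain ⟨g', hg', hg'1, hmul⟩ := heckeMatrix_mul_track' hp g j.val e he
      refine ⟨g', hg' ▸ hg, ?_, hmul⟩
      rw [hg'1, cosetWt_infty, cosetWt_coe, mul_one]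
      push_cast
      rfl
    · rw [if_neg h, heckeRep848_coe, heckeRep848_coe]
      set y : ZMod p := (redMatrix848 p g 0 0 * j + redMatrix848 p g 0 1) /
        (redMatrix848 p g 1 0 * j + redMatrix848 p g 1 1) with hy
      obtain ⟨e, he⟩ : (p : ℤ) ∣ g 0 1 + j.val * g 1 1 - y.val * (g 0 0 + j.val * g 1 0) := by
        rw [← ZMod.intCast_zmod_eq_zero_iff_dvd]
        push_cast
        rw [ZMod.natCast_zmod_val, ZMod.natCast_zmod_val,
          show ((g 0 0 : ℤ) : ZMod p) + j * ((g 1 0 : ℤ) : ZMod p)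
            = redMatrix848 p g 1 0 * j + redMatrix848 p g 1 1 by
              rw [redMatrix848_apply_one_zero, redMatrix848_apply_one_one]; ring,
          hy, div_mul_cancel₀ _ h, redMatrix848_apply_zero_zero, redMatrix848_apply_zero_one]
        ring
      obtain ⟨g', hg', hg'1, hmul⟩ :=
        heckeMatrix_mul_track hp g j.val y.val e (by linear_combination he)
      refine ⟨g', hg' ▸ dvd_mul_of_dvd_right hg _, ?_, hmul⟩
      rw [hg'1, cosetWt_coe, cosetWt_coe, mul_one, one_mul]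
      push_cast
      rw [hgN]
      ring

/-- Function-level `T_p` for `Γ₁(N)`: the diamond operator (slash by `σ ∈ Γ₀(N)` with lower
right entry `≡ p`) is inserted in front of the diagonal coset. -/
def heckeT1 (k : ℤ) (p : ℕ) (σ : SL(2, ℤ)) (f : ℍ → ℂ) : ℍ → ℂ :=
  heckeU k p f + (f ∣[k] mapGL ℝ σ) ∣[k] heckeDiagMatrix p

/-- The element of `Γ₀(N)` by which the coset `x` is twisted. -/
def cosetTwist (p : ℕ) (σ : SL(2, ℤ)) (x : OnePoint (ZMod p)) : SL(2, ℤ) :=
  x.elim σ (fun _ ↦ 1)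

omit [Fact p.Prime] in
theorem cosetTwist_infty (σ : SL(2, ℤ)) : cosetTwist p σ ∞ = σ := rfl

omit [Fact p.Prime] in
theorem cosetTwist_coe (σ : SL(2, ℤ)) (j : ZMod p) :
    cosetTwist p σ (j : OnePoint (ZMod p)) = 1 := rfl

omit [Fact p.Prime] in
theorem cosetTwist_mem {N : ℕ} {σ : SL(2, ℤ)} (hσ : σ ∈ Gamma0 N) (x : OnePoint (ZMod p)) :
    cosetTwist p σ x ∈ Gamma0 N := by
  induction x using OnePoint.rec with
  | infty => exact hσ
  | coe j => exact (Gamma0 N).one_mem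

omit [Fact p.Prime] in
theorem cosetTwist_entry {N : ℕ} {σ : SL(2, ℤ)} (hσp : ((σ 1 1 : ℤ) : ZMod N) = (p : ZMod N))
    (x : OnePoint (ZMod p)) :
    (((cosetTwist p σ x) 1 1 : ℤ) : ZMod N) = cosetWt N p x := by
  induction x using OnePoint.rec with
  | infty => rw [cosetTwist_infty, cosetWt_infty, hσp]
  | coe j => rw [cosetTwist_coe, cosetWt_coe]; simp

theorem heckeT1_eq_sum (k : ℤ) (σ : SL(2, ℤ)) (f : ℍ → ℂ) :
    heckeT1 k p σ f =
      ∑ x : OnePoint (ZMod p), (f ∣[k] mapGL ℝ (cosetTwist p σ x)) ∣[k] heckeRep848 p x := by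
  have : NeZero p := ⟨(Fact.out : p.Prime).ne_zero⟩
  rw [heckeT1, heckeU_eq_sum_zmod848, add_comm]
  rw [show (∑ x : OnePoint (ZMod p), (f ∣[k] mapGL ℝ (cosetTwist p σ x)) ∣[k] heckeRep848 p x) =
      _ from Fintype.sum_option
        (fun x : OnePoint (ZMod p) ↦ (f ∣[k] mapGL ℝ (cosetTwist p σ x)) ∣[k] heckeRep848 p x)]
  congr 1
  refine Finset.sum_congr rfl fun j _ ↦ ?_
  change f ∣[k] heckeMatrix p j.val =
    (f ∣[k] mapGL ℝ (cosetTwist p σ (j : OnePoint (ZMod p)))) ∣[k] heckeMatrix p j.val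
  rw [cosetTwist_coe, map_one, SlashAction.slash_one]

/-- **`T_p` preserves `Γ₁(N)`-invariance.** -/
theorem heckeT1_SI1 {N : ℕ} (hpN : ¬ p ∣ N) {k : ℤ} {f : ℍ → ℂ} (hf : SI1 N k f)
    {σ : SL(2, ℤ)} (hσ : σ ∈ Gamma0 N) (hσp : ((σ 1 1 : ℤ) : ZMod N) = (p : ZMod N)) :
    SI1 N k (heckeT1 k p σ f) := by
  intro g hg
  have hg0 : g ∈ Gamma0 N := Gamma1_in_Gamma0 N hg
  have hcN : (N : ℤ) ∣ g 1 0 :=
    (ZMod.intCast_zmod_eq_zero_iff_dvd _ _).mp (Gamma0_mem.mp hg0)
  have hg11 : ((g 1 1 : ℤ) : ZMod N) = 1 := ((Gamma1_mem N g).mp hg).2.1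
  rw [heckeT1_eq_sum k σ f, SlashAction.sum_slash]
  calc ∑ x : OnePoint (ZMod p),
        ((f ∣[k] mapGL ℝ (cosetTwist p σ x)) ∣[k] heckeRep848 p x) ∣[k] mapGL ℝ g
      = ∑ x : OnePoint (ZMod p), (f ∣[k] mapGL ℝ (cosetTwist p σ (redMatrix848 p g • x)))
          ∣[k] heckeRep848 p (redMatrix848 p g • x) := by
        refine Finset.sum_congr rfl fun x _ ↦ ?_
        obtain ⟨g', hg', hg'1, hmul⟩ := heckeRep848_mul hpN g hcN x
        have hg'N : g' ∈ Gamma0 N :=
          Gamma0_mem.mpr ((ZMod.intCast_zmod_eq_zero_iff_dvd _ _).mpr hg')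
        have hg'0 : ((g' 1 0 : ℤ) : ZMod N) = 0 := Gamma0_mem.mp hg'N
        rw [← SlashAction.slash_mul, hmul, SlashAction.slash_mul]
        congr 1
        rw [← SlashAction.slash_mul, ← map_mul]
        refine slash_eq_of_entry_eq hf ((Gamma0 N).mul_mem (cosetTwist_mem hσ x) hg'N)
          (cosetTwist_mem hσ _) ?_
        rw [cosetTwist_entry hσp]
        have e : (cosetTwist p σ x * g') 1 1 =
            (cosetTwist p σ x) 1 0 * g' 0 1 + (cosetTwist p σ x) 1 1 * g' 1 1 := by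
          rw [Matrix.SpecialLinearGroup.coe_mul, Matrix.mul_apply, Fin.sum_univ_two]
        rw [e]
        push_cast
        rw [Gamma0_mem.mp (cosetTwist_mem hσ x), cosetTwist_entry hσp, zero_mul, zero_add,
          mul_comm, hg'1, hg11, mul_one]
    _ = ∑ x : OnePoint (ZMod p),
          (f ∣[k] mapGL ℝ (cosetTwist p σ x)) ∣[k] heckeRep848 p x :=
        Equiv.sum_comp (MulAction.toPerm (redMatrix848 p g))
          (fun x ↦ (f ∣[k] mapGL ℝ (cosetTwist p σ x)) ∣[k] heckeRep848 p x)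

end heckeT1

end Fermat.Agent.S48.H848
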