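/-
S48 piece P0 (helper848): diamond operators and the Hecke operator `T_p` on
`CuspForm (Gamma1 N) k` (bundled), from the function-level results of `Coset.lean` and the
Prelude theorems on `heckeU` / `heckeT`.
-/
import Fermat.Agent.S48.H848.Coset
import Fermat.Prelude.Def_ModularForm_HeckeOperatorForms

set_option autoImplicit false

noncomputable section

namespace Fermat.Agent.S48.H848

open Matrix.SpecialLinearGroup UpperHalfPlane CongruenceSubgroup ModularForm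
open scoped MatrixGroups ModularForm OnePoint Manifold

variable {N : ℕ} {k : ℤ}

/-- Bundle a `Γ₁(N)`-invariant holomorphic function vanishing at all cusps. -/
def mkCusp1 (F : ℍ → ℂ) (hSI : SI1 N k F) (hol : MDiff F)
    (hz : ∀ {c : OnePoint ℝ}, IsCusp c (Gamma1 N : Subgroup (GL (Fin 2) ℝ)) → c.IsZeroAt F k) :
    CuspForm (Gamma1 N) k where
  toFun := F
  slash_action_eq' := fun γ hγ ↦ by
    obtain ⟨g', hg, rfl⟩ := hγ
    exact hSI g' hg
  holo' := hol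
  zero_at_cusps' := hz

@[simp] theorem coe_mkCusp1 (F : ℍ → ℂ) (hSI : SI1 N k F) (hol : MDiff F)
    (hz : ∀ {c : OnePoint ℝ}, IsCusp c (Gamma1 N : Subgroup (GL (Fin 2) ℝ)) → c.IsZeroAt F k) :
    ⇑(mkCusp1 F hSI hol hz) = F := rfl

theorem SI1_coe (f : CuspForm (Gamma1 N) k) : SI1 N k ⇑f := fun _ hg ↦
  SlashInvariantFormClass.slash_action_eq f _ (Subgroup.mem_map_of_mem (mapGL ℝ) hg)

/-- Slash by an element of `Γ₀(N)` preserves `Γ₁(N)`-invariance. -/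
theorem SI1_slash {f : ℍ → ℂ} (hf : SI1 N k f) {σ : SL(2, ℤ)} (hσ : σ ∈ Gamma0 N) :
    SI1 N k (f ∣[k] mapGL ℝ σ) := by
  intro g hg
  have hg0 : g ∈ Gamma0 N := Gamma1_in_Gamma0 N hg
  rw [← SlashAction.slash_mul, ← map_mul]
  refine slash_eq_of_entry_eq hf ((Gamma0 N).mul_mem hσ hg0) hσ ?_
  have e : (σ * g) 1 1 = σ 1 0 * g 0 1 + σ 1 1 * g 1 1 := by
    rw [Matrix.SpecialLinearGroup.coe_mul, Matrix.mul_apply, Fin.sum_univ_two]
  rw [e]
  push_cast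
  rw [Gamma0_mem.mp hσ, ((Gamma1_mem N g).mp hg).2.1, zero_mul, zero_add, mul_one]

section cusps

variable [NeZero N]

/-- Slash by an element of `SL(2, ℤ)` preserves vanishing at all cusps. -/
theorem isZeroAt_slash_SL (f : CuspForm (Gamma1 N) k) (σ : SL(2, ℤ)) {c : OnePoint ℝ}
    (hc : IsCusp c (Gamma1 N : Subgroup (GL (Fin 2) ℝ))) :
    c.IsZeroAt (⇑f ∣[k] mapGL ℝ σ) k := by
  rw [← OnePoint.IsZeroAt.smul_iff]
  apply CuspFormClass.zero_at_cusps f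
  rw [Subgroup.IsArithmetic.isCusp_iff_isCusp_SL2Z] at hc ⊢
  exact hc.smul_of_mem ⟨σ, rfl⟩

/-- The diamond operator attached to `σ ∈ Γ₀(N)`. -/
def diamondCF (σ : SL(2, ℤ)) (hσ : σ ∈ Gamma0 N) (f : CuspForm (Gamma1 N) k) :
    CuspForm (Gamma1 N) k :=
  mkCusp1 (⇑f ∣[k] mapGL ℝ σ) (SI1_slash (SI1_coe f) hσ)
    ((CuspFormClass.holo f).slash k _) (fun hc ↦ isZeroAt_slash_SL f σ hc)

@[simp] theorem coe_diamondCF (σ : SL(2, ℤ)) (hσ : σ ∈ Gamma0 N) (f : CuspForm (Gamma1 N) k) :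
    ⇑(diamondCF σ hσ f) = ⇑f ∣[k] mapGL ℝ σ := rfl

theorem isZeroAt_neg848 {F : ℍ → ℂ} {c : OnePoint ℝ} (h : c.IsZeroAt F k) :
    c.IsZeroAt (-F) k := by
  intro g hg
  rw [SlashAction.neg_slash]
  exact (h g hg).neg

/-- Slash by the diagonal matrix `diag(q, 1)` preserves vanishing at all cusps. -/
theorem isZeroAt_slash_diag (f : CuspForm (Gamma1 N) k) (q : ℕ) {c : OnePoint ℝ}
    (hc : IsCusp c (Gamma1 N : Subgroup (GL (Fin 2) ℝ))) :
    c.IsZeroAt (⇑f ∣[k] heckeDiagMatrix q) k := by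
  have h1 := CuspFormClass.isZeroAt_heckeT f q hc
  have h2 := CuspFormClass.isZeroAt_heckeU f q hc
  have e : ⇑f ∣[k] heckeDiagMatrix q = heckeT k q ⇑f + -heckeU k q ⇑f := by
    rw [heckeT_eq_heckeU_add]
    abel
  rw [e]
  exact h1.add (isZeroAt_neg848 h2)

/-- The bundled form `f ∣ diag(q, 1)`, when it is `Γ₁(N)`-invariant. -/
def diagCF (q : ℕ) (f : CuspForm (Gamma1 N) k)
    (h : SI1 N k (⇑f ∣[k] heckeDiagMatrix q)) : CuspForm (Gamma1 N) k :=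
  mkCusp1 (⇑f ∣[k] heckeDiagMatrix q) h ((CuspFormClass.holo f).slash k _)
    (fun hc ↦ isZeroAt_slash_diag f q hc)

@[simp] theorem coe_diagCF (q : ℕ) (f : CuspForm (Gamma1 N) k)
    (h : SI1 N k (⇑f ∣[k] heckeDiagMatrix q)) :
    ⇑(diagCF q f h) = ⇑f ∣[k] heckeDiagMatrix q := rfl

/-- The Hecke operator `T_p` on `S_k(Γ₁(N))`, `p ∤ N` prime; `σ ∈ Γ₀(N)` with lower right entry
`≡ p` realises the diamond operator `⟨p⟩`. -/
def heckeT1CF {p : ℕ} [Fact p.Prime] (hpN : ¬ p ∣ N) (σ : SL(2, ℤ)) (hσ : σ ∈ Gamma0 N)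
    (hσp : ((σ 1 1 : ℤ) : ZMod N) = (p : ZMod N)) (f : CuspForm (Gamma1 N) k) :
    CuspForm (Gamma1 N) k :=
  mkCusp1 (heckeT1 k p σ ⇑f) (heckeT1_SI1 hpN (SI1_coe f) hσ hσp)
    ((mdifferentiable_heckeU (CuspFormClass.holo f) k p).add
      (((CuspFormClass.holo f).slash k _).slash k _))
    (fun hc ↦ (CuspFormClass.isZeroAt_heckeU f p hc).add
      (isZeroAt_slash_diag (diamondCF σ hσ f) p hc))

@[simp] theorem coe_heckeT1CF {p : ℕ} [Fact p.Prime] (hpN : ¬ p ∣ N) (σ : SL(2, ℤ))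
    (hσ : σ ∈ Gamma0 N) (hσp : ((σ 1 1 : ℤ) : ZMod N) = (p : ZMod N))
    (f : CuspForm (Gamma1 N) k) :
    ⇑(heckeT1CF hpN σ hσ hσp f) = heckeT1 k p σ ⇑f := rfl

end cusps

end Fermat.Agent.S48.H848
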