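/-
S48 piece P0 (helper848): q-expansion calculus for `1`-periodic holomorphic functions bounded at
`i∞` (predicate `Nice`), in particular the q-expansion of `f ∣ diag(q, 1)`.
-/
import Fermat.Agent.S48.H848.Forms
import Fermat.Prelude.Thm_UpperHalfPlane_qCoeff_heckeT
import Fermat.Prelude.Thm_UpperHalfPlane_qCoeff_heckeU
import Fermat.Prelude.Thm_UpperHalfPlane_eq_of_forall_qCoeff_eq
import Fermat.Prelude.Thm_ModularForm_periodic_heckeT_comp_ofComplex
import Fermat.Prelude.Thm_ModularForm_periodic_heckeU_comp_ofComplex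
import Fermat.Prelude.Thm_ModularForm_isBoundedAtImInfty_heckeT
import Fermat.Prelude.Thm_ModularForm_isBoundedAtImInfty_heckeU

set_option autoImplicit false

noncomputable section

namespace Fermat.Agent.S48.H848

open Matrix.SpecialLinearGroup UpperHalfPlane CongruenceSubgroup ModularForm
open scoped MatrixGroups ModularForm OnePoint Manifold

/-- `1`-periodic, holomorphic, bounded at `i∞`. -/
structure Nice (F : ℍ → ℂ) : Prop where
  per : Function.Periodic (F ∘ UpperHalfPlane.ofComplex) 1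
  hol : MDiff F
  bdd : IsBoundedAtImInfty F

namespace Nice

variable {F G : ℍ → ℂ}

theorem analytic (h : Nice F) : AnalyticAt ℂ (cuspFunction 1 F) 0 :=
  analyticAt_cuspFunction_zero one_pos h.per h.hol h.bdd

theorem add (hF : Nice F) (hG : Nice G) : Nice (F + G) where
  per := hF.per.add hG.per
  hol := hF.hol.add hG.hol
  bdd := hF.bdd.add hG.bdd

theorem neg (hF : Nice F) : Nice (-F) where
  per := fun z ↦ by
    have := hF.per z
    simp only [Function.comp_apply, Pi.neg_apply] at this ⊢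
    rw [this]
  hol := hF.hol.neg
  bdd := hF.bdd.neg

theorem sub (hF : Nice F) (hG : Nice G) : Nice (F - G) := by
  rw [sub_eq_add_neg]
  exact hF.add hG.neg

theorem smul (hF : Nice F) (c : ℂ) : Nice (c • F) where
  per := fun z ↦ by
    have := hF.per z
    simp only [Function.comp_apply, Pi.smul_apply] at this ⊢
    rw [this]
  hol := hF.hol.const_smul c
  bdd := hF.bdd.const_smul_left c

theorem heckeU (hF : Nice F) (k : ℤ) (p : ℕ) : Nice (heckeU k p F) where
  per := periodic_heckeU_comp_ofComplex hF.per k p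
  hol := mdifferentiable_heckeU hF.hol k p
  bdd := isBoundedAtImInfty_heckeU hF.bdd k p

theorem heckeT (hF : Nice F) (k : ℤ) (p : ℕ) : Nice (heckeT k p F) where
  per := periodic_heckeT_comp_ofComplex hF.per k p
  hol := mdifferentiable_heckeT hF.hol k p
  bdd := isBoundedAtImInfty_heckeT hF.bdd k p

theorem slash_diag_eq (F : ℍ → ℂ) (k : ℤ) (q : ℕ) :
    F ∣[k] heckeDiagMatrix q = ModularForm.heckeT k q F - ModularForm.heckeU k q F := by
  rw [heckeT_eq_heckeU_add]
  abel

theorem slash_diag (hF : Nice F) (k : ℤ) (q : ℕ) : Nice (F ∣[k] heckeDiagMatrix q) := by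
  rw [slash_diag_eq]
  exact (hF.heckeT k q).sub (hF.heckeU k q)

theorem one_mem_strictPeriods_Gamma1_848 (N : ℕ) :
    (1 : ℝ) ∈ (Gamma1 N : Subgroup (GL (Fin 2) ℝ)).strictPeriods := by
  rw [strictPeriods_Gamma1]
  exact AddSubgroup.mem_zmultiples 1

theorem of_cusp {N : ℕ} [NeZero N] {k : ℤ} (f : CuspForm (Gamma1 N) k) : Nice ⇑f where
  per := SlashInvariantFormClass.periodic_comp_ofComplex f (one_mem_strictPeriods_Gamma1_848 N)
  hol := CuspFormClass.holo f
  bdd := by
    haveI : Fact (IsCusp OnePoint.infty (Gamma1 N : Subgroup (GL (Fin 2) ℝ))) :=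
      ⟨Subgroup.isCusp_of_mem_strictPeriods one_pos (one_mem_strictPeriods_Gamma1_848 N)⟩
    exact ModularFormClass.bdd_at_infty f

open ModularFormClass in
theorem qCoeff_add (hF : Nice F) (hG : Nice G) (n : ℕ) :
    qCoeff (F + G) n = qCoeff F n + qCoeff G n := by
  simp only [qCoeff, qExpansion_add hF.analytic hG.analytic, map_add]

open ModularFormClass in
theorem qCoeff_sub (hF : Nice F) (hG : Nice G) (n : ℕ) :
    qCoeff (F - G) n = qCoeff F n - qCoeff G n := by
  simp only [qCoeff, qExpansion_sub hF.analytic hG.analytic, map_sub]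

open ModularFormClass in
theorem qCoeff_smul (hF : Nice F) (c : ℂ) (n : ℕ) :
    qCoeff (c • F) n = c * qCoeff F n := by
  simp only [qCoeff, qExpansion_smul hF.analytic, PowerSeries.coeff_smul, smul_eq_mul]

open ModularFormClass in
theorem qCoeff_heckeU (hF : Nice F) (k : ℤ) {p : ℕ} (hp : p ≠ 0) (n : ℕ) :
    qCoeff (ModularForm.heckeU k p F) n = qCoeff F (n * p) := by
  rw [UpperHalfPlane.qCoeff_heckeU hF.per hF.hol hF.bdd k hp n, coeffHeckeU_apply]

open ModularFormClass in
/-- The q-expansion of `F ∣ diag(q, 1)`, i.e. of `q^(k-1) F(q τ)`. -/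
theorem qCoeff_slash_diag (hF : Nice F) (k : ℤ) {q : ℕ} (hq : q ≠ 0) (n : ℕ) :
    qCoeff (F ∣[k] heckeDiagMatrix q) n =
      if q ∣ n then (q : ℂ) ^ (k - 1) * qCoeff F (n / q) else 0 := by
  rw [slash_diag_eq, qCoeff_sub (hF.heckeT k q) (hF.heckeU k q),
    UpperHalfPlane.qCoeff_heckeT hF.per hF.hol hF.bdd k hq n,
    UpperHalfPlane.qCoeff_heckeU hF.per hF.hol hF.bdd k hq n, coeffHeckeT_eq_coeffHeckeU_add]
  ring

theorem ext (hF : Nice F) (hG : Nice G)
    (h : ∀ n : ℕ, ModularFormClass.qCoeff F n = ModularFormClass.qCoeff G n) : F = G :=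
  UpperHalfPlane.eq_of_forall_qCoeff_eq hF.per hF.hol hF.bdd hG.per hG.hol hG.bdd h

end Nice

end Fermat.Agent.S48.H848
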