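/-
S48 piece P0 (helper848): `V_p`-injectivity on `S_k(Γ₁(N))`, `p ∤ N`:
if `g` and `g ∣ diag(p, 1)` are both cusp forms on `Γ₁(N)` then `g = 0`.
Proof: iterating `T_p` shows that `(⟨p⟩^{m-1} g) ∣ diag(p^m, 1)` is a cusp form on `Γ₁(N)` for
all `m`; its q-expansion has order `≥ p^m`, which contradicts the Sturm-type bound of the Prelude.
-/
import Fermat.Agent.S48.H848.QExp
import Fermat.Prelude.Thm_ModularForm_eq_zero_of_lt_order_qExpansion_of_isArithmetic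
import Fermat.Prelude.Thm_UpperHalfPlane_qExpansion_coeff_nat_mul

set_option autoImplicit false

noncomputable section

namespace Fermat.Agent.S48.H848

open Matrix.SpecialLinearGroup UpperHalfPlane CongruenceSubgroup ModularForm
open scoped MatrixGroups ModularForm OnePoint Manifold Pointwise

variable {N : ℕ} {k : ℤ}

theorem SI1.add {F G : ℍ → ℂ} (hF : SI1 N k F) (hG : SI1 N k G) : SI1 N k (F + G) := by
  intro g hg
  rw [SlashAction.add_slash, hF g hg, hG g hg]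

theorem SI1.neg {F : ℍ → ℂ} (hF : SI1 N k F) : SI1 N k (-F) := by
  intro g hg
  rw [SlashAction.neg_slash, hF g hg]

theorem SI1.sub {F G : ℍ → ℂ} (hF : SI1 N k F) (hG : SI1 N k G) : SI1 N k (F - G) := by
  rw [sub_eq_add_neg]
  exact hF.add hG.neg

theorem SI1.smul {F : ℍ → ℂ} (hF : SI1 N k F) (c : ℂ) : SI1 N k (c • F) := by
  intro g hg
  have h := ModularForm.SL_smul_slash k g F c
  rw [show (c • F) ∣[k] mapGL ℝ g = c • (F ∣[k] mapGL ℝ g) from h, hF g hg]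

/-- Existence of `σ ∈ Γ₀(N)` with lower right entry `≡ p` and lower left entry divisible by
`p ^ i`. -/
theorem exists_sigma {p : ℕ} (hp : p.Prime) (hpN : ¬ p ∣ N) (i : ℕ) :
    ∃ σ : SL(2, ℤ), σ ∈ Gamma0 N ∧ ((σ 1 1 : ℤ) : ZMod N) = (p : ZMod N) ∧
      σ 1 0 = (p ^ i : ℕ) * (N : ℤ) := by
  have hcop : IsCoprime (p : ℤ) (N : ℤ) :=
    Nat.isCoprime_iff_coprime.mpr ((Nat.Prime.coprime_iff_not_dvd hp).mpr hpN)
  have h1 : IsCoprime ((p : ℤ) + N) (N : ℤ) := by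
    simpa using hcop.add_mul_left_left 1
  have h2 : IsCoprime ((p : ℤ) + N) (p : ℤ) := by
    have := hcop.symm.add_mul_left_left 1
    rwa [mul_one, add_comm] at this
  have h3 : IsCoprime ((p : ℤ) + N) (((p ^ i : ℕ) : ℤ) * (N : ℤ)) := by
    push_cast
    exact (h2.pow_right).mul_right h1
  obtain ⟨a, b, hab⟩ := h3
  obtain ⟨σ, h00, h01, h10, h11⟩ := exists_SL2_848 a (-b) ((p ^ i : ℕ) * (N : ℤ)) ((p : ℤ) + N)
    (by linear_combination hab)
  refine ⟨σ, ?_, ?_, h10⟩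
  · rw [Gamma0_mem, h10]
    push_cast
    simp
  · rw [h11]
    push_cast
    simp


/-- Commutation of the diamond operator with `∣ diag(p^i, 1)` on forms `h` such that both `h`
and `h ∣ diag(p^i, 1)` are `Γ₁(N)`-invariant. -/
theorem slash_diag_comm {p : ℕ} (hp : p.Prime) (hpN : ¬ p ∣ N) (i : ℕ) {h : ℍ → ℂ}
    (hh : SI1 N k h) (hV : SI1 N k (h ∣[k] heckeDiagMatrix (p ^ i))) {σ : SL(2, ℤ)}
    (hσ : σ ∈ Gamma0 N) (hσp : ((σ 1 1 : ℤ) : ZMod N) = (p : ZMod N)) :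
    (h ∣[k] mapGL ℝ σ) ∣[k] heckeDiagMatrix (p ^ i) =
      (h ∣[k] heckeDiagMatrix (p ^ i)) ∣[k] mapGL ℝ σ := by
  obtain ⟨τ, hτ, hτp, hτ10⟩ := exists_sigma (N := N) hp hpN i
  have hpi : p ^ i ≠ 0 := pow_ne_zero _ hp.ne_zero
  obtain ⟨g', hg'10, hg'11, hmul⟩ := heckeDiagMatrix_mul_track' hpi τ (N : ℤ) hτ10
  have hg' : g' ∈ Gamma0 N := by
    rw [Gamma0_mem, hg'10]
    simp
  have e1 : (h ∣[k] heckeDiagMatrix (p ^ i)) ∣[k] mapGL ℝ σ =
      (h ∣[k] heckeDiagMatrix (p ^ i)) ∣[k] mapGL ℝ τ :=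
    slash_eq_of_entry_eq hV hσ hτ (hσp.trans hτp.symm)
  have e2 : h ∣[k] mapGL ℝ σ = h ∣[k] mapGL ℝ g' :=
    slash_eq_of_entry_eq hh hσ hg' (by rw [hσp, hg'11, hτp])
  rw [e1, e2, ← SlashAction.slash_mul, ← SlashAction.slash_mul, hmul]

/-- `U_p ∘ V_{p^{i+1}} = p^{k-1} V_{p^i}` on `1`-periodic functions. -/
theorem heckeU_slash_diag {p : ℕ} (hp : p ≠ 0) (i : ℕ) {h : ℍ → ℂ} (hh : Nice h) :
    heckeU k p (h ∣[k] heckeDiagMatrix (p ^ (i + 1))) =
      ((p : ℂ) ^ (k - 1)) • (h ∣[k] heckeDiagMatrix (p ^ i)) := by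
  have hpi : p ^ i ≠ 0 := pow_ne_zero _ hp
  have hpi1 : p ^ (i + 1) ≠ 0 := pow_ne_zero _ hp
  refine Nice.ext ((hh.slash_diag k _).heckeU k p) ((hh.slash_diag k _).smul _) fun n ↦ ?_
  rw [Nice.qCoeff_heckeU (hh.slash_diag k _) k hp, Nice.qCoeff_smul (hh.slash_diag k _),
    Nice.qCoeff_slash_diag hh k hpi1, Nice.qCoeff_slash_diag hh k hpi]
  have h1 : p ^ (i + 1) ∣ n * p ↔ p ^ i ∣ n := by
    rw [pow_succ]
    exact Nat.mul_dvd_mul_iff_right (Nat.pos_of_ne_zero hp)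
  have h2 : n * p / p ^ (i + 1) = n / p ^ i := by
    rw [pow_succ]
    exact Nat.mul_div_mul_right _ _ (Nat.pos_of_ne_zero hp)
  by_cases hd : p ^ i ∣ n
  · rw [if_pos (h1.mpr hd), if_pos hd, h2]
    push_cast
    rw [pow_succ, mul_zpow]
    ring
  · rw [if_neg (fun h ↦ hd (h1.mp h)), if_neg hd, mul_zero]

theorem heckeDiagMatrix_mul848 (a b : ℕ) (ha : a ≠ 0) (hb : b ≠ 0) :
    heckeDiagMatrix a * heckeDiagMatrix b = heckeDiagMatrix (a * b) := by
  ext i j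
  fin_cases i <;> fin_cases j <;>
    simp [val_heckeDiagMatrix ha, val_heckeDiagMatrix hb, val_heckeDiagMatrix (mul_ne_zero ha hb),
      Matrix.mul_apply, Fin.sum_univ_two]

theorem slash_diag_one {h : ℍ → ℂ} (hh : Nice h) : h ∣[k] heckeDiagMatrix 1 = h := by
  refine Nice.ext (hh.slash_diag k _) hh fun n ↦ ?_
  rw [Nice.qCoeff_slash_diag hh k one_ne_zero]
  simp


/-- The tower condition: `h ∣ diag(p^i, 1)` is `Γ₁(N)`-invariant for all `i ≤ m`. -/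
def Tow (N : ℕ) (k : ℤ) (p m : ℕ) (h : ℍ → ℂ) : Prop :=
  ∀ i, i ≤ m → SI1 N k (h ∣[k] heckeDiagMatrix (p ^ i))

section step

variable [NeZero N]

/-- Induction step: from a tower of height `m ≥ 1` for `h` to a tower of height `m + 1` for
`⟨p⟩ h`. -/
theorem tow_step {p : ℕ} [Fact p.Prime] (hpN : ¬ p ∣ N) {σ : SL(2, ℤ)} (hσ : σ ∈ Gamma0 N)
    (hσp : ((σ 1 1 : ℤ) : ZMod N) = (p : ZMod N)) (h : CuspForm (Gamma1 N) k) {m : ℕ}
    (hm : 1 ≤ m) (hT : Tow N k p m ⇑h) : Tow N k p (m + 1) (⇑h ∣[k] mapGL ℝ σ) := by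
  have hp : p.Prime := Fact.out
  intro i hi
  rcases Nat.lt_or_ge i (m + 1) with hlt | hge
  · have him : i ≤ m := Nat.lt_succ_iff.mp hlt
    rw [slash_diag_comm hp hpN i (SI1_coe h) (hT i him) hσ hσp]
    exact SI1_slash (hT i him) hσ
  · have hi' : i = m + 1 := le_antisymm hi hge
    subst hi'
    obtain ⟨m', rfl⟩ : ∃ m', m = m' + 1 := ⟨m - 1, by omega⟩
    -- the bundled form `F = h ∣ diag(p^m, 1)`
    set F : CuspForm (Gamma1 N) k := diagCF (p ^ (m' + 1)) h (hT (m' + 1) le_rfl) with hF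
    have hTF := SI1_coe (heckeT1CF hpN σ hσ hσp F)
    rw [coe_heckeT1CF, heckeT1, hF, coe_diagCF] at hTF
    have e1 : heckeU k p (⇑h ∣[k] heckeDiagMatrix (p ^ (m' + 1))) =
        ((p : ℂ) ^ (k - 1)) • (⇑h ∣[k] heckeDiagMatrix (p ^ m')) :=
      heckeU_slash_diag hp.ne_zero m' (Nice.of_cusp h)
    have e2 : ((⇑h ∣[k] heckeDiagMatrix (p ^ (m' + 1))) ∣[k] mapGL ℝ σ) ∣[k] heckeDiagMatrix p =
        (⇑h ∣[k] mapGL ℝ σ) ∣[k] heckeDiagMatrix (p ^ (m' + 1 + 1)) := by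
      rw [← slash_diag_comm hp hpN (m' + 1) (SI1_coe h) (hT (m' + 1) le_rfl) hσ hσp,
        ← SlashAction.slash_mul, heckeDiagMatrix_mul848 _ _ (pow_ne_zero _ hp.ne_zero) hp.ne_zero,
        ← pow_succ]
    rw [e1, e2] at hTF
    have h3 : SI1 N k (((p : ℂ) ^ (k - 1)) • (⇑h ∣[k] heckeDiagMatrix (p ^ m'))) :=
      (hT m' (by omega)).smul _
    have := hTF.sub h3
    rwa [add_sub_cancel_left] at this

end step

section sturm

theorem Gamma_le_Gamma1_848 (N : ℕ) : Gamma N ≤ Gamma1 N := by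
  intro g hg
  rw [Gamma_mem] at hg
  rw [Gamma1_mem]
  exact ⟨hg.1, hg.2.2.2, hg.2.2.1⟩

theorem map_Gamma_le_conj_Gamma1 (N : ℕ) (γ : SL(2, ℤ)) :
    (Gamma N : Subgroup (GL (Fin 2) ℝ)) ≤
      ConjAct.toConjAct (mapGL ℝ γ) • (Gamma1 N : Subgroup (GL (Fin 2) ℝ)) := by
  rintro x ⟨δ, hδ, rfl⟩
  rw [Subgroup.mem_pointwise_smul_iff_inv_smul_mem, ← ConjAct.toConjAct_inv,
    ConjAct.toConjAct_smul]
  rw [inv_inv, ← map_inv, ← map_mul, ← map_mul]
  refine Subgroup.mem_map_of_mem _ (Gamma_le_Gamma1_848 N ?_)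
  have := (Gamma_normal N).conj_mem δ hδ γ⁻¹
  simpa using this

theorem natCast_mem_strictPeriods_conj (N : ℕ) (γ : SL(2, ℤ)) :
    (N : ℝ) ∈ (ConjAct.toConjAct (mapGL ℝ γ) •
      (Gamma1 N : Subgroup (GL (Fin 2) ℝ))).strictPeriods := by
  have h1 : (N : ℝ) ∈ (Gamma N : Subgroup (GL (Fin 2) ℝ)).strictPeriods := by
    rw [strictPeriods_Gamma]
    exact AddSubgroup.mem_zmultiples _
  rw [Subgroup.mem_strictPeriods_iff] at h1 ⊢
  exact map_Gamma_le_conj_Gamma1 N γ h1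

/-- The Sturm-type bound for `Γ₁(N)` in weight `k`. -/
def sturmB (N : ℕ) (k : ℤ) : ℕ :=
  (k * ((Gamma1 N : Subgroup (GL (Fin 2) ℝ)).relIndex 𝒮ℒ)).toNat / 12

variable [NeZero N]

/-- A cusp form on `Γ₁(N)` whose first `sturmB N k + 1` coefficients vanish is zero. -/
theorem eq_zero_of_qCoeff_eq_zero (F : CuspForm (Gamma1 N) k)
    (h : ∀ n ≤ sturmB N k, ModularFormClass.qCoeff F n = 0) : F = 0 := by
  have hN : 0 < N := Nat.pos_of_ne_zero (NeZero.ne N)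
  have hF := Nice.of_cusp F
  have hG : CuspForm.toModularFormₗ F = 0 := by
    refine ModularForm.eq_zero_of_lt_order_qExpansion_of_isArithmetic
      (CuspForm.toModularFormₗ F) hN (natCast_mem_strictPeriods_conj N) ?_
    have key : ∀ i < N * sturmB N k + 1,
        PowerSeries.coeff i (qExpansion (N : ℝ) ⇑(CuspForm.toModularFormₗ F)) = 0 := by
      intro i hi
      have e := UpperHalfPlane.qExpansion_coeff_nat_mul one_pos hF.per hF.hol hF.bdd hN i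
      rw [mul_one] at e
      rw [show (⇑(CuspForm.toModularFormₗ F) : ℍ → ℂ) = ⇑F from rfl, e]
      split_ifs with hd
      · refine h (i / N) ?_
        rw [Nat.div_le_iff_le_mul_add_pred hN]
        omega
      · rfl
    have := PowerSeries.nat_le_order _ _ key
    refine lt_of_lt_of_le ?_ this
    change ((N * sturmB N k : ℕ) : ℕ∞) < _
    exact_mod_cast Nat.lt_succ_self _
  exact CuspForm.toModularFormₗ_injective (by rw [hG, map_zero])

theorem eq_zero_of_slash_eq_zero {h : ℍ → ℂ} (A : GL (Fin 2) ℝ) (hA : h ∣[k] A = 0) : h = 0 := by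
  have := congrArg (fun F ↦ F ∣[k] A⁻¹) hA
  simpa [← SlashAction.slash_mul] using this

theorem eq_zero_of_slash_diag_pow (h : CuspForm (Gamma1 N) k) {p m : ℕ} (hp : p ≠ 0)
    (hV : SI1 N k (⇑h ∣[k] heckeDiagMatrix (p ^ m))) (hB : sturmB N k < p ^ m) : h = 0 := by
  have hpm : p ^ m ≠ 0 := pow_ne_zero _ hp
  have hF : diagCF (p ^ m) h hV = 0 := by
    refine eq_zero_of_qCoeff_eq_zero _ fun n hn ↦ ?_
    rw [coe_diagCF, Nice.qCoeff_slash_diag (Nice.of_cusp h) k hpm]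
    split_ifs with hd
    · have hn0 : n = 0 := Nat.eq_zero_of_dvd_of_lt hd (lt_of_le_of_lt hn hB)
      subst hn0
      have h0 : ModularFormClass.qCoeff (⇑h) 0 = 0 :=
        CuspFormClass.qExpansion_coeff_zero h one_pos (Nice.one_mem_strictPeriods_Gamma1_848 N)
      rw [Nat.zero_div, h0, mul_zero]
    · rfl
  have h0 : (⇑h ∣[k] heckeDiagMatrix (p ^ m)) = 0 := by
    have := congrArg (fun F : CuspForm (Gamma1 N) k ↦ (⇑F : ℍ → ℂ)) hF
    simpa using this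
  exact DFunLike.coe_injective (eq_zero_of_slash_eq_zero _ h0)

/-- **`V_p`-injectivity**: if `g` and `g ∣ diag(p, 1)` are both cusp forms on `Γ₁(N)`, `p ∤ N`,
then `g = 0`. -/
theorem eq_zero_of_slash_diag_SI1 {p : ℕ} [Fact p.Prime] (hpN : ¬ p ∣ N)
    (g : CuspForm (Gamma1 N) k) (hV : SI1 N k (⇑g ∣[k] heckeDiagMatrix p)) : g = 0 := by
  have hp : p.Prime := Fact.out
  obtain ⟨σ, hσ, hσp, -⟩ := exists_sigma (N := N) hp hpN 0
  have key : ∀ m : ℕ, ∃ h : CuspForm (Gamma1 N) k, (h = 0 → g = 0) ∧ Tow N k p (m + 1) ⇑h := by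
    intro m
    induction m with
    | zero =>
      refine ⟨g, id, fun i hi ↦ ?_⟩
      interval_cases i
      · rw [pow_zero, slash_diag_one (Nice.of_cusp g)]
        exact SI1_coe g
      · rwa [pow_one]
    | succ m ih =>
      obtain ⟨h, hh0, hT⟩ := ih
      refine ⟨diamondCF σ hσ h, fun h0 ↦ hh0 ?_, ?_⟩
      · have h1 : (⇑h ∣[k] mapGL ℝ σ) = 0 := by
          have := congrArg (fun F : CuspForm (Gamma1 N) k ↦ (⇑F : ℍ → ℂ)) h0
          simpa using this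
        exact DFunLike.coe_injective (eq_zero_of_slash_eq_zero _ h1)
      · rw [coe_diamondCF]
        exact tow_step hpN hσ hσp h (Nat.succ_le_succ (Nat.zero_le m)) hT
  obtain ⟨h, hh0, hT⟩ := key (sturmB N k)
  refine hh0 (eq_zero_of_slash_diag_pow h hp.ne_zero (hT _ le_rfl) ?_)
  exact lt_trans (Nat.lt_succ_self _) (Nat.lt_pow_self hp.one_lt)

end sturm

end Fermat.Agent.S48.H848
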