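/-
S48 piece P0 (helper848): NEBENTYPUS from the coefficient relations.

`f ∈ S_1(Γ₁(N))` whose q-expansion coefficients satisfy the Hecke relations with a Dirichlet
character `ε` (the hypothesis `hT` of the frozen statement S48) has nebentypus `ε`:
`f ∣ γ = ε(d_γ) f` for all `γ ∈ Γ₀(N)`.
-/
import Fermat.Agent.S48.H848.Tower
import Mathlib.NumberTheory.LSeries.PrimesInAP

set_option autoImplicit false

noncomputable section

namespace Fermat.Agent.S48.H848

open Matrix.SpecialLinearGroup UpperHalfPlane CongruenceSubgroup ModularForm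
open scoped MatrixGroups ModularForm OnePoint Manifold

variable {N : ℕ} [NeZero N] {k : ℤ}

/-- If the q-expansion of `f ∈ S_k(Γ₁(N))` satisfies
`a(pn) + c p^(k-1) [p ∣ n] a(n/p) = λ a(n)` for a prime `p ∤ N`, then `⟨p⟩ f = c f`. -/
theorem diamond_eq_of_hecke_relation {p : ℕ} [Fact p.Prime] (hpN : ¬ p ∣ N)
    (f : CuspForm (Gamma1 N) k) (c lam : ℂ)
    (h : ∀ n : ℕ, ModularFormClass.qCoeff f (p * n) +
        c * ((p : ℂ) ^ (k - 1) * (if p ∣ n then ModularFormClass.qCoeff f (n / p) else 0)) =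
          lam * ModularFormClass.qCoeff f n)
    {σ : SL(2, ℤ)} (hσ : σ ∈ Gamma0 N) (hσp : ((σ 1 1 : ℤ) : ZMod N) = (p : ZMod N)) :
    ⇑f ∣[k] mapGL ℝ σ = c • ⇑f := by
  have hp : p.Prime := Fact.out
  have hf := Nice.of_cusp f
  have hD := Nice.of_cusp (diamondCF σ hσ f)
  rw [coe_diamondCF] at hD
  set g : CuspForm (Gamma1 N) k := diamondCF σ hσ f - c • f with hg
  set T : CuspForm (Gamma1 N) k := heckeT1CF hpN σ hσ hσp f - lam • f with hT
  have hgc : (⇑g : ℍ → ℂ) = ⇑f ∣[k] mapGL ℝ σ - c • ⇑f := rfl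
  have hTc : (⇑T : ℍ → ℂ) = heckeT1 k p σ ⇑f - lam • ⇑f := rfl
  have claim : ⇑g ∣[k] heckeDiagMatrix p = ⇑T := by
    refine Nice.ext ((Nice.of_cusp g).slash_diag k p) (Nice.of_cusp T) fun n ↦ ?_
    have hT1 : heckeT1 k p σ ⇑f =
        heckeU k p ⇑f + (⇑f ∣[k] mapGL ℝ σ) ∣[k] heckeDiagMatrix p := rfl
    rw [Nice.qCoeff_slash_diag (Nice.of_cusp g) k hp.ne_zero, hgc, hTc, hT1,
      Nice.qCoeff_sub ((hf.heckeU k p).add (hD.slash_diag k p)) (hf.smul lam),
      Nice.qCoeff_smul hf, Nice.qCoeff_add (hf.heckeU k p) (hD.slash_diag k p),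
      Nice.qCoeff_heckeU hf k hp.ne_zero, Nice.qCoeff_slash_diag hD k hp.ne_zero]
    have hn := h n
    rw [mul_comm p n] at hn
    split_ifs with hd
    · rw [if_pos hd] at hn
      rw [Nice.qCoeff_sub hD (hf.smul c), Nice.qCoeff_smul hf]
      linear_combination -hn
    · rw [if_neg hd] at hn
      linear_combination -hn
  have hV : SI1 N k (⇑g ∣[k] heckeDiagMatrix p) := by
    rw [claim]
    exact SI1_coe T
  have hg0 : g = 0 := eq_zero_of_slash_diag_SI1 hpN g hV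
  have := congrArg (fun F : CuspForm (Gamma1 N) k ↦ (⇑F : ℍ → ℂ)) hg0
  simp only [hgc] at this
  exact sub_eq_zero.mp this

/-- **Nebentypus from the Hecke relations** (hypotheses of the frozen statement S48). -/
theorem nebentypus_of_hecke (ε : DirichletCharacter ℂ N) (f : CuspForm (Gamma1 N) 1)
    (hT : ∀ p : ℕ, p.Prime → ¬ p ∣ N → ∀ n : ℕ,
        ModularFormClass.qCoeff f (p * n) +
            ε (p : ZMod N) * (if p ∣ n then ModularFormClass.qCoeff f (n / p) else 0) =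
          ModularFormClass.qCoeff f p * ModularFormClass.qCoeff f n) :
    ∀ γ : SL(2, ℤ), γ ∈ Gamma0 N →
      (⇑f) ∣[(1 : ℤ)] mapGL ℝ γ = ε (((γ 1 1 : ℤ) : ZMod N)) • (⇑f) := by
  intro γ hγ
  have hu : IsUnit (((γ 1 1 : ℤ) : ZMod N)) :=
    IsUnit.of_mul_eq_one _ ((mul_comm _ _).trans (gamma0_diag_mul_eq_one hγ))
  obtain ⟨p, hpN', hp, hpγ⟩ := Nat.forall_exists_prime_gt_and_eq_mod hu N
  have hpN : ¬ p ∣ N := fun hd ↦
    absurd (Nat.le_of_dvd (Nat.pos_of_ne_zero (NeZero.ne N)) hd) (not_le.mpr hpN')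
  have : Fact p.Prime := ⟨hp⟩
  rw [← hpγ]
  refine diamond_eq_of_hecke_relation hpN f (ε (p : ZMod N)) (ModularFormClass.qCoeff f p)
    (fun n ↦ ?_) hγ hpγ.symm
  have := hT p hp hpN n
  simpa using this

end Fermat.Agent.S48.H848
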