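/-
S48 piece P0 (helper848), consumer forms: nebentypus in `SL(2, ℤ)`-slash notation, oddness of
`ε`, and `f` as an eigenvector of the bundled Hecke operators `heckeT1CF` on `S_1(Γ₁(N))`.
-/
import Fermat.Agent.S48.H848.Neben

set_option autoImplicit false

noncomputable section

namespace Fermat.Agent.S48.H848

open Matrix.SpecialLinearGroup UpperHalfPlane CongruenceSubgroup ModularForm
open scoped MatrixGroups ModularForm OnePoint Manifold

variable {N : ℕ} [NeZero N]

/-- `nebentypus_of_hecke` with the slash action written for `γ : SL(2, ℤ)` (the shape used as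
hypothesis `hneb` by the P1 / P2 pieces). -/
theorem nebentypus_of_hecke_SL (ε : DirichletCharacter ℂ N) (f : CuspForm (Gamma1 N) 1)
    (hT : ∀ p : ℕ, p.Prime → ¬ p ∣ N → ∀ n : ℕ,
        ModularFormClass.qCoeff f (p * n) +
            ε (p : ZMod N) * (if p ∣ n then ModularFormClass.qCoeff f (n / p) else 0) =
          ModularFormClass.qCoeff f p * ModularFormClass.qCoeff f n) :
    ∀ γ : SL(2, ℤ), γ ∈ Gamma0 N →
      (⇑f) ∣[(1 : ℤ)] γ = ε (((γ 1 1 : ℤ) : ZMod N)) • (⇑f) :=
  nebentypus_of_hecke ε f hT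

omit [NeZero N] in
theorem coe_ne_zero_of_qCoeff_one (f : CuspForm (Gamma1 N) 1)
    (hf₁ : ModularFormClass.qCoeff f 1 = 1) : (⇑f : ℍ → ℂ) ≠ 0 := by
  intro h0
  rw [h0] at hf₁
  have : ModularFormClass.qCoeff (0 : ℍ → ℂ) 1 = 0 := by
    simp [ModularFormClass.qCoeff, UpperHalfPlane.qExpansion_zero]
  rw [this] at hf₁
  exact zero_ne_one hf₁

/-- The character `ε` of the frozen statement S48 is odd. -/
theorem eps_neg_one (ε : DirichletCharacter ℂ N) (f : CuspForm (Gamma1 N) 1)
    (hf₁ : ModularFormClass.qCoeff f 1 = 1)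
    (hT : ∀ p : ℕ, p.Prime → ¬ p ∣ N → ∀ n : ℕ,
        ModularFormClass.qCoeff f (p * n) +
            ε (p : ZMod N) * (if p ∣ n then ModularFormClass.qCoeff f (n / p) else 0) =
          ModularFormClass.qCoeff f p * ModularFormClass.qCoeff f n) :
    ε (-1) = -1 := by
  have hm : (-1 : SL(2, ℤ)) ∈ Gamma0 N := by
    rw [Gamma0_mem]
    simp
  have h := nebentypus_of_hecke_SL ε f hT (-1) hm
  have h1 : (⇑f) ∣[(1 : ℤ)] (-1 : SL(2, ℤ)) = -⇑f := by
    ext τ
    rw [ModularForm.SL_slash_apply]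
    simp [UpperHalfPlane.denom]
  rw [h1] at h
  have hd : (((-1 : SL(2, ℤ)) 1 1 : ℤ) : ZMod N) = -1 := by simp
  rw [hd] at h
  obtain ⟨τ, hτ⟩ : ∃ τ, f τ ≠ 0 := by
    by_contra hcon
    simp only [not_exists, not_not] at hcon
    exact coe_ne_zero_of_qCoeff_one f hf₁ (funext hcon)
  have := congrFun h τ
  simp only [Pi.neg_apply, Pi.smul_apply, smul_eq_mul] at this
  have h2 : (ε (-1) + 1) * f τ = 0 := by linear_combination -this
  rcases mul_eq_zero.mp h2 with h3 | h3
  · linear_combination h3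
  · exact absurd h3 hτ

end Fermat.Agent.S48.H848
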