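/-
S48 (helper848): cusp forms on `Γ₁(N)` with nebentypus `χ`, and the Hecke operators `T_p`
(`p ∤ N`) on them: `T_p` preserves the nebentypus, and
`a_n(T_p f) = a_{np}(f) + χ(p) p^{k-1} [p ∣ n] a_{n/p}(f)`.
-/
import Fermat.Agent.S48.H848.NebenSL

set_option autoImplicit false

noncomputable section

namespace Fermat.Agent.S48.H848

open Matrix.SpecialLinearGroup UpperHalfPlane CongruenceSubgroup ModularForm
open scoped MatrixGroups ModularForm OnePoint Manifold

variable {N : ℕ} {k : ℤ}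

/-- `f` has nebentypus `χ` (weight `k`, level `Γ₀(N)`). -/
def HasNeben (N : ℕ) (k : ℤ) (χ : DirichletCharacter ℂ N) (f : ℍ → ℂ) : Prop :=
  ∀ γ : SL(2, ℤ), γ ∈ Gamma0 N → f ∣[k] mapGL ℝ γ = χ (((γ 1 1 : ℤ) : ZMod N)) • f

theorem HasNeben.SI1 {χ : DirichletCharacter ℂ N} {f : ℍ → ℂ} (hf : HasNeben N k χ f) :
    SI1 N k f := by
  intro g hg
  rw [hf g (Gamma1_in_Gamma0 N hg), ((Gamma1_mem N g).mp hg).2.1, map_one, one_smul]

theorem HasNeben.add {χ : DirichletCharacter ℂ N} {f g : ℍ → ℂ} (hf : HasNeben N k χ f)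
    (hg : HasNeben N k χ g) : HasNeben N k χ (f + g) := by
  intro γ hγ
  rw [SlashAction.add_slash, hf γ hγ, hg γ hγ, smul_add]

theorem HasNeben.smul {χ : DirichletCharacter ℂ N} {f : ℍ → ℂ} (hf : HasNeben N k χ f)
    (c : ℂ) : HasNeben N k χ (c • f) := by
  intro γ hγ
  have h := ModularForm.SL_smul_slash k γ f c
  rw [show (c • f) ∣[k] mapGL ℝ γ = c • (f ∣[k] mapGL ℝ γ) from h, hf γ hγ, smul_comm]

theorem HasNeben.neg {χ : DirichletCharacter ℂ N} {f : ℍ → ℂ} (hf : HasNeben N k χ f) :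
    HasNeben N k χ (-f) := by
  intro γ hγ
  rw [SlashAction.neg_slash, hf γ hγ, smul_neg]

theorem HasNeben.sub {χ : DirichletCharacter ℂ N} {f g : ℍ → ℂ} (hf : HasNeben N k χ f)
    (hg : HasNeben N k χ g) : HasNeben N k χ (f - g) := by
  rw [sub_eq_add_neg]
  exact hf.add hg.neg

/-- On forms with nebentypus `χ` the operator `T_p` is `U_p + χ(p) V_p`. -/
theorem heckeT1_eq_of_hasNeben {χ : DirichletCharacter ℂ N} {f : ℍ → ℂ}
    (hf : HasNeben N k χ f) {p : ℕ} {σ : SL(2, ℤ)} (hσ : σ ∈ Gamma0 N)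
    (hσp : ((σ 1 1 : ℤ) : ZMod N) = (p : ZMod N)) :
    heckeT1 k p σ f = heckeU k p f + χ (p : ZMod N) • (f ∣[k] heckeDiagMatrix p) := by
  rw [heckeT1, hf σ hσ, hσp, ModularForm.smul_slash, σ_heckeDiagMatrix]
  rfl

section

variable {p : ℕ} [Fact p.Prime]

/-- **`T_p` preserves the nebentypus.** -/
theorem heckeT1_hasNeben (hpN : ¬ p ∣ N) {χ : DirichletCharacter ℂ N} {f : ℍ → ℂ}
    (hf : HasNeben N k χ f) {σ : SL(2, ℤ)} (hσ : σ ∈ Gamma0 N)
    (hσp : ((σ 1 1 : ℤ) : ZMod N) = (p : ZMod N)) :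
    HasNeben N k χ (heckeT1 k p σ f) := by
  intro g hg0
  have hcN : (N : ℤ) ∣ g 1 0 :=
    (ZMod.intCast_zmod_eq_zero_iff_dvd _ _).mp (Gamma0_mem.mp hg0)
  rw [heckeT1_eq_sum k σ f, SlashAction.sum_slash, Finset.smul_sum]
  calc ∑ x : OnePoint (ZMod p),
        ((f ∣[k] mapGL ℝ (cosetTwist p σ x)) ∣[k] heckeRep848 p x) ∣[k] mapGL ℝ g
      = ∑ x : OnePoint (ZMod p), χ (((g 1 1 : ℤ) : ZMod N)) •
          ((f ∣[k] mapGL ℝ (cosetTwist p σ (redMatrix848 p g • x)))
            ∣[k] heckeRep848 p (redMatrix848 p g • x)) := by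
        refine Finset.sum_congr rfl fun x _ ↦ ?_
        obtain ⟨g', hg', hg'1, hmul⟩ := heckeRep848_mul hpN g hcN x
        have hg'N : g' ∈ Gamma0 N :=
          Gamma0_mem.mpr ((ZMod.intCast_zmod_eq_zero_iff_dvd _ _).mpr hg')
        rw [← SlashAction.slash_mul, hmul, SlashAction.slash_mul]
        have e1 : (f ∣[k] mapGL ℝ (cosetTwist p σ x)) ∣[k] mapGL ℝ g' =
            χ (((g 1 1 : ℤ) : ZMod N)) •
              (f ∣[k] mapGL ℝ (cosetTwist p σ (redMatrix848 p g • x))) := by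
          rw [← SlashAction.slash_mul, ← map_mul,
            hf _ ((Gamma0 N).mul_mem (cosetTwist_mem hσ x) hg'N), hf _ (cosetTwist_mem hσ _),
            smul_smul, ← map_mul]
          congr 2
          have e : (cosetTwist p σ x * g') 1 1 =
              (cosetTwist p σ x) 1 0 * g' 0 1 + (cosetTwist p σ x) 1 1 * g' 1 1 := by
            rw [Matrix.SpecialLinearGroup.coe_mul, Matrix.mul_apply, Fin.sum_univ_two]
          rw [e]
          push_cast
          rw [Gamma0_mem.mp (cosetTwist_mem hσ x), cosetTwist_entry hσp, cosetTwist_entry hσp,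
            zero_mul, zero_add, mul_comm, hg'1, mul_comm]
        rw [e1, ModularForm.smul_slash]
        congr 1
        have hdet : (0 : ℝ) < (heckeRep848 p (redMatrix848 p g • x)).det.val := by
          induction (redMatrix848 p g • x) using OnePoint.rec with
          | infty => exact det_heckeDiagMatrix_pos p
          | coe j => exact det_heckeMatrix_pos p _
        rw [UpperHalfPlane.σ, if_pos hdet]
        rfl
    _ = ∑ x : OnePoint (ZMod p), χ (((g 1 1 : ℤ) : ZMod N)) •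
          ((f ∣[k] mapGL ℝ (cosetTwist p σ x)) ∣[k] heckeRep848 p x) :=
        Equiv.sum_comp (MulAction.toPerm (redMatrix848 p g))
          (fun x ↦ χ (((g 1 1 : ℤ) : ZMod N)) •
            ((f ∣[k] mapGL ℝ (cosetTwist p σ x)) ∣[k] heckeRep848 p x))

/-- q-expansion of `T_p f` for `f` with nebentypus `χ`. -/
theorem qCoeff_heckeT1_of_hasNeben {χ : DirichletCharacter ℂ N} {f : ℍ → ℂ} (hf : Nice f)
    (hneb : HasNeben N k χ f) {σ : SL(2, ℤ)} (hσ : σ ∈ Gamma0 N)
    (hσp : ((σ 1 1 : ℤ) : ZMod N) = (p : ZMod N)) (n : ℕ) :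
    ModularFormClass.qCoeff (heckeT1 k p σ f) n =
      ModularFormClass.qCoeff f (n * p) +
        χ (p : ZMod N) *
          (if p ∣ n then (p : ℂ) ^ (k - 1) * ModularFormClass.qCoeff f (n / p) else 0) := by
  have hp : p ≠ 0 := (Fact.out : p.Prime).ne_zero
  rw [heckeT1_eq_of_hasNeben hneb hσ hσp,
    Nice.qCoeff_add (hf.heckeU k p) ((hf.slash_diag k p).smul _),
    Nice.qCoeff_heckeU hf k hp, Nice.qCoeff_smul (hf.slash_diag k p),
    Nice.qCoeff_slash_diag hf k hp]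

variable [NeZero N]

/-- The form `f` of the frozen statement S48 is an eigenvector of `T_p` with eigenvalue `a_p`. -/
theorem heckeT1CF_eq_smul (hpN : ¬ p ∣ N) (ε : DirichletCharacter ℂ N)
    (f : CuspForm (Gamma1 N) 1)
    (hT : ∀ p : ℕ, p.Prime → ¬ p ∣ N → ∀ n : ℕ,
        ModularFormClass.qCoeff f (p * n) +
            ε (p : ZMod N) * (if p ∣ n then ModularFormClass.qCoeff f (n / p) else 0) =
          ModularFormClass.qCoeff f p * ModularFormClass.qCoeff f n)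
    {σ : SL(2, ℤ)} (hσ : σ ∈ Gamma0 N) (hσp : ((σ 1 1 : ℤ) : ZMod N) = (p : ZMod N)) :
    heckeT1CF hpN σ hσ hσp f = ModularFormClass.qCoeff f p • f := by
  have hf := Nice.of_cusp f
  have hneb : HasNeben N 1 ε ⇑f := nebentypus_of_hecke ε f hT
  refine DFunLike.coe_injective ?_
  change heckeT1 1 p σ ⇑f = ModularFormClass.qCoeff f p • ⇑f
  refine Nice.ext (Nice.of_cusp (heckeT1CF hpN σ hσ hσp f)) (hf.smul _) fun n ↦ ?_
  rw [qCoeff_heckeT1_of_hasNeben hf hneb hσ hσp, Nice.qCoeff_smul hf]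
  have := hT p Fact.out hpN n
  rw [mul_comm p n] at this
  rw [← this]
  simp

end

end Fermat.Agent.S48.H848
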