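import Mathlib

/-!
# S48 / Tower A1 — R4a (GAL), generic part (helper848)

Artin's theorem in the form needed for the diamond group: let `E ≤ A0 ≤ A1` be intermediate
fields of `Ω / K`, and `G` a finite group of ring automorphisms of `A1` fixing `A0` pointwise.
If `[A1 : E] ≤ [A0 : E] · |G|` (and `[A1 : E] ≠ 0`), then the fixed field of `G` is `A0`
(`mem_of_fixed_of_relfinrank_le`).

`finrank_adjoin_simple_eq_relfinrank` converts degrees over a simple subextension of the TYPE
`↥A` into `IntermediateField.relfinrank` in the ambient field.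
-/

set_option autoImplicit false

noncomputable section

namespace Fermat.Agent.S48.H848

open IntermediateField

section Conv

variable {K Ω : Type*} [Field K] [Field Ω] [Algebra K Ω]

/-- Degrees over a simple subextension of the type `↥A`, as `relfinrank` in the ambient field. -/
theorem finrank_adjoin_simple_eq_relfinrank (A : IntermediateField K Ω) (x : A) :
    Module.finrank ↥(IntermediateField.adjoin K {x}) ↥A =
      IntermediateField.relfinrank (IntermediateField.adjoin K {(x : Ω)}) A := by
  have h1 : (IntermediateField.adjoin K {(x : Ω)}).comap A.val =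
      IntermediateField.adjoin K {x} := by
    rw [← IntermediateField.lift_adjoin_simple]
    exact IntermediateField.comap_map A.val _
  have h2 := IntermediateField.finrank_comap (A := IntermediateField.adjoin K {(x : Ω)}) A.val
  rw [IntermediateField.fieldRange_val, h1] at h2
  exact h2

end Conv

section Artin

variable {Ω : Type*} [Field Ω]

/-- **Artin**, subfield form: `A0 ≤ A1` subfields of `Ω`, `G` a finite group of automorphisms of
`A1` fixing `A0`, `[A1 : E] ≤ [A0 : E] · |G|`: every `G`-fixed element of `A1` lies in `A0`. -/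
theorem mem_of_fixed_of_relfinrank_le_subfield (E A0 A1 : Subfield Ω) (hE : E ≤ A0)
    (h01 : A0 ≤ A1) (G : Subgroup (↥A1 ≃+* ↥A1)) [Finite G]
    (hfix : ∀ g ∈ G, ∀ x : ↥A1, (x : Ω) ∈ A0 → g x = x)
    (h1 : Subfield.relfinrank E A1 ≠ 0)
    (hle : Subfield.relfinrank E A1 ≤ Subfield.relfinrank E A0 * Nat.card G)
    (x : ↥A1) (hx : ∀ g ∈ G, g x = x) : (x : Ω) ∈ A0 := by
  classical
  letI : Fintype G := Fintype.ofFinite G
  -- the fixed field, inside `↥A1` and inside `Ω`
  let S : Subfield ↥A1 := FixedPoints.subfield ↥G ↥A1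
  let SΩ : Subfield Ω := S.map A1.subtype
  have hS : Module.finrank ↥S ↥A1 = Nat.card G := by
    rw [Nat.card_eq_fintype_card]
    exact FixedPoints.finrank_eq_card ↥G ↥A1
  have hA1 : A1 = (⊤ : Subfield ↥A1).map A1.subtype := by
    ext y
    constructor
    · intro hy
      exact ⟨⟨y, hy⟩, Subfield.mem_top _, rfl⟩
    · rintro ⟨z, -, rfl⟩
      exact z.2
  have hSA1 : SΩ ≤ A1 := by
    rintro y ⟨z, -, rfl⟩
    exact z.2
  have hA0S : A0 ≤ SΩ := by
    intro y hy
    refine ⟨⟨y, h01 hy⟩, ?_, rfl⟩
    intro g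
    exact hfix g.1 g.2 ⟨y, h01 hy⟩ hy
  have hrel : Subfield.relfinrank SΩ A1 = Nat.card G := by
    conv_lhs => rw [hA1]
    rw [Subfield.relfinrank_map_map, Subfield.relfinrank_top_right]
    exact hS
  have e1 := Subfield.relfinrank_mul_relfinrank (A := E) (B := A0) (C := A1) hE h01
  have e2 := Subfield.relfinrank_mul_relfinrank (A := A0) (B := SΩ) (C := A1) hA0S hSA1
  rw [hrel] at e2
  -- arithmetic
  set n0 := Subfield.relfinrank E A0
  set n1 := Subfield.relfinrank E A1
  set r := Subfield.relfinrank A0 A1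
  set t := Subfield.relfinrank A0 SΩ with ht
  set c := Nat.card G
  have hn0 : n0 ≠ 0 := fun h => h1 (by rw [← e1, h, zero_mul])
  have hr : r ≠ 0 := fun h => h1 (by rw [← e1, h, mul_zero])
  have hc : c ≠ 0 := fun h => hr (by rw [← e2, h, mul_zero])
  have htne : t ≠ 0 := fun h => hr (by rw [← e2, h, zero_mul])
  have hrc : r ≤ c := by
    have : n0 * r ≤ n0 * c := by rw [e1]; exact hle
    exact Nat.le_of_mul_le_mul_left this (Nat.pos_of_ne_zero hn0)
  have ht1 : t = 1 := by
    have h2 : t * c ≤ 1 * c := by rw [e2, one_mul]; exact hrc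
    have h3 : t ≤ 1 := Nat.le_of_mul_le_mul_right h2 (Nat.pos_of_ne_zero hc)
    omega
  have hle' : SΩ ≤ A0 := Subfield.relfinrank_eq_one_iff.mp ht1
  apply hle'
  refine ⟨x, ?_, rfl⟩
  intro g
  exact hx g.1 g.2

end Artin

section ArtinIF

variable {K Ω : Type*} [Field K] [Field Ω] [Algebra K Ω]

/-- **Artin**, intermediate-field form. -/
theorem mem_of_fixed_of_relfinrank_le (E A0 A1 : IntermediateField K Ω) (hE : E ≤ A0)
    (h01 : A0 ≤ A1) (G : Subgroup (↥A1 ≃+* ↥A1)) [Finite G]
    (hfix : ∀ g ∈ G, ∀ x : ↥A1, (x : Ω) ∈ A0 → g x = x)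
    (h1 : IntermediateField.relfinrank E A1 ≠ 0)
    (hle : IntermediateField.relfinrank E A1 ≤ IntermediateField.relfinrank E A0 * Nat.card G)
    (x : ↥A1) (hx : ∀ g ∈ G, g x = x) : (x : Ω) ∈ A0 :=
  mem_of_fixed_of_relfinrank_le_subfield E.toSubfield A0.toSubfield A1.toSubfield hE h01 G hfix
    h1 hle x hx

end ArtinIF

end Fermat.Agent.S48.H848
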