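import Fermat.Agent.S48.H848.DiaFinal
import Fermat.Agent.S48.H848.DiaGalGen
import Fermat.Agent.S48.H332.F1Inst

/-!
# S48 / Tower A1 — R4a (GAL) for `F1 M` (helper848)

`Qbar · F1(M)` is Galois over `Qbar · F0(M)` with group the diamond automorphisms:

* `diaHom M : (ZMod M)ˣ →* (F1L Qbar M ≃ₐ[Qbar] F1L Qbar M)`, `d ↦ diamondAut d`;
* `diaGroup M : Subgroup (F1L Qbar M ≃+* F1L Qbar M)` (finite), `mem_diaGroup_iff`,
  `diaGroup_fix` (fixes `Qbar · F0(M)`);
* `diamond_fixed_mem` (**G_inv**): an element of `Qbar · F1(M)` fixed by all `diamondAut d` lies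
  in `Qbar · F0(M) = modularFunctionFieldBar M`; `diaGroup_inv` (the same for `diaGroup`).

Inputs: degrees `[Qbar F1(M) : Qbar(j)] = [SL₂(ℤ) : ±Γ₁(M)]` (`H332.f1_finrank_eq`) and
`[Qbar F0(M) : Qbar(j)] ≥ [SL₂(ℤ) : Γ₀(M)]` (`S24.H997.AnalyticCore.card_le_finrank`), Artin's theorem
(`mem_of_fixed_of_relfinrank_le`), and `δ_d = 1 ⇒ d = ±1` (`H332.eq_or_eq_neg_of_divGenC_eq`).
-/

set_option autoImplicit false

noncomputable section

open ModularCurve UpperHalfPlane CongruenceSubgroup
open scoped MatrixGroups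

namespace Fermat.Agent.S48.H848

open Fermat.Agent.S48.F1 Fermat.Agent.S24

local notation "Qb" => AlgebraicClosure ℚ

variable (M : ℕ) [NeZero M]

/-! ### The diamond group -/

/-- The diamond automorphisms form a group homomorphism. -/
def diaHom : (ZMod M)ˣ →* (F1L Qb M ≃ₐ[Qb] F1L Qb M) where
  toFun d := diamondAut Qb M d
  map_one' := diamondAut_eq isDiamond_one
  map_mul' d d' :=
    diamondAut_eq ((isDiamond_diamondAut_848 M d).mul (isDiamond_diamondAut_848 M d'))

@[simp]
theorem diaHom_apply (d : (ZMod M)ˣ) : diaHom M d = diamondAut Qb M d := rfl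

/-- The diamond automorphisms as ring automorphisms. -/
def diaRingHom : (ZMod M)ˣ →* (F1L Qb M ≃+* F1L Qb M) where
  toFun d := (diamondAut Qb M d).toRingEquiv
  map_one' := by
    have h := (diaHom M).map_one
    rw [diaHom_apply] at h
    rw [h]
    rfl
  map_mul' d d' := by
    have h := (diaHom M).map_mul d d'
    simp only [diaHom_apply] at h
    rw [h]
    rfl

@[simp]
theorem diaRingHom_apply (d : (ZMod M)ˣ) (x : F1L Qb M) :
    diaRingHom M d x = diamondAut Qb M d x := rfl

/-- The diamond group of `Qbar · F1(M)`. -/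
def diaGroup : Subgroup (F1L Qb M ≃+* F1L Qb M) := (diaRingHom M).range

theorem mem_diaGroup_iff {g : F1L Qb M ≃+* F1L Qb M} :
    g ∈ diaGroup M ↔ ∃ d : (ZMod M)ˣ, (diamondAut Qb M d).toRingEquiv = g :=
  Iff.rfl

instance finite_diaGroup : Finite (diaGroup M) :=
  Finite.of_surjective (diaRingHom M).rangeRestrict (diaRingHom M).rangeRestrict_surjective

/-- The diamond group fixes `Qbar · F0(M)`. -/
theorem diaGroup_fix (g : F1L Qb M ≃+* F1L Qb M) (hg : g ∈ diaGroup M) (x : F1L Qb M)
    (hx : (x : LaurentSeries Qb) ∈ modularFunctionFieldBar M) : g x = x := by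
  obtain ⟨d, rfl⟩ := hg
  exact diamondAut_fixes_full M d x hx

/-! ### The kernel of `d ↦ δ_d` -/

/-- `δ_d = 1` implies `d = ±1`. -/
theorem eq_one_or_neg_one_of_diamondAut_eq_one (d : (ZMod M)ˣ)
    (h : ∀ x : F1L Qb M, diamondAut Qb M d x = x) :
    (d : ZMod M) = 1 ∨ (d : ZMod M) = -1 := by
  by_cases h1 : (1 : ZMod M) = 0
  · left
    rw [← mul_one (d : ZMod M), h1, mul_zero]
  · have h2 := diamondAut_divGenL M d 1 h1
    rw [h (divGenL Qb M 1 h1)] at h2
    have h3 := congrArg (fun x : F1L Qb M => (x : LaurentSeries Qb)) h2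
    simp only [coe_divGenL, mul_one] at h3
    have h4 : divGenC Qb M (1 : ZMod M) = divGenC Qb M (d : ZMod M) := by
      have e : ∀ a : ZMod M, coeffEmb Qb (divGen M a) = divGenC Qb M a := fun a => by
        rw [← divGenC_rat]
        exact coeffMap_divGenC (algebraMap ℚ Qb) M a
      rw [← e, ← e]
      exact h3
    have hd : (d : ZMod M) ≠ 0 := by
      have := unit_mul_ne_zero d h1
      rwa [mul_one] at this
    rcases H332.eq_or_eq_neg_of_divGenC_eq Qb M h1 hd h4 with h5 | h5
    · left; exact h5.symm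
    · right
      rw [h5, neg_neg]

/-- The unit `γ₁₁ mod M` of an element of `Γ₀(M)`. -/
def gamma0Units : Gamma0 M →* (ZMod M)ˣ := (Gamma0Map M).toHomUnits

omit [NeZero M] in
theorem coe_gamma0Units (g : Gamma0 M) :
    ((gamma0Units M g : (ZMod M)ˣ) : ZMod M) = (((g : SL(2, ℤ)) 1 1 : ℤ) : ZMod M) := rfl

/-- `Γ₀(M) → Aut(Qbar · F1(M))`, `γ ↦ δ_{γ₁₁}`. -/
def gamma0Dia : Gamma0 M →* (F1L Qb M ≃+* F1L Qb M) := (diaRingHom M).comp (gamma0Units M)

theorem gamma0Dia_range_le : (gamma0Dia M).range ≤ diaGroup M := by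
  rintro g ⟨γ, rfl⟩
  exact ⟨gamma0Units M γ, rfl⟩

theorem finite_range_gamma0Dia : Finite (gamma0Dia M).range :=
  Finite.of_injective (Subgroup.inclusion (gamma0Dia_range_le M))
    (Subgroup.inclusion_injective _)

theorem ker_gamma0Dia_le :
    (gamma0Dia M).ker ≤ (H332.pmGamma1 M).subgroupOf (Gamma0 M) := by
  intro γ hγ
  rw [MonoidHom.mem_ker] at hγ
  rw [Subgroup.mem_subgroupOf, H332.mem_pmGamma1]
  refine ⟨γ.2, ?_⟩
  have h1 : ∀ x : F1L Qb M, diamondAut Qb M (gamma0Units M γ) x = x := by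
    intro x
    have := congrArg (fun f : F1L Qb M ≃+* F1L Qb M => f x) hγ
    exact this
  have h2 := eq_one_or_neg_one_of_diamondAut_eq_one M (gamma0Units M γ) h1
  rw [coe_gamma0Units] at h2
  have hdet := H332.coe_mul_coe_eq_one_of_mem_Gamma0 γ.2
  rcases h2 with h3 | h3
  · left
    rw [h3, mul_one] at hdet
    exact hdet
  · right
    rw [h3] at hdet
    have : (((γ : SL(2, ℤ)) 0 0 : ℤ) : ZMod M) =
        -((((γ : SL(2, ℤ)) 0 0 : ℤ) : ZMod M) * -1) := by ring
    rw [this, hdet]

/-- `[Γ₀(M) : ±Γ₁(M)] ≤ |range|`. -/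
theorem relIndex_le_card_range :
    (H332.pmGamma1 M).relIndex (Gamma0 M) ≤ Nat.card (gamma0Dia M).range := by
  have : Finite (gamma0Dia M).range := finite_range_gamma0Dia M
  have h1 := Subgroup.index_dvd_of_le (ker_gamma0Dia_le M)
  rw [Subgroup.index_ker] at h1
  exact Nat.le_of_dvd Nat.card_pos h1

/-! ### Degrees -/

/-- `Qbar(j)` inside `Qbar((q))`. -/
def jField : IntermediateField Qb (LaurentSeries Qb) :=
  IntermediateField.adjoin Qb {coeffEmb Qb jq}

theorem relfinrank_jField_F1 :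
    IntermediateField.relfinrank jField (F1L Qb M) = (H332.pmGamma1 M).index := by
  have h := H332.f1_finrank_eq M
  rw [finrank_adjoin_simple_eq_relfinrank] at h
  rw [Subgroup.index_eq_card]
  exact h

theorem jField_le_full : jField ≤ modularFunctionFieldBar M := by
  unfold jField
  rw [IntermediateField.adjoin_le_iff, Set.singleton_subset_iff]
  exact (jF M).2

omit [NeZero M] in
theorem full_le_F1L : modularFunctionFieldBar M ≤ F1L Qb M := lbc_mono Qb (full_le_F1 M)

theorem relfinrank_jField_full_ne_zero :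
    IntermediateField.relfinrank jField (modularFunctionFieldBar M) ≠ 0 := by
  intro h0
  have e := IntermediateField.relfinrank_mul_relfinrank (jField_le_full M) (full_le_F1L M)
  rw [h0, zero_mul, relfinrank_jField_F1] at e
  exact Subgroup.FiniteIndex.index_ne_zero e.symm

/-- `Qbar · F0(M)` is finite over `Qbar(j)` (from the finiteness of `Qbar · F1(M)`). -/
theorem finiteDimensional_full :
    FiniteDimensional ↥(IntermediateField.adjoin Qb {jF M}) (FF M) := by
  have : Module.Free ↥(IntermediateField.adjoin Qb {jF M}) (FF M) :=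
    Module.Free.of_divisionRing _ _
  apply Module.finite_of_finrank_pos
  rw [finrank_adjoin_simple_eq_relfinrank]
  exact Nat.pos_of_ne_zero (relfinrank_jField_full_ne_zero M)

/-- `[SL₂(ℤ) : Γ₀(M)] ≤ [Qbar · F0(M) : Qbar(j)]`. -/
theorem index_le_relfinrank_jField_full :
    (Gamma0 M).index ≤ IntermediateField.relfinrank jField (modularFunctionFieldBar M) := by
  have := finiteDimensional_full M
  have h := (H997.analyticCore M).card_le_finrank
  rw [finrank_adjoin_simple_eq_relfinrank] at h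
  rw [Subgroup.index_eq_card]
  exact h

/-! ### The fixed field -/

/-- **G_inv**: an element of `Qbar · F1(M)` fixed by all diamond automorphisms lies in
`Qbar · F0(M)`. -/
theorem diamond_fixed_mem (x : F1L Qb M) (hx : ∀ d : (ZMod M)ˣ, diamondAut Qb M d x = x) :
    (x : LaurentSeries Qb) ∈ modularFunctionFieldBar M := by
  have : Finite (gamma0Dia M).range := finite_range_gamma0Dia M
  refine mem_of_fixed_of_relfinrank_le jField (modularFunctionFieldBar M) (F1L Qb M)
    (jField_le_full M) (full_le_F1L M) (gamma0Dia M).range ?_ ?_ ?_ x ?_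
  · intro g hg y hy
    exact diaGroup_fix M g (gamma0Dia_range_le M hg) y hy
  · rw [relfinrank_jField_F1]
    exact Subgroup.FiniteIndex.index_ne_zero
  · rw [relfinrank_jField_F1, ← Subgroup.relIndex_mul_index (H332.pmGamma1_le_Gamma0 M),
      mul_comm]
    exact Nat.mul_le_mul (index_le_relfinrank_jField_full M) (relIndex_le_card_range M)
  · rintro g ⟨γ, rfl⟩
    exact hx (gamma0Units M γ)

/-- **G_inv** for the diamond group. -/
theorem diaGroup_inv (x : F1L Qb M) (hx : ∀ g ∈ diaGroup M, g x = x) :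
    (x : LaurentSeries Qb) ∈ modularFunctionFieldBar M :=
  diamond_fixed_mem M x fun d => hx _ ⟨d, rfl⟩

/-- The fixed field of the diamond group is exactly `Qbar · F0(M)`. -/
theorem diaGroup_fixed_iff (x : F1L Qb M) :
    (∀ g ∈ diaGroup M, g x = x) ↔ (x : LaurentSeries Qb) ∈ modularFunctionFieldBar M :=
  ⟨diaGroup_inv M x, fun hx g hg => diaGroup_fix M g hg x hx⟩

end Fermat.Agent.S48.H848
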