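import Mathlib
import Fermat.Prelude.Def_ModularCurve_LaurentCoeff
import Fermat.Agent.S24.Inf.Unique

/-!
# S48 / RES (Tower A1) — piece FF-DIA, generic part (helper848)

* `exists_algEquiv_of_rel` : if a permutation `π` of a family of generators `g i` of a field
  extension `L(g) / L` preserves all polynomial relations (in both directions), there is an
  `L`-automorphism of `L(g)` with `g i ↦ g (π i)`.
* `rel_of_avatars` : the hypothesis from ANALYTIC AVATARS: `g i ∈ L((q))`, functions
  `A i : ℍ → ℂ` with convergent `q`-expansion `ι (g i)` (`ι : L → ℂ`), and a self-map `γ` of `ℍ`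
  with `A i ∘ γ = A (π i)`.
* `exists_algEquiv_of_avatars` : the combination.
-/

set_option autoImplicit false

noncomputable section

open ModularCurve HahnSeries UpperHalfPlane Fermat.Agent.S24 IntermediateField

namespace Fermat.Agent.S48.H848

/-! ### Algebra: automorphisms from permutations of generators -/

section Algebra

variable {L Ω : Type*} [Field L] [Field Ω] [Algebra L Ω] {I : Type*}

/-- The generator `g i` as an element of `L(g)`. -/
def genAdj (g : I → Ω) (i : I) : adjoin L (Set.range g) :=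
  ⟨g i, subset_adjoin L _ ⟨i, rfl⟩⟩

@[simp] theorem coe_genAdj (g : I → Ω) (i : I) :
    ((genAdj (L := L) g i : adjoin L (Set.range g)) : Ω) = g i := rfl

/-- Two ring homomorphisms out of `L(g)` into a division ring which agree on `L` and on the
generators are equal. -/
theorem adjoin_ringHom_ext {S : Set Ω} {R : Type*} [DivisionRing R]
    (f₁ f₂ : adjoin L S →+* R)
    (hL : ∀ a : L, f₁ (algebraMap L _ a) = f₂ (algebraMap L _ a))
    (hS : ∀ (x : Ω) (hx : x ∈ S), f₁ ⟨x, subset_adjoin L S hx⟩ = f₂ ⟨x, subset_adjoin L S hx⟩) :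
    f₁ = f₂ := by
  have key : ∀ (y : Ω) (hy : y ∈ adjoin L S), f₁ ⟨y, hy⟩ = f₂ ⟨y, hy⟩ := by
    intro y hy
    induction hy using IntermediateField.adjoin_induction with
    | mem x hx => exact hS x hx
    | algebraMap a => exact hL a
    | add x y hx hy ihx ihy =>
        have h1 : (⟨x + y, add_mem hx hy⟩ : adjoin L S) = ⟨x, hx⟩ + ⟨y, hy⟩ := rfl
        rw [h1, map_add, map_add, ihx, ihy]
    | inv x hx ihx =>
        have h1 : (⟨x⁻¹, inv_mem hx⟩ : adjoin L S) = (⟨x, hx⟩)⁻¹ := rfl
        rw [h1, map_inv₀, map_inv₀, ihx]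
    | mul x y hx hy ihx ihy =>
        have h1 : (⟨x * y, mul_mem hx hy⟩ : adjoin L S) = ⟨x, hx⟩ * ⟨y, hy⟩ := rfl
        rw [h1, map_mul, map_mul, ihx, ihy]
  ext ⟨y, hy⟩
  exact key y hy

/-- Two `L`-algebra homomorphisms out of `L(g)` which agree on the generators are equal. -/
theorem adjoin_algHom_ext (g : I → Ω) {R : Type*} [DivisionRing R] [Algebra L R]
    (f₁ f₂ : adjoin L (Set.range g) →ₐ[L] R)
    (h : ∀ i, f₁ (genAdj g i) = f₂ (genAdj g i)) : f₁ = f₂ := by
  have h' : (f₁ : adjoin L (Set.range g) →+* R) = (f₂ : adjoin L (Set.range g) →+* R) := by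
    refine adjoin_ringHom_ext _ _ (fun a => ?_) ?_
    · show f₁ (algebraMap L _ a) = f₂ (algebraMap L _ a)
      rw [f₁.commutes, f₂.commutes]
    · rintro x ⟨i, rfl⟩
      exact h i
  exact AlgHom.ext fun x => congrArg (fun f : adjoin L (Set.range g) →+* R => f x) h'

open scoped IntermediateField.algebraAdjoinAdjoin in
/-- One direction: a family `g'` in a field `Ω'` satisfying all the relations of `g`, and no
others, gives an `L`-embedding `L(g) → Ω'` with `g i ↦ g' i`. -/
theorem exists_algHom_of_rel {Ω' : Type*} [Field Ω'] [Algebra L Ω'] (g : I → Ω) (g' : I → Ω')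
    (hrel : ∀ P : MvPolynomial I L,
      MvPolynomial.aeval g P = 0 ↔ MvPolynomial.aeval g' P = 0) :
    ∃ τ : adjoin L (Set.range g) →ₐ[L] Ω', ∀ i, τ (genAdj g i) = g' i := by
  classical
  -- the evaluation maps
  let φ : MvPolynomial I L →ₐ[L] Ω := MvPolynomial.aeval g
  let ψ : MvPolynomial I L →ₐ[L] Ω' := MvPolynomial.aeval g'
  have hA : Algebra.adjoin L (Set.range g) = φ.range :=
    Algebra.adjoin_range_eq_range_aeval L g
  -- the map on the subalgebra
  have hex : ∀ a : Algebra.adjoin L (Set.range g), ∃ P : MvPolynomial I L, φ P = (a : Ω) := by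
    intro a
    have ha : (a : Ω) ∈ φ.range := hA ▸ a.2
    exact ha
  choose rep hrep using hex
  have hwd : ∀ (P Q : MvPolynomial I L), φ P = φ Q → ψ P = ψ Q := by
    intro P Q h
    have h0 : φ (P - Q) = 0 := by rw [map_sub, h, sub_self]
    have h1 : ψ (P - Q) = 0 := (hrel _).mp h0
    rw [map_sub, sub_eq_zero] at h1
    exact h1
  have hinj' : ∀ (P Q : MvPolynomial I L), ψ P = ψ Q → φ P = φ Q := by
    intro P Q h
    have h0 : ψ (P - Q) = 0 := by rw [map_sub, h, sub_self]
    have h1 : φ (P - Q) = 0 := (hrel _).mpr h0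
    rw [map_sub, sub_eq_zero] at h1
    exact h1
  let σ₀ : Algebra.adjoin L (Set.range g) →ₐ[L] Ω' :=
    { toFun := fun a => ψ (rep a)
      map_one' := by
        have : φ (rep 1) = φ 1 := by rw [hrep, map_one]; rfl
        rw [hwd _ _ this, map_one]
      map_mul' := fun a b => by
        have : φ (rep (a * b)) = φ (rep a * rep b) := by
          rw [hrep, map_mul, hrep, hrep]; rfl
        rw [hwd _ _ this, map_mul]
      map_zero' := by
        have : φ (rep 0) = φ 0 := by rw [hrep, map_zero]; rfl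
        rw [hwd _ _ this, map_zero]
      map_add' := fun a b => by
        have : φ (rep (a + b)) = φ (rep a + rep b) := by
          rw [hrep, map_add, hrep, hrep]; rfl
        rw [hwd _ _ this, map_add]
      commutes' := fun c => by
        have : φ (rep (algebraMap L _ c)) = φ (MvPolynomial.C c) := by
          rw [hrep]
          show algebraMap L Ω c = MvPolynomial.aeval g (MvPolynomial.C c)
          rw [MvPolynomial.aeval_C]
        rw [hwd _ _ this]
        show MvPolynomial.aeval g' (MvPolynomial.C c) = _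
        rw [MvPolynomial.aeval_C] }
  have hσ₀ : ∀ P : MvPolynomial I L, ∀ a : Algebra.adjoin L (Set.range g),
      (a : Ω) = φ P → σ₀ a = ψ P := by
    intro P a ha
    exact hwd _ _ ((hrep a).trans ha)
  have hσ₀inj : Function.Injective σ₀ := by
    intro a b hab
    apply Subtype.ext
    rw [← hrep a, ← hrep b]
    exact hinj' _ _ hab
  -- extension to the fraction field
  let τ : adjoin L (Set.range g) →ₐ[L] Ω' :=
    IsFractionRing.liftAlgHom (K := adjoin L (Set.range g)) (g := σ₀) hσ₀inj
  refine ⟨τ, fun i => ?_⟩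
  have h1 : genAdj g i = algebraMap (Algebra.adjoin L (Set.range g)) (adjoin L (Set.range g))
      ⟨g i, Algebra.subset_adjoin ⟨i, rfl⟩⟩ := rfl
  rw [h1]
  show IsFractionRing.liftAlgHom (K := adjoin L (Set.range g)) (g := σ₀) hσ₀inj _ = _
  rw [IsFractionRing.liftAlgHom_apply, IsFractionRing.lift_algebraMap]
  have h2 := hσ₀ (MvPolynomial.X i) ⟨g i, Algebra.subset_adjoin ⟨i, rfl⟩⟩
    (by show g i = MvPolynomial.aeval g (MvPolynomial.X i); rw [MvPolynomial.aeval_X])
  have h3 : σ₀ ⟨g i, Algebra.subset_adjoin ⟨i, rfl⟩⟩ = g' i := by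
    rw [h2]
    exact MvPolynomial.aeval_X g' i
  exact h3

/-- **Automorphisms from permutations of generators.**  If the permutation `π` of the generators
preserves all polynomial relations over `L`, it extends to an `L`-automorphism of `L(g)`. -/
theorem exists_algEquiv_of_rel (g : I → Ω) (π : Equiv.Perm I)
    (hrel : ∀ P : MvPolynomial I L,
      MvPolynomial.aeval g P = 0 ↔ MvPolynomial.aeval (g ∘ π) P = 0) :
    ∃ σ : adjoin L (Set.range g) ≃ₐ[L] adjoin L (Set.range g),
      ∀ i, σ (genAdj g i) = genAdj g (π i) := by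
  -- relations for `π⁻¹`
  have hrel' : ∀ P : MvPolynomial I L,
      MvPolynomial.aeval g P = 0 ↔ MvPolynomial.aeval (g ∘ π.symm) P = 0 := by
    intro P
    have h := hrel (MvPolynomial.rename π.symm P)
    rw [MvPolynomial.aeval_rename, MvPolynomial.aeval_rename] at h
    have h2 : (g ∘ π) ∘ π.symm = g := by
      funext i
      simp
    rw [h2] at h
    exact h.symm
  -- the two families inside `L(g)`
  have hrelK : ∀ (ρ : Equiv.Perm I), (∀ P : MvPolynomial I L,
      MvPolynomial.aeval g P = 0 ↔ MvPolynomial.aeval (g ∘ ρ) P = 0) →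
      ∀ P : MvPolynomial I L, MvPolynomial.aeval g P = 0 ↔
        MvPolynomial.aeval (fun i => genAdj (L := L) g (ρ i)) P = 0 := by
    intro ρ hρ P
    rw [hρ P]
    have h1 : (adjoin L (Set.range g)).val.toRingHom.comp
        (MvPolynomial.aeval (fun i => genAdj (L := L) g (ρ i)) :
          MvPolynomial I L →ₐ[L] adjoin L (Set.range g)).toRingHom
        = (MvPolynomial.aeval (g ∘ ρ) : MvPolynomial I L →ₐ[L] Ω).toRingHom := by
      apply MvPolynomial.ringHom_ext
      · intro c
        simp
      · intro i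
        simp
    have h2 : ((MvPolynomial.aeval (fun i => genAdj (L := L) g (ρ i)) P :
        adjoin L (Set.range g)) : Ω) = MvPolynomial.aeval (g ∘ ρ) P :=
      congrArg (fun f : MvPolynomial I L →+* Ω => f P) h1
    rw [← h2]
    constructor
    · intro h
      exact Subtype.ext h
    · intro h
      rw [h]
      rfl
  obtain ⟨τ, hτ⟩ := exists_algHom_of_rel g (fun i => genAdj (L := L) g (π i)) (hrelK π hrel)
  obtain ⟨τ', hτ'⟩ := exists_algHom_of_rel g (fun i => genAdj (L := L) g (π.symm i))
    (hrelK π.symm hrel')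
  have h1 : τ.comp τ' = AlgHom.id L _ := by
    apply adjoin_algHom_ext g
    intro i
    rw [AlgHom.comp_apply, hτ', hτ]
    simp
  have h2 : τ'.comp τ = AlgHom.id L _ := by
    apply adjoin_algHom_ext g
    intro i
    rw [AlgHom.comp_apply, hτ, hτ']
    simp
  exact ⟨AlgEquiv.ofAlgHom τ τ' h1 h2, hτ⟩

end Algebra

/-! ### Analysis: relations from analytic avatars -/

section Avatars

variable {L : Type*} [Field L] {I : Type*}

/-- Evaluation of a polynomial over `L` at a family of functions on `ℍ`. -/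
def evalFun (ι : L →+* ℂ) (A : I → ℍ → ℂ) : MvPolynomial I L →+* (ℍ → ℂ) :=
  MvPolynomial.eval₂Hom ((algebraMap ℂ (ℍ → ℂ)).comp ι) A

theorem evalFun_C (ι : L →+* ℂ) (A : I → ℍ → ℂ) (c : L) (z : ℍ) :
    evalFun ι A (MvPolynomial.C c) z = ι c := by
  simp [evalFun]

theorem evalFun_X (ι : L →+* ℂ) (A : I → ℍ → ℂ) (i : I) :
    evalFun ι A (MvPolynomial.X i) = A i := by
  simp [evalFun]

/-- The `q`-expansion of a polynomial in the avatars is the polynomial in the series. -/
theorem infExp_evalFun (ι : L →+* ℂ) (g : I → LaurentSeries L) (A : I → ℍ → ℂ)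
    (hA : ∀ i, InfExp 1 (A i) (coeffMap ι (g i))) (P : MvPolynomial I L) :
    InfExp 1 (evalFun ι A P) (coeffMap ι (MvPolynomial.aeval g P)) := by
  induction P using MvPolynomial.induction_on with
  | C c =>
    have h1 : evalFun ι A (MvPolynomial.C c) = fun _ => ι c := by
      funext z
      exact evalFun_C ι A c z
    have h2 : coeffMap ι (MvPolynomial.aeval g (MvPolynomial.C c)) = HahnSeries.C (ι c) := by
      rw [MvPolynomial.aeval_C, algebraMap_laurentSeries_eq_single, coeffMap_single]
      rfl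
    rw [h1, h2]
    exact InfExp.const _
  | add P Q hP hQ =>
    rw [map_add, map_add, map_add]
    exact hP.add hQ
  | mul_X P i hP =>
    rw [map_mul, map_mul, map_mul, evalFun_X, MvPolynomial.aeval_X]
    exact hP.mul (hA i)

theorem evalFun_comp (ι : L →+* ℂ) (A : I → ℍ → ℂ) (π : I → I) (γ : ℍ → ℍ)
    (hγ : ∀ i z, A i (γ z) = A (π i) z) (P : MvPolynomial I L) (z : ℍ) :
    evalFun ι A P (γ z) = evalFun ι (A ∘ π) P z := by
  induction P using MvPolynomial.induction_on with
  | C c => rw [evalFun_C, evalFun_C]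
  | add P Q hP hQ =>
    rw [map_add, map_add, Pi.add_apply, Pi.add_apply, hP, hQ]
  | mul_X P i hP =>
    rw [map_mul, map_mul, Pi.mul_apply, Pi.mul_apply, hP, evalFun_X, evalFun_X, hγ]
    rfl

/-- **Relations from avatars.**  A self-map `γ` of `ℍ` permuting the avatars maps relations
between the series to relations. -/
theorem rel_of_avatars (ι : L →+* ℂ) (g : I → LaurentSeries L) (A : I → ℍ → ℂ)
    (hA : ∀ i, InfExp 1 (A i) (coeffMap ι (g i))) (π : I → I) (γ : ℍ → ℍ)
    (hγ : ∀ i z, A i (γ z) = A (π i) z) (P : MvPolynomial I L)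
    (hP : MvPolynomial.aeval g P = 0) : MvPolynomial.aeval (g ∘ π) P = 0 := by
  have h1 := infExp_evalFun ι g A hA P
  rw [hP, map_zero] at h1
  have h0 : evalFun ι A P = fun _ => 0 := h1.fun_unique InfExp.zero
  have h2 := infExp_evalFun ι (g ∘ π) (A ∘ π) (fun i => hA (π i)) P
  have h3 : evalFun ι (A ∘ π) P = fun _ => 0 := by
    funext z
    rw [← evalFun_comp ι A π γ hγ P z, h0]
  rw [h3] at h2
  have h4 : coeffMap ι (MvPolynomial.aeval (g ∘ π) P) = 0 := h2.eq_zero
  exact inf_coeffMap_injective ι.injective (h4.trans (map_zero _).symm)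

/-- **FF-DIA, generic form.**  Generators `g i ∈ L((q))` with analytic avatars `A i` on `ℍ`, a
permutation `π` of the generators and a bijection `γ` of `ℍ` with `A i ∘ γ = A (π i)`: there is
an `L`-automorphism of `L(g)` with `g i ↦ g (π i)`. -/
theorem exists_algEquiv_of_avatars (ι : L →+* ℂ) (g : I → LaurentSeries L) (A : I → ℍ → ℂ)
    (hA : ∀ i, InfExp 1 (A i) (coeffMap ι (g i))) (π : Equiv.Perm I) (γ : Equiv.Perm ℍ)
    (hγ : ∀ i z, A i (γ z) = A (π i) z) :
    ∃ σ : adjoin L (Set.range g) ≃ₐ[L] adjoin L (Set.range g),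
      ∀ i, σ (genAdj g i) = genAdj g (π i) := by
  refine exists_algEquiv_of_rel g π fun P => ⟨rel_of_avatars ι g A hA π γ hγ P, fun h => ?_⟩
  have hγ' : ∀ i z, (A ∘ π) i (γ.symm z) = (A ∘ π) (π.symm i) z := by
    intro i z
    simp only [Function.comp_apply, Equiv.apply_symm_apply]
    rw [← hγ i (γ.symm z), Equiv.apply_symm_apply]
  have h1 := rel_of_avatars ι (g ∘ π) (A ∘ π) (fun i => hA (π i)) π.symm γ.symm hγ' P h
  have h2 : (g ∘ π) ∘ π.symm = g := by
    funext i
    simp
  rwa [h2] at h1

end Avatars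

end Fermat.Agent.S48.H848
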