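import Fermat.Agent.S48.H848.DiaGen
import Fermat.Agent.S48.F1.Basic
import Fermat.Agent.S24.Mod.H997HolBase
import Fermat.Agent.S48.H848.Coset

/-!
# S48 / RES (Tower A1) — piece FF-DIA, concrete part (helper848)

`exists_isDiamond_of_avatar` : existence of the diamond automorphisms `δ_d` of `L · F1(M)`
(`F1.IsDiamond`), for every field `L ⊆ ℂ`, from an analytic avatar of the division values `P_a`
(interface `PAvatar`: convergent `q`-expansion `divGenC ℂ M a` and the transformation law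
`P_a ∘ γ = P_{a γ₀₀}` under `Γ₀(M)`).
-/

set_option autoImplicit false

noncomputable section

open ModularCurve HahnSeries UpperHalfPlane Fermat.Agent.S24 IntermediateField CongruenceSubgroup
open scoped MatrixGroups

namespace Fermat.Agent.S48.H848

open Fermat.Agent.S48.F1

/-- The interface for the analytic avatar of the division values `P_a`. -/
structure PAvatar (M : ℕ) (pFun : ZMod M → ℍ → ℂ) : Prop where
  infExp : ∀ a : ZMod M, a ≠ 0 → InfExp 1 (pFun a) (divGenC ℂ M a)
  smul : ∀ g : SL(2, ℤ), g ∈ Gamma0 M → ∀ a : ZMod M, a ≠ 0 → ∀ z : ℍ,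
    pFun a (g • z) = pFun (a * ((g 0 0 : ℤ) : ZMod M)) z

/-! ### Base change of an adjoined field -/

section Lbc

variable (L : Type*) [Field L] [Algebra ℚ L]

theorem coeffEmb_mem_adjoin_image (S : Set (LaurentSeries ℚ)) (x : LaurentSeries ℚ)
    (hx : x ∈ IntermediateField.adjoin ℚ S) :
    coeffEmb L x ∈ IntermediateField.adjoin L (⇑(coeffEmb L) '' S) := by
  induction hx using IntermediateField.adjoin_induction with
  | mem x hx => exact IntermediateField.subset_adjoin L _ ⟨x, hx, rfl⟩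
  | algebraMap q =>
      rw [coeffEmb_algebraMap]
      exact IntermediateField.algebraMap_mem _ _
  | add x y hx hy ihx ihy =>
      rw [map_add]
      exact add_mem ihx ihy
  | inv x hx ihx =>
      rw [map_inv₀]
      exact inv_mem ihx
  | mul x y hx hy ihx ihy =>
      rw [map_mul]
      exact mul_mem ihx ihy

theorem lbc_adjoin_eq (S : Set (LaurentSeries ℚ)) :
    laurentBaseChange L (IntermediateField.adjoin ℚ S) =
      IntermediateField.adjoin L (⇑(coeffEmb L) '' S) := by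
  apply le_antisymm
  · unfold laurentBaseChange
    rw [IntermediateField.adjoin_le_iff]
    rintro y ⟨x, hx, rfl⟩
    exact coeffEmb_mem_adjoin_image L S x hx
  · rw [IntermediateField.adjoin_le_iff]
    rintro y ⟨x, hx, rfl⟩
    exact coeffEmb_mem_laurentBaseChange L (IntermediateField.subset_adjoin ℚ S hx)

end Lbc

/-! ### The generators and their avatars -/

section Gens

variable (M : ℕ) [NeZero M]

/-- Index set of the generators of `F1 M`: divisors `d ∣ M` and classes `a ≠ 0`. -/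
abbrev DiaIdx : Type := {d : ℕ // d ∣ M} ⊕ {a : ZMod M // a ≠ 0}

theorem diaIdx_pos (d : {d : ℕ // d ∣ M}) : 0 < d.1 :=
  Nat.pos_of_dvd_of_pos d.2 (Nat.pos_of_ne_zero (NeZero.ne M))

/-- The generators of `F1 M` over `ℚ`. -/
def diaGenQ : DiaIdx M → LaurentSeries ℚ
  | Sum.inl d =>
      haveI : NeZero d.1 := ⟨(diaIdx_pos M d).ne'⟩
      qExpand ℚ d.1 jq
  | Sum.inr a => divGen M a.1

theorem range_diaGenQ : Set.range (diaGenQ M) = divisorExpansions M ∪ divGens M := by
  ext x
  constructor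
  · rintro ⟨i, rfl⟩
    rcases i with d | a
    · exact Or.inl ⟨d.1, ⟨(diaIdx_pos M d).ne'⟩, d.2, rfl⟩
    · exact Or.inr ⟨a.1, a.2, rfl⟩
  · rintro (⟨d, hne, hd, rfl⟩ | ⟨a, ha, rfl⟩)
    · exact ⟨Sum.inl ⟨d, hd⟩, rfl⟩
    · exact ⟨Sum.inr ⟨a, ha⟩, rfl⟩

variable (L : Type*) [Field L] [Algebra ℚ L]

/-- The generators of `L · F1 M` over `L`. -/
def diaGen : DiaIdx M → LaurentSeries L := fun i => coeffEmb L (diaGenQ M i)

theorem range_diaGen : Set.range (diaGen M L) = ⇑(coeffEmb L) '' (divisorExpansions M ∪ divGens M) := by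
  rw [← range_diaGenQ, ← Set.range_comp]
  rfl

/-- `L · F1 M` is generated over `L` by the generators. -/
theorem F1L_eq_adjoin : F1L L M = IntermediateField.adjoin L (Set.range (diaGen M L)) := by
  rw [range_diaGen]
  exact lbc_adjoin_eq L _

/-- The avatars of the generators. -/
def diaAv (pFun : ZMod M → ℍ → ℂ) : DiaIdx M → ℍ → ℂ
  | Sum.inl d => H997.Jd d.1
  | Sum.inr a => pFun a.1

theorem coeffMap_coeffEmb_eq (ι : L →+* ℂ) (x : LaurentSeries ℚ) :
    coeffMap ι (coeffEmb L x) = coeffEmb ℂ x := by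
  rw [coeffEmb, coeffMap_coeffMap]
  exact coeffMap_congr (Subsingleton.elim _ _) x

theorem infExp_diaAv (ι : L →+* ℂ) {pFun : ZMod M → ℍ → ℂ} (hp : PAvatar M pFun)
    (i : DiaIdx M) : InfExp 1 (diaAv M pFun i) (coeffMap ι (diaGen M L i)) := by
  rw [diaGen, coeffMap_coeffEmb_eq]
  rcases i with d | a
  · have hd := diaIdx_pos M d
    have : NeZero d.1 := ⟨hd.ne'⟩
    have h := inf_J_mul_exp H997.infExp_jFun hd one_pos
    have h1 : coeffEmb ℂ (diaGenQ M (Sum.inl d)) = qExpand ℂ (d.1 * 1) infJq := by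
      show coeffEmb ℂ (qExpand ℚ d.1 jq) = _
      rw [← qExpand_coeffEmb]
      exact qExpand_congr (mul_one d.1).symm _
    rw [h1]
    exact h
  · show InfExp 1 (pFun a.1) (coeffEmb ℂ (divGen M a.1))
    have h1 : coeffEmb ℂ (divGen M a.1) = divGenC ℂ M a.1 := by
      rw [← divGenC_rat]
      exact coeffMap_divGenC (algebraMap ℚ ℂ) M a.1
    rw [h1]
    exact hp.infExp a.1 a.2

/-- Multiplication by a unit as a permutation of the nonzero classes. -/
def unitPerm (d : (ZMod M)ˣ) : Equiv.Perm {a : ZMod M // a ≠ 0} where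
  toFun a := ⟨(d : ZMod M) * a.1, unit_mul_ne_zero d a.2⟩
  invFun a := ⟨((d⁻¹ : (ZMod M)ˣ) : ZMod M) * a.1, unit_mul_ne_zero d⁻¹ a.2⟩
  left_inv a := by
    apply Subtype.ext
    show ((d⁻¹ : (ZMod M)ˣ) : ZMod M) * ((d : ZMod M) * a.1) = a.1
    rw [← mul_assoc, ← Units.val_mul, inv_mul_cancel, Units.val_one, one_mul]
  right_inv a := by
    apply Subtype.ext
    show (d : ZMod M) * (((d⁻¹ : (ZMod M)ˣ) : ZMod M) * a.1) = a.1
    rw [← mul_assoc, ← Units.val_mul, mul_inv_cancel, Units.val_one, one_mul]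

/-- The permutation of the generators attached to a unit `d`. -/
def diaPerm (d : (ZMod M)ˣ) : Equiv.Perm (DiaIdx M) :=
  Equiv.sumCongr (Equiv.refl _) (unitPerm M d)

/-- An element of `Γ₀(M)` with upper left entry `≡ d`. -/
theorem exists_Gamma0_of_unit (d : (ZMod M)ˣ) :
    ∃ g : SL(2, ℤ), g ∈ Gamma0 M ∧ ((g 0 0 : ℤ) : ZMod M) = (d : ZMod M) := by
  have hcop : Nat.Coprime (d : ZMod M).val M := ZMod.val_coe_unit_coprime d
  have hcop' : IsCoprime (((d : ZMod M).val : ℕ) : ℤ) (M : ℤ) :=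
    Nat.isCoprime_iff_coprime.mpr hcop
  obtain ⟨u, v, huv⟩ := hcop'
  obtain ⟨g, h00, -, h10, -⟩ := exists_SL2_848 (((d : ZMod M).val : ℕ) : ℤ) (-v) (M : ℤ) u
    (by linear_combination huv)
  refine ⟨g, ?_, ?_⟩
  · rw [Gamma0_mem, h10]
    simp
  · rw [h00]
    simp

theorem diaAv_smul {pFun : ZMod M → ℍ → ℂ} (hp : PAvatar M pFun) (d : (ZMod M)ˣ)
    (g : SL(2, ℤ)) (hg : g ∈ Gamma0 M) (hgd : ((g 0 0 : ℤ) : ZMod M) = (d : ZMod M))
    (i : DiaIdx M) (z : ℍ) :
    diaAv M pFun i (g • z) = diaAv M pFun (diaPerm M d i) z := by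
  rcases i with e | a
  · exact H997.Jd_inv M e.1 e.2 g hg z
  · show pFun a.1 (g • z) = pFun ((d : ZMod M) * a.1) z
    rw [hp.smul g hg a.1 a.2 z, hgd, mul_comm]

end Gens

/-! ### The diamond automorphisms -/

section Main

/-- `exists_algEquiv_of_avatars` for an intermediate field given as `L(g)`. -/
theorem exists_algEquiv_of_avatars_of_eq {L : Type*} [Field L] {I : Type*} (ι : L →+* ℂ)
    (g : I → LaurentSeries L) (A : I → ℍ → ℂ)
    (hA : ∀ i, InfExp 1 (A i) (coeffMap ι (g i))) (π : Equiv.Perm I) (γ : Equiv.Perm ℍ)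
    (hγ : ∀ i z, A i (γ z) = A (π i) z)
    (K : IntermediateField L (LaurentSeries L))
    (hK : K = IntermediateField.adjoin L (Set.range g)) :
    ∃ σ : K ≃ₐ[L] K, ∀ (i : I) (x y : K), (x : LaurentSeries L) = g i →
      (y : LaurentSeries L) = g (π i) → σ x = y := by
  subst hK
  obtain ⟨σ, hσ⟩ := exists_algEquiv_of_avatars ι g A hA π γ hγ
  refine ⟨σ, fun i x y hx hy => ?_⟩
  have h1 : x = genAdj g i := Subtype.ext hx
  have h2 : y = genAdj g (π i) := Subtype.ext hy
  rw [h1, h2, hσ]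

variable (M : ℕ) [NeZero M] (L : Type*) [Field L] [Algebra ℚ L]

omit [NeZero M] in
/-- An automorphism of `L · F1(M)` fixing the generators `j(q^d)` fixes `L · F0(M)`. -/
theorem fixes_full_of_fixes_gens (σ : F1L L M ≃ₐ[L] F1L L M)
    (hσ : ∀ (d : ℕ) [NeZero d], d ∣ M → ∀ x : F1L L M,
      (x : LaurentSeries L) = coeffEmb L (qExpand ℚ d jq) → σ x = x)
    (x : F1L L M)
    (hx : (x : LaurentSeries L) ∈ laurentBaseChange L (modularFunctionFieldFull M)) :
    σ x = x := by
  have hle : laurentBaseChange L (modularFunctionFieldFull M) ≤ F1L L M :=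
    lbc_mono L (full_le_F1 M)
  have key : ((σ : F1L L M ≃ₐ[L] F1L L M) : F1L L M →+* F1L L M).comp
      (IntermediateField.inclusion hle).toRingHom
      = (IntermediateField.inclusion hle).toRingHom := by
    refine lbc_ringHom_ext (S := divisorExpansions M) _ _ ?_ ?_
    · intro a
      show σ ((IntermediateField.inclusion hle) (algebraMap L _ a))
        = (IntermediateField.inclusion hle) (algebraMap L _ a)
      rw [AlgHom.commutes, σ.commutes]
    · rintro z ⟨dd, hne, hdd, rfl⟩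
      exact hσ dd hdd _ (IntermediateField.coe_inclusion hle _)
  have h1 := congrArg (fun f : _ →+* F1L L M => f ⟨(x : LaurentSeries L), hx⟩) key
  have hx' : (IntermediateField.inclusion hle) ⟨(x : LaurentSeries L), hx⟩ = x :=
    Subtype.ext (IntermediateField.coe_inclusion hle _)
  simp only [RingHom.comp_apply] at h1
  have h2 : σ ((IntermediateField.inclusion hle) ⟨(x : LaurentSeries L), hx⟩)
      = (IntermediateField.inclusion hle) ⟨(x : LaurentSeries L), hx⟩ := h1
  rwa [hx'] at h2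

/-- **FF-DIA** from an avatar of the `P_a`: for every unit `d` there is a diamond automorphism
`δ_d` of `L · F1(M)`. -/
theorem exists_isDiamond_of_avatar (ι : L →+* ℂ) {pFun : ZMod M → ℍ → ℂ}
    (hp : PAvatar M pFun) (d : (ZMod M)ˣ) :
    ∃ σ : F1L L M ≃ₐ[L] F1L L M, IsDiamond L M d σ := by
  obtain ⟨g, hg, hgd⟩ := exists_Gamma0_of_unit M d
  obtain ⟨σ, hσ⟩ := exists_algEquiv_of_avatars_of_eq ι (diaGen M L) (diaAv M pFun)
    (infExp_diaAv M L ι hp) (diaPerm M d) (MulAction.toPerm g)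
    (fun i z => diaAv_smul M hp d g hg hgd i z) (F1L L M) (F1L_eq_adjoin M L)
  refine ⟨σ, ?_, ?_⟩
  · refine fixes_full_of_fixes_gens M L σ ?_
    intro dd _ hdd x hx
    exact hσ (Sum.inl ⟨dd, hdd⟩) x x hx hx
  · intro a x y ha hx hy
    exact hσ (Sum.inr ⟨a, ha⟩) x y hx hy

end Main

end Fermat.Agent.S48.H848
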