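import Fermat.Agent.S48.H848.DiaFinal

/-!
# S48 / Tower A1 — R4a: the diamond automorphisms of `L · F1p(M, p)` (helper848)

`F1p M p = F1 M ⊔ (q ↦ q^p)(F1 M)` (level `Γ₁(M) ∩ Γ₀(p)`).  For every unit `d` mod `M` there
is a unique automorphism `δ'_d` of `L · F1p(M, p)` with `δ'_d ∘ α = α ∘ δ_d` and
`δ'_d ∘ β = β ∘ δ_d` (`α = F1.alpha1` the inclusion, `β = F1.beta1 = (q ↦ q^p)`,
`δ_d = F1.diamondAut`): analytically `f ↦ f ∘ γ`, `γ ∈ Γ₀(M p)` with `γ₀₀ ≡ d` mod `M`.

* `IsDiamondP L M p d σ` — the characterisation; `isDiamondP_unique`;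
* `exists_isDiamondP_of_avatar`, `exists_isDiamondP` (`L = Qbar`);
* `IsDiamondP.fixes_full` : `δ'_d` fixes `L · F0(M p)` (`p` prime).
-/

set_option autoImplicit false

noncomputable section

open ModularCurve HahnSeries UpperHalfPlane Fermat.Agent.S24 IntermediateField CongruenceSubgroup
open scoped MatrixGroups

namespace Fermat.Agent.S48.H848

open Fermat.Agent.S48.F1

/-! ### Generators of `F1p M p` -/

section GensP

variable (M p : ℕ) [NeZero M] [NeZero p]

/-- Index set of the generators of `F1p M p`: two copies of the generators of `F1 M`. -/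
abbrev DiaIdxP : Type := DiaIdx M ⊕ DiaIdx M

/-- The generators of `F1p M p` over `ℚ`: the generators of `F1 M` and their images under
`q ↦ q^p`. -/
def diaGenPQ : DiaIdxP M → LaurentSeries ℚ
  | Sum.inl i => diaGenQ M i
  | Sum.inr i => qExpand ℚ p (diaGenQ M i)

theorem F1_eq_adjoin_range : F1 M = IntermediateField.adjoin ℚ (Set.range (diaGenQ M)) := by
  rw [range_diaGenQ]
  rfl

theorem range_diaGenPQ : Set.range (diaGenPQ M p) =
    Set.range (diaGenQ M) ∪ ⇑(qExpandₐ p) '' Set.range (diaGenQ M) := by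
  ext x
  constructor
  · rintro ⟨i, rfl⟩
    rcases i with i | i
    · exact Or.inl ⟨i, rfl⟩
    · exact Or.inr ⟨_, ⟨i, rfl⟩, rfl⟩
  · rintro (⟨i, rfl⟩ | ⟨_, ⟨i, rfl⟩, rfl⟩)
    · exact ⟨Sum.inl i, rfl⟩
    · exact ⟨Sum.inr i, rfl⟩

theorem F1p_eq_adjoin : F1p M p = IntermediateField.adjoin ℚ (Set.range (diaGenPQ M p)) := by
  rw [range_diaGenPQ, IntermediateField.adjoin_union, ← IntermediateField.adjoin_map,
    ← F1_eq_adjoin_range]
  rfl

variable (L : Type*) [Field L] [Algebra ℚ L]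

/-- The generators of `L · F1p M p` over `L`. -/
def diaGenP : DiaIdxP M → LaurentSeries L := fun i => coeffEmb L (diaGenPQ M p i)

theorem diaGenP_inl (i : DiaIdx M) : diaGenP M p L (Sum.inl i) = diaGen M L i := rfl

theorem diaGenP_inr (i : DiaIdx M) :
    diaGenP M p L (Sum.inr i) = qExpand L p (diaGen M L i) := by
  rw [diaGen, qExpand_coeffEmb]
  rfl

/-- `L · F1p M p` is generated over `L` by the generators. -/
theorem F1pL_eq_adjoin :
    F1pL L M p = IntermediateField.adjoin L (Set.range (diaGenP M p L)) := by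
  have h : Set.range (diaGenP M p L) = ⇑(coeffEmb L) '' Set.range (diaGenPQ M p) := by
    rw [← Set.range_comp]
    rfl
  rw [h, ← lbc_adjoin_eq, ← F1p_eq_adjoin]

/-- The avatars of the generators. -/
def diaAvP (pFun : ZMod M → ℍ → ℂ) : DiaIdxP M → ℍ → ℂ
  | Sum.inl i => diaAv M pFun i
  | Sum.inr i => fun τ => diaAv M pFun i (infAff p 0 1 τ)

theorem infExp_raise {f : ℍ → ℂ} {φ : LaurentSeries ℂ} (hf : InfExp 1 f φ) :
    InfExp 1 (fun τ => f (infAff p 0 1 τ)) (qExpand ℂ p φ) := by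
  have hp : 0 < p := Nat.pos_of_ne_zero (NeZero.ne p)
  have h := hf.comp_infAff (N := 1) (a := p) (d := 1) (e := p) 0 hp one_pos one_pos one_pos
    (by ring)
  rw [infRoot_zero, infTwist_one] at h
  exact h

theorem infExp_diaAvP (ι : L →+* ℂ) {pFun : ZMod M → ℍ → ℂ} (hp : PAvatar M pFun)
    (i : DiaIdxP M) : InfExp 1 (diaAvP M p pFun i) (coeffMap ι (diaGenP M p L i)) := by
  rcases i with i | i
  · exact infExp_diaAv M L ι hp i
  · have h := infExp_raise p (infExp_diaAv M L ι hp i)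
    have e : coeffMap ι (diaGenP M p L (Sum.inr i)) = qExpand ℂ p (coeffMap ι (diaGen M L i)) := by
      show coeffMap ι (coeffEmb L (qExpand ℚ p (diaGenQ M i))) = _
      rw [coeffMap_coeffEmb_eq, diaGen, coeffMap_coeffEmb_eq, qExpand_coeffEmb]
    rw [e]
    exact h

/-- The permutation of the generators attached to a unit `d`. -/
def diaPermP (d : (ZMod M)ˣ) : Equiv.Perm (DiaIdxP M) :=
  Equiv.sumCongr (diaPerm M d) (diaPerm M d)

/-- An element `γ ∈ Γ₀(M p)` with `γ₀₀ ≡ d` mod `M`, together with its conjugate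
`γ' = diag(p,1) γ diag(p,1)⁻¹ ∈ Γ₀(M)`. -/
theorem exists_Gamma0_mul_of_unit (d : (ZMod M)ˣ) :
    ∃ g g' : SL(2, ℤ), g ∈ Gamma0 (M * p) ∧ g' ∈ Gamma0 M ∧
      ((g 0 0 : ℤ) : ZMod M) = (d : ZMod M) ∧ ((g' 0 0 : ℤ) : ZMod M) = (d : ZMod M) ∧
      ∀ τ : ℍ, infAff p 0 1 (g • τ) = g' • infAff p 0 1 τ := by
  have hp : 0 < p := Nat.pos_of_ne_zero (NeZero.ne p)
  have : NeZero (M * p) := ⟨Nat.mul_ne_zero (NeZero.ne M) (NeZero.ne p)⟩
  obtain ⟨u, hu⟩ := ZMod.unitsMap_surjective (Dvd.intro p rfl : M ∣ M * p) d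
  have hcop : Nat.Coprime (u : ZMod (M * p)).val (M * p) := ZMod.val_coe_unit_coprime u
  have hcop' : IsCoprime (((u : ZMod (M * p)).val : ℕ) : ℤ) ((M * p : ℕ) : ℤ) :=
    Nat.isCoprime_iff_coprime.mpr hcop
  obtain ⟨a, b, hab⟩ := hcop'
  -- a * x + b * (M p) = 1
  set x : ℤ := (((u : ZMod (M * p)).val : ℕ) : ℤ) with hx
  obtain ⟨g, h00, h01, h10, h11⟩ := exists_SL2_848 x (-b) ((M * p : ℕ) : ℤ) a
    (by linear_combination hab)
  obtain ⟨g', h00', h01', h10', h11'⟩ := exists_SL2_848 x (-b * p) (M : ℤ) a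
    (by push_cast at hab; linear_combination hab)
  have hxd : ((x : ℤ) : ZMod M) = (d : ZMod M) := by
    have h1 : (d : ZMod M) = ZMod.castHom (Dvd.intro p rfl : M ∣ M * p) (ZMod M)
        (u : ZMod (M * p)) := by
      rw [← hu]
      rfl
    rw [h1, hx, Int.cast_natCast, ZMod.castHom_apply, ZMod.cast_eq_val]
  refine ⟨g, g', ?_, ?_, ?_, ?_, ?_⟩
  · rw [Gamma0_mem, h10, Int.cast_natCast]
    exact ZMod.natCast_self (M * p)
  · rw [Gamma0_mem, h10']
    simp
  · rw [h00]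
    exact hxd
  · rw [h00']
    exact hxd
  · intro τ
    refine inf_aff_smul_eq (d := p) (a := p) (d' := 1) (b := 0) hp hp one_pos g g' ?_ ?_ ?_ ?_ τ
    · rw [h00, h00']
      ring
    · rw [h01, h00', h01']
      push_cast
      ring
    · rw [h10, h10']
      push_cast
      ring
    · rw [h11, h10', h11']
      push_cast
      ring

theorem Gamma0_mul_le (M p : ℕ) : Gamma0 (M * p) ≤ Gamma0 M := by
  intro g hg
  rw [Gamma0_mem] at hg ⊢
  have h1 : ((M * p : ℕ) : ℤ) ∣ g 1 0 := (ZMod.intCast_zmod_eq_zero_iff_dvd _ _).mp hg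
  have h2 : (M : ℤ) ∣ g 1 0 := dvd_trans ⟨p, by push_cast; ring⟩ h1
  exact (ZMod.intCast_zmod_eq_zero_iff_dvd _ _).mpr h2

omit [NeZero p] in
theorem diaAvP_smul {pFun : ZMod M → ℍ → ℂ} (hp : PAvatar M pFun) (d : (ZMod M)ˣ)
    (g g' : SL(2, ℤ)) (hg : g ∈ Gamma0 M) (hg' : g' ∈ Gamma0 M)
    (hgd : ((g 0 0 : ℤ) : ZMod M) = (d : ZMod M))
    (hgd' : ((g' 0 0 : ℤ) : ZMod M) = (d : ZMod M))
    (hconj : ∀ τ : ℍ, infAff p 0 1 (g • τ) = g' • infAff p 0 1 τ)
    (i : DiaIdxP M) (z : ℍ) :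
    diaAvP M p pFun i (g • z) = diaAvP M p pFun (diaPermP M d i) z := by
  rcases i with i | i
  · exact diaAv_smul M hp d g hg hgd i z
  · show diaAv M pFun i (infAff p 0 1 (g • z)) = diaAv M pFun (diaPerm M d i) (infAff p 0 1 z)
    rw [hconj]
    exact diaAv_smul M hp d g' hg' hgd' i _

end GensP

/-! ### The diamond automorphisms of `L · F1p(M, p)` -/

section ExtP

/-- Algebra homomorphisms out of `K = L(g)` which agree on the generators are equal. -/
theorem algHom_ext_of_eq_adjoin {L : Type*} [Field L] {Ω : Type*} [Field Ω] [Algebra L Ω]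
    {I : Type*} (g : I → Ω) (K : IntermediateField L Ω)
    (hK : K = IntermediateField.adjoin L (Set.range g)) {R : Type*} [DivisionRing R]
    [Algebra L R] (f₁ f₂ : K →ₐ[L] R)
    (h : ∀ (i : I) (x : K), (x : Ω) = g i → f₁ x = f₂ x) : f₁ = f₂ := by
  subst hK
  exact adjoin_algHom_ext g f₁ f₂ (fun i => h i _ rfl)

end ExtP

section MainP

variable (L : Type*) [Field L] [Algebra ℚ L] (M p : ℕ) [NeZero M] [NeZero p]

/-- `σ` is the diamond automorphism `δ'_d` of `L · F1p(M, p)`: it restricts to the diamond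
automorphism `δ_d` of `L · F1(M)` along both degeneracy maps. -/
def IsDiamondP (d : (ZMod M)ˣ) (σ : F1pL L M p ≃ₐ[L] F1pL L M p) : Prop :=
  ∃ σ₀ : F1L L M ≃ₐ[L] F1L L M, IsDiamond L M d σ₀ ∧
    (∀ x : F1L L M, σ (alpha1 L M p x) = alpha1 L M p (σ₀ x)) ∧
    ∀ x : F1L L M, σ (beta1 L M p x) = beta1 L M p (σ₀ x)

/-- `δ'_d` on the generators. -/
def IsDiamondGenP (d : (ZMod M)ˣ) (σ : F1pL L M p ≃ₐ[L] F1pL L M p) : Prop :=
  ∀ (i : DiaIdxP M) (x y : F1pL L M p), (x : LaurentSeries L) = diaGenP M p L i →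
    (y : LaurentSeries L) = diaGenP M p L (diaPermP M d i) → σ x = y

variable {L M p}

/-- The generators of `L · F1(M)` as elements. -/
theorem exists_gen_F1L (i : DiaIdx M) :
    ∃ x : F1L L M, (x : LaurentSeries L) = diaGen M L i := by
  have h : diaGen M L i ∈ F1L L M := by
    rw [F1L_eq_adjoin M L]
    exact IntermediateField.subset_adjoin L _ ⟨i, rfl⟩
  exact ⟨⟨_, h⟩, rfl⟩

theorem isDiamond_apply_gen {d : (ZMod M)ˣ} {σ₀ : F1L L M ≃ₐ[L] F1L L M}
    (h : IsDiamond L M d σ₀) (i : DiaIdx M) (x y : F1L L M)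
    (hx : (x : LaurentSeries L) = diaGen M L i)
    (hy : (y : LaurentSeries L) = diaGen M L (diaPerm M d i)) : σ₀ x = y := by
  rcases i with e | a
  · have hmem : (x : LaurentSeries L) ∈ laurentBaseChange L (modularFunctionFieldFull M) := by
      rw [hx]
      have : NeZero e.1 := ⟨(diaIdx_pos M e).ne'⟩
      exact coeffEmb_mem_laurentBaseChange L
        (IntermediateField.subset_adjoin ℚ _ ⟨e.1, ⟨(diaIdx_pos M e).ne'⟩, e.2, rfl⟩)
    rw [h.1 x hmem]
    exact Subtype.ext (hx.trans hy.symm)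
  · refine h.2 a.1 x y a.2 hx ?_
    rw [hy]
    rfl

theorem IsDiamondGenP.isDiamondP {d : (ZMod M)ˣ} {σ : F1pL L M p ≃ₐ[L] F1pL L M p}
    (hσ : IsDiamondGenP L M p d σ) {σ₀ : F1L L M ≃ₐ[L] F1L L M} (h₀ : IsDiamond L M d σ₀) :
    IsDiamondP L M p d σ := by
  refine ⟨σ₀, h₀, ?_, ?_⟩
  · have key : (σ : F1pL L M p →ₐ[L] F1pL L M p).comp (alpha1 L M p) =
        (alpha1 L M p).comp (σ₀ : F1L L M →ₐ[L] F1L L M) := by
      refine algHom_ext_of_eq_adjoin (diaGen M L) (F1L L M) (F1L_eq_adjoin M L) _ _ ?_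
      intro i x hx
      obtain ⟨y, hy⟩ := exists_gen_F1L (L := L) (diaPerm M d i)
      show σ (alpha1 L M p x) = alpha1 L M p (σ₀ x)
      rw [isDiamond_apply_gen h₀ i x y hx hy]
      refine hσ (Sum.inl i) _ _ ?_ ?_
      · rw [coe_alpha1, hx]
        rfl
      · rw [coe_alpha1, hy]
        rfl
    intro x
    exact congrArg (fun f : F1L L M →ₐ[L] F1pL L M p => f x) key
  · have key : (σ : F1pL L M p →ₐ[L] F1pL L M p).comp (beta1 L M p) =
        (beta1 L M p).comp (σ₀ : F1L L M →ₐ[L] F1L L M) := by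
      refine algHom_ext_of_eq_adjoin (diaGen M L) (F1L L M) (F1L_eq_adjoin M L) _ _ ?_
      intro i x hx
      obtain ⟨y, hy⟩ := exists_gen_F1L (L := L) (diaPerm M d i)
      show σ (beta1 L M p x) = beta1 L M p (σ₀ x)
      rw [isDiamond_apply_gen h₀ i x y hx hy]
      refine hσ (Sum.inr i) _ _ ?_ ?_
      · rw [coe_beta1, hx, diaGenP_inr]
      · rw [coe_beta1, hy]
        exact (diaGenP_inr M p L _).symm
    intro x
    exact congrArg (fun f : F1L L M →ₐ[L] F1pL L M p => f x) key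

theorem IsDiamondP.isDiamondGenP {d : (ZMod M)ˣ} {σ : F1pL L M p ≃ₐ[L] F1pL L M p}
    (hσ : IsDiamondP L M p d σ) : IsDiamondGenP L M p d σ := by
  obtain ⟨σ₀, h₀, hα, hβ⟩ := hσ
  intro i x y hx hy
  rcases i with i | i
  · obtain ⟨x₀, hx₀⟩ := exists_gen_F1L (L := L) i
    obtain ⟨y₀, hy₀⟩ := exists_gen_F1L (L := L) (diaPerm M d i)
    have e1 : x = alpha1 L M p x₀ := Subtype.ext (by rw [coe_alpha1, hx, hx₀]; rfl)
    have e2 : y = alpha1 L M p y₀ := Subtype.ext (by rw [coe_alpha1, hy, hy₀]; rfl)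
    rw [e1, e2, hα, isDiamond_apply_gen h₀ i x₀ y₀ hx₀ hy₀]
  · obtain ⟨x₀, hx₀⟩ := exists_gen_F1L (L := L) i
    obtain ⟨y₀, hy₀⟩ := exists_gen_F1L (L := L) (diaPerm M d i)
    have e1 : x = beta1 L M p x₀ := Subtype.ext (by rw [coe_beta1, hx, hx₀, diaGenP_inr])
    have e2 : y = beta1 L M p y₀ := Subtype.ext (by
      rw [coe_beta1, hy, hy₀]
      exact diaGenP_inr M p L _)
    rw [e1, e2, hβ, isDiamond_apply_gen h₀ i x₀ y₀ hx₀ hy₀]

/-- The diamond automorphism of `L · F1p(M, p)` is unique. -/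
theorem isDiamondP_unique {d : (ZMod M)ˣ} {σ τ : F1pL L M p ≃ₐ[L] F1pL L M p}
    (hσ : IsDiamondP L M p d σ) (hτ : IsDiamondP L M p d τ) : σ = τ := by
  have h1 := hσ.isDiamondGenP
  have h2 := hτ.isDiamondGenP
  have key : (σ : F1pL L M p →ₐ[L] F1pL L M p) = (τ : F1pL L M p →ₐ[L] F1pL L M p) := by
    refine algHom_ext_of_eq_adjoin (diaGenP M p L) (F1pL L M p) (F1pL_eq_adjoin M p L) _ _ ?_
    intro i x hx
    have hy : diaGenP M p L (diaPermP M d i) ∈ F1pL L M p := by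
      rw [F1pL_eq_adjoin M p L]
      exact IntermediateField.subset_adjoin L _ ⟨_, rfl⟩
    show σ x = τ x
    rw [h1 i x ⟨_, hy⟩ hx rfl, h2 i x ⟨_, hy⟩ hx rfl]
  apply AlgEquiv.ext
  intro x
  exact congrArg (fun f : F1pL L M p →ₐ[L] F1pL L M p => f x) key

variable (L M p)

/-- Existence of `δ'_d` on the generators, from an avatar of the `P_a`. -/
theorem exists_isDiamondGenP_of_avatar (ι : L →+* ℂ) {pFun : ZMod M → ℍ → ℂ}
    (hp : PAvatar M pFun) (d : (ZMod M)ˣ) :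
    ∃ σ : F1pL L M p ≃ₐ[L] F1pL L M p, IsDiamondGenP L M p d σ := by
  obtain ⟨g, g', hg, hg', hgd, hgd', hconj⟩ := exists_Gamma0_mul_of_unit M p d
  exact exists_algEquiv_of_avatars_of_eq ι (diaGenP M p L) (diaAvP M p pFun)
    (infExp_diaAvP M p L ι hp) (diaPermP M d) (MulAction.toPerm g)
    (fun i z => diaAvP_smul M p hp d g g' (Gamma0_mul_le M p hg) hg' hgd hgd' hconj i z)
    (F1pL L M p) (F1pL_eq_adjoin M p L)

/-- **The diamond automorphisms of `L · F1p(M, p)` exist** (`L` embedded in `ℂ`). -/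
theorem exists_isDiamondP_of_emb (ι : L →+* ℂ) (d : (ZMod M)ˣ) :
    ∃ σ : F1pL L M p ≃ₐ[L] F1pL L M p, IsDiamondP L M p d σ := by
  obtain ⟨σ, hσ⟩ := exists_isDiamondGenP_of_avatar L M p ι (pAvatar_pFun M) d
  obtain ⟨σ₀, h₀⟩ := exists_isDiamond_of_emb M L ι d
  exact ⟨σ, hσ.isDiamondP h₀⟩

end MainP

/-! ### `δ'_d` fixes `L · F0(M p)` -/

section FixP

/-- An automorphism of `K ⊇ L · ℚ(S)` fixing the generators `S` fixes `L · ℚ(S)`. -/
theorem fixes_lbc_of_fixes_gens {L : Type*} [Field L] [Algebra ℚ L]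
    (S : Set (LaurentSeries ℚ)) (K : IntermediateField L (LaurentSeries L))
    (hle : laurentBaseChange L (IntermediateField.adjoin ℚ S) ≤ K) (σ : K ≃ₐ[L] K)
    (hσ : ∀ z ∈ S, ∀ x : K, (x : LaurentSeries L) = coeffEmb L z → σ x = x)
    (x : K) (hx : (x : LaurentSeries L) ∈ laurentBaseChange L (IntermediateField.adjoin ℚ S)) :
    σ x = x := by
  have key : ((σ : K ≃ₐ[L] K) : K →+* K).comp (IntermediateField.inclusion hle).toRingHom
      = (IntermediateField.inclusion hle).toRingHom := by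
    refine lbc_ringHom_ext (S := S) _ _ ?_ ?_
    · intro a
      show σ ((IntermediateField.inclusion hle) (algebraMap L _ a))
        = (IntermediateField.inclusion hle) (algebraMap L _ a)
      rw [AlgHom.commutes, σ.commutes]
    · intro z hz
      exact hσ z hz _ (IntermediateField.coe_inclusion hle _)
  have h1 := congrArg (fun f : _ →+* K => f ⟨(x : LaurentSeries L), hx⟩) key
  have hx' : (IntermediateField.inclusion hle) ⟨(x : LaurentSeries L), hx⟩ = x :=
    Subtype.ext (IntermediateField.coe_inclusion hle _)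
  simp only [RingHom.comp_apply] at h1
  have h2 : σ ((IntermediateField.inclusion hle) ⟨(x : LaurentSeries L), hx⟩)
      = (IntermediateField.inclusion hle) ⟨(x : LaurentSeries L), hx⟩ := h1
  rwa [hx'] at h2

variable (L : Type*) [Field L] [Algebra ℚ L] (M p : ℕ) [NeZero M] [NeZero p]

/-- The divisors of `M p` (`p` prime) are the `e` and the `p e`, `e ∣ M`: every generator of
`F0(M p)` is a generator of `F1p M p` with index fixed by `diaPermP`. -/
theorem exists_idx_of_dvd_mul (hp : p.Prime) {e : ℕ} [NeZero e] (he : e ∣ M * p)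
    (d : (ZMod M)ˣ) :
    ∃ i : DiaIdxP M, diaGenPQ M p i = qExpand ℚ e jq ∧ diaPermP M d i = i := by
  by_cases hpe : p ∣ e
  · obtain ⟨e', rfl⟩ := hpe
    have he' : e' ∣ M := by
      rw [mul_comm M p] at he
      exact Nat.dvd_of_mul_dvd_mul_left hp.pos he
    have hne : NeZero e' := ⟨fun h => NeZero.ne (p * e') (by rw [h, mul_zero])⟩
    refine ⟨Sum.inr (Sum.inl ⟨e', he'⟩), ?_, rfl⟩
    show qExpand ℚ p (qExpand ℚ e' jq) = qExpand ℚ (p * e') jq
    exact qExpand_qExpand e' p jq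
  · have hcop : Nat.Coprime e p := (Nat.Coprime.symm ((Nat.Prime.coprime_iff_not_dvd hp).mpr hpe))
    have he' : e ∣ M := hcop.dvd_of_dvd_mul_right he
    exact ⟨Sum.inl (Sum.inl ⟨e, he'⟩), rfl, rfl⟩

theorem full_mul_le_F1p (hp : p.Prime) : modularFunctionFieldFull (M * p) ≤ F1p M p := by
  rw [modularFunctionFieldFull, IntermediateField.adjoin_le_iff]
  rintro z ⟨e, hne, he, rfl⟩
  obtain ⟨i, hi, -⟩ := exists_idx_of_dvd_mul M p hp he 1
  rw [← hi, F1p_eq_adjoin]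
  exact IntermediateField.subset_adjoin ℚ _ ⟨i, rfl⟩

variable {L M p}

/-- `δ'_d` fixes `L · F0(M p)` (`p` prime). -/
theorem IsDiamondGenP.fixes_full (hp : p.Prime) {d : (ZMod M)ˣ}
    {σ : F1pL L M p ≃ₐ[L] F1pL L M p} (hσ : IsDiamondGenP L M p d σ) (x : F1pL L M p)
    (hx : (x : LaurentSeries L) ∈ laurentBaseChange L (modularFunctionFieldFull (M * p))) :
    σ x = x := by
  refine fixes_lbc_of_fixes_gens (divisorExpansions (M * p)) (F1pL L M p)
    (lbc_mono L (full_mul_le_F1p M p hp)) σ ?_ x hx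
  rintro z ⟨e, hne, he, rfl⟩ y hy
  obtain ⟨i, hi, hπ⟩ := exists_idx_of_dvd_mul M p hp he d
  refine hσ i y y ?_ ?_
  · rw [hy, ← hi]
    rfl
  · rw [hπ, hy, ← hi]
    rfl

theorem IsDiamondP.fixes_full (hp : p.Prime) {d : (ZMod M)ˣ}
    {σ : F1pL L M p ≃ₐ[L] F1pL L M p} (hσ : IsDiamondP L M p d σ) (x : F1pL L M p)
    (hx : (x : LaurentSeries L) ∈ laurentBaseChange L (modularFunctionFieldFull (M * p))) :
    σ x = x :=
  hσ.isDiamondGenP.fixes_full hp x hx

end FixP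

end Fermat.Agent.S48.H848
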