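import Fermat.Agent.S48.H848.DiaP
import Fermat.Agent.S48.H848.DiaGal

/-!
# S48 / Tower A1 — R4a (GAL) for `F1p M p` (helper848)

The diamond group of `Qbar · F1p(M, p)` (level `Γ₁(M) ∩ Γ₀(p)`, `p` prime) over
`Qbar · F0(M p)`:

* `diamondAutP M p d`, `diamondAutP_alpha1`, `diamondAutP_beta1`, `diaPHom`, `diaPGroup` (finite),
  `diaPGroup_fix`;
* `diamondP_fixed_mem` (**G_inv**): an element of `Qbar · F1p(M, p)` fixed by all `diamondAutP d`
  lies in `Qbar · F0(M p)`, GIVEN the degree `[Qbar · F1p(M, p) : Qbar(j)] = [SL₂(ℤ) : H]` for a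
  subgroup `H ≤ Γ₀(M p)` containing every `γ ∈ Γ₀(M p)` with `γ₀₀ ≡ ±1` mod `M`
  (e.g. `H = ±Γ₁(M) ∩ Γ₀(p)`, `p ∤ M`: `diamondP_fixed_mem_of_coprime`).
-/

set_option autoImplicit false

noncomputable section

open ModularCurve UpperHalfPlane CongruenceSubgroup
open scoped MatrixGroups

namespace Fermat.Agent.S48.H848

open Fermat.Agent.S48.F1 Fermat.Agent.S24

local notation "Qb" => AlgebraicClosure ℚ

variable (M p : ℕ) [NeZero M] [NeZero p]

/-! ### The automorphisms -/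

/-- **The diamond automorphisms of `Qbar · F1p(M, p)` exist.** -/
theorem exists_isDiamondP (d : (ZMod M)ˣ) :
    ∃ σ : F1pL Qb M p ≃ₐ[Qb] F1pL Qb M p, IsDiamondP Qb M p d σ :=
  exists_isDiamondP_of_emb Qb M p qbarEmb848 d

/-- The diamond automorphism `δ'_d` of `Qbar · F1p(M, p)`. -/
def diamondAutP (d : (ZMod M)ˣ) : F1pL Qb M p ≃ₐ[Qb] F1pL Qb M p :=
  (exists_isDiamondP M p d).choose

theorem isDiamondP_diamondAutP (d : (ZMod M)ˣ) : IsDiamondP Qb M p d (diamondAutP M p d) :=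
  (exists_isDiamondP M p d).choose_spec

theorem diamondAutP_alpha1 (d : (ZMod M)ˣ) (x : F1L Qb M) :
    diamondAutP M p d (alpha1 Qb M p x) = alpha1 Qb M p (diamondAut Qb M d x) := by
  obtain ⟨σ₀, h₀, hα, -⟩ := isDiamondP_diamondAutP M p d
  rw [hα, diamondAut_eq h₀]

theorem diamondAutP_beta1 (d : (ZMod M)ˣ) (x : F1L Qb M) :
    diamondAutP M p d (beta1 Qb M p x) = beta1 Qb M p (diamondAut Qb M d x) := by
  obtain ⟨σ₀, h₀, -, hβ⟩ := isDiamondP_diamondAutP M p d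
  rw [hβ, diamondAut_eq h₀]

theorem diamondAutP_eq {d : (ZMod M)ˣ} {σ : F1pL Qb M p ≃ₐ[Qb] F1pL Qb M p}
    (hσ : IsDiamondP Qb M p d σ) : diamondAutP M p d = σ :=
  isDiamondP_unique (isDiamondP_diamondAutP M p d) hσ

/-- Characterisation of `δ'_d` by its restrictions. -/
theorem isDiamondP_of_restrict {d : (ZMod M)ˣ} {σ : F1pL Qb M p ≃ₐ[Qb] F1pL Qb M p}
    (hα : ∀ x : F1L Qb M, σ (alpha1 Qb M p x) = alpha1 Qb M p (diamondAut Qb M d x))
    (hβ : ∀ x : F1L Qb M, σ (beta1 Qb M p x) = beta1 Qb M p (diamondAut Qb M d x)) :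
    IsDiamondP Qb M p d σ :=
  ⟨diamondAut Qb M d, isDiamond_diamondAut_848 M d, hα, hβ⟩

/-- The diamond automorphisms of `Qbar · F1p(M, p)` form a group homomorphism. -/
def diaPHom : (ZMod M)ˣ →* (F1pL Qb M p ≃ₐ[Qb] F1pL Qb M p) where
  toFun d := diamondAutP M p d
  map_one' := by
    apply diamondAutP_eq
    have h1 : diamondAut Qb M 1 = 1 := (diaHom M).map_one
    refine isDiamondP_of_restrict M p (fun x => ?_) (fun x => ?_)
    · rw [h1]
      rfl
    · rw [h1]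
      rfl
  map_mul' d d' := by
    apply diamondAutP_eq
    have hm : diamondAut Qb M (d * d') = diamondAut Qb M d * diamondAut Qb M d' :=
      (diaHom M).map_mul d d'
    refine isDiamondP_of_restrict M p (fun x => ?_) (fun x => ?_)
    · show diamondAutP M p d (diamondAutP M p d' (alpha1 Qb M p x)) = _
      rw [diamondAutP_alpha1, diamondAutP_alpha1, hm]
      rfl
    · show diamondAutP M p d (diamondAutP M p d' (beta1 Qb M p x)) = _
      rw [diamondAutP_beta1, diamondAutP_beta1, hm]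
      rfl

@[simp]
theorem diaPHom_apply (d : (ZMod M)ˣ) : diaPHom M p d = diamondAutP M p d := rfl

/-- The diamond automorphisms as ring automorphisms. -/
def diaPRingHom : (ZMod M)ˣ →* (F1pL Qb M p ≃+* F1pL Qb M p) where
  toFun d := (diamondAutP M p d).toRingEquiv
  map_one' := by
    have h := (diaPHom M p).map_one
    rw [diaPHom_apply] at h
    rw [h]
    rfl
  map_mul' d d' := by
    have h := (diaPHom M p).map_mul d d'
    simp only [diaPHom_apply] at h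
    rw [h]
    rfl

@[simp]
theorem diaPRingHom_apply (d : (ZMod M)ˣ) (x : F1pL Qb M p) :
    diaPRingHom M p d x = diamondAutP M p d x := rfl

/-- The diamond group of `Qbar · F1p(M, p)`. -/
def diaPGroup : Subgroup (F1pL Qb M p ≃+* F1pL Qb M p) := (diaPRingHom M p).range

theorem mem_diaPGroup_iff {g : F1pL Qb M p ≃+* F1pL Qb M p} :
    g ∈ diaPGroup M p ↔ ∃ d : (ZMod M)ˣ, (diamondAutP M p d).toRingEquiv = g :=
  Iff.rfl

instance finite_diaPGroup : Finite (diaPGroup M p) :=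
  Finite.of_surjective (diaPRingHom M p).rangeRestrict (diaPRingHom M p).rangeRestrict_surjective

/-- `δ'_d` fixes `Qbar · F0(M p)`. -/
theorem diamondAutP_fixes_full (hp : p.Prime) (d : (ZMod M)ˣ) (x : F1pL Qb M p)
    (hx : (x : LaurentSeries Qb) ∈ modularFunctionFieldBar (M * p)) :
    diamondAutP M p d x = x :=
  (isDiamondP_diamondAutP M p d).fixes_full hp x hx

theorem diaPGroup_fix (hp : p.Prime) (g : F1pL Qb M p ≃+* F1pL Qb M p)
    (hg : g ∈ diaPGroup M p) (x : F1pL Qb M p)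
    (hx : (x : LaurentSeries Qb) ∈ modularFunctionFieldBar (M * p)) : g x = x := by
  obtain ⟨d, rfl⟩ := hg
  exact diamondAutP_fixes_full M p hp d x hx

/-! ### The kernel -/

omit [NeZero M] in
theorem alpha1_injective : Function.Injective (alpha1 Qb M p) :=
  (alpha1 Qb M p).toRingHom.injective

/-- `δ'_d = 1` implies `d = ±1`. -/
theorem eq_one_or_neg_one_of_diamondAutP_eq_one (d : (ZMod M)ˣ)
    (h : ∀ x : F1pL Qb M p, diamondAutP M p d x = x) :
    (d : ZMod M) = 1 ∨ (d : ZMod M) = -1 := by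
  apply eq_one_or_neg_one_of_diamondAut_eq_one M d
  intro x
  apply alpha1_injective M p
  rw [← diamondAutP_alpha1, h]

/-- `Γ₀(M p) → Aut(Qbar · F1p(M, p))`, `γ ↦ δ'_{γ₁₁}`. -/
def gamma0DiaP : Gamma0 (M * p) →* (F1pL Qb M p ≃+* F1pL Qb M p) :=
  (diaPRingHom M p).comp ((gamma0Units M).comp (Subgroup.inclusion (Gamma0_mul_le M p)))

theorem gamma0DiaP_range_le : (gamma0DiaP M p).range ≤ diaPGroup M p := by
  rintro g ⟨γ, rfl⟩
  exact ⟨_, rfl⟩

theorem finite_range_gamma0DiaP : Finite (gamma0DiaP M p).range :=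
  Finite.of_injective (Subgroup.inclusion (gamma0DiaP_range_le M p))
    (Subgroup.inclusion_injective _)

/-- the upper left entry of an element of the kernel is `±1` mod `M` -/
theorem coe_zero_zero_of_mem_ker (γ : Gamma0 (M * p)) (hγ : γ ∈ (gamma0DiaP M p).ker) :
    ((((γ : SL(2, ℤ)) 0 0 : ℤ) : ZMod M) = 1 ∨ (((γ : SL(2, ℤ)) 0 0 : ℤ) : ZMod M) = -1) := by
  rw [MonoidHom.mem_ker] at hγ
  set u : (ZMod M)ˣ := gamma0Units M (Subgroup.inclusion (Gamma0_mul_le M p) γ) with hu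
  have h1 : ∀ x : F1pL Qb M p, diamondAutP M p u x = x := by
    intro x
    have := congrArg (fun f : F1pL Qb M p ≃+* F1pL Qb M p => f x) hγ
    exact this
  have h2 := eq_one_or_neg_one_of_diamondAutP_eq_one M p u h1
  have hcoe : (u : ZMod M) = (((γ : SL(2, ℤ)) 1 1 : ℤ) : ZMod M) := rfl
  rw [hcoe] at h2
  have hdet := H332.coe_mul_coe_eq_one_of_mem_Gamma0 (Gamma0_mul_le M p γ.2)
  rcases h2 with h3 | h3
  · left
    rw [h3, mul_one] at hdet
    exact hdet
  · right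
    rw [h3] at hdet
    have : (((γ : SL(2, ℤ)) 0 0 : ℤ) : ZMod M) =
        -((((γ : SL(2, ℤ)) 0 0 : ℤ) : ZMod M) * -1) := by ring
    rw [this, hdet]

/-! ### The fixed field -/

/-- **G_inv** for `F1p`, given the degree of `Qbar · F1p(M, p)` over `Qbar(j)`. -/
theorem diamondP_fixed_mem (hp : p.Prime) (H : Subgroup SL(2, ℤ)) (hH : H ≤ Gamma0 (M * p))
    (hker : ∀ γ : SL(2, ℤ), γ ∈ Gamma0 (M * p) →
      (((γ 0 0 : ℤ) : ZMod M) = 1 ∨ ((γ 0 0 : ℤ) : ZMod M) = -1) → γ ∈ H)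
    (hdeg : IntermediateField.relfinrank jField (F1pL Qb M p) = H.index)
    (hfin : H.index ≠ 0)
    (x : F1pL Qb M p) (hx : ∀ d : (ZMod M)ˣ, diamondAutP M p d x = x) :
    (x : LaurentSeries Qb) ∈ modularFunctionFieldBar (M * p) := by
  have : NeZero (M * p) := ⟨Nat.mul_ne_zero (NeZero.ne M) (NeZero.ne p)⟩
  have : Finite (gamma0DiaP M p).range := finite_range_gamma0DiaP M p
  have hle : modularFunctionFieldBar (M * p) ≤ F1pL Qb M p :=
    lbc_mono Qb (full_mul_le_F1p M p hp)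
  have hrel : H.relIndex (Gamma0 (M * p)) ≤ Nat.card (gamma0DiaP M p).range := by
    have hk : (gamma0DiaP M p).ker ≤ H.subgroupOf (Gamma0 (M * p)) := by
      intro γ hγ
      rw [Subgroup.mem_subgroupOf]
      exact hker γ γ.2 (coe_zero_zero_of_mem_ker M p γ hγ)
    have h1 := Subgroup.index_dvd_of_le hk
    rw [Subgroup.index_ker] at h1
    exact Nat.le_of_dvd Nat.card_pos h1
  refine mem_of_fixed_of_relfinrank_le jField (modularFunctionFieldBar (M * p)) (F1pL Qb M p)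
    (jField_le_full (M * p)) hle (gamma0DiaP M p).range ?_ ?_ ?_ x ?_
  · intro g hg y hy
    exact diaPGroup_fix M p hp g (gamma0DiaP_range_le M p hg) y hy
  · rw [hdeg]
    exact hfin
  · rw [hdeg, ← Subgroup.relIndex_mul_index hH, mul_comm]
    exact Nat.mul_le_mul (index_le_relfinrank_jField_full (M * p)) hrel
  · rintro g ⟨γ, rfl⟩
    exact hx _

/-- **G_inv** for the diamond group of `F1p`. -/
theorem diaPGroup_inv (hp : p.Prime) (H : Subgroup SL(2, ℤ)) (hH : H ≤ Gamma0 (M * p))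
    (hker : ∀ γ : SL(2, ℤ), γ ∈ Gamma0 (M * p) →
      (((γ 0 0 : ℤ) : ZMod M) = 1 ∨ ((γ 0 0 : ℤ) : ZMod M) = -1) → γ ∈ H)
    (hdeg : IntermediateField.relfinrank jField (F1pL Qb M p) = H.index)
    (hfin : H.index ≠ 0)
    (x : F1pL Qb M p) (hx : ∀ g ∈ diaPGroup M p, g x = x) :
    (x : LaurentSeries Qb) ∈ modularFunctionFieldBar (M * p) :=
  diamondP_fixed_mem M p hp H hH hker hdeg hfin x fun d => hx _ ⟨d, rfl⟩

/-! ### The case `p ∤ M`, `H = ±Γ₁(M) ∩ Γ₀(p)` -/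

omit [NeZero M] [NeZero p] in
theorem pmGamma1_inf_le (hMp : Nat.Coprime M p) :
    H332.pmGamma1 M ⊓ Gamma0 p ≤ Gamma0 (M * p) := by
  rintro γ ⟨h1, h2⟩
  have hM : (M : ℤ) ∣ γ 1 0 :=
    (ZMod.intCast_zmod_eq_zero_iff_dvd _ _).mp (Gamma0_mem.mp h1.1)
  have hP : (p : ℤ) ∣ γ 1 0 :=
    (ZMod.intCast_zmod_eq_zero_iff_dvd _ _).mp (Gamma0_mem.mp h2)
  have hcop : IsCoprime (M : ℤ) (p : ℤ) := Nat.isCoprime_iff_coprime.mpr hMp
  have hMP : ((M * p : ℕ) : ℤ) ∣ γ 1 0 := by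
    push_cast
    exact hcop.mul_dvd hM hP
  rw [Gamma0_mem]
  exact (ZMod.intCast_zmod_eq_zero_iff_dvd _ _).mpr hMP

omit [NeZero M] [NeZero p] in
theorem mem_pmGamma1_inf_of_mem (γ : SL(2, ℤ)) (hγ : γ ∈ Gamma0 (M * p))
    (h : ((γ 0 0 : ℤ) : ZMod M) = 1 ∨ ((γ 0 0 : ℤ) : ZMod M) = -1) :
    γ ∈ H332.pmGamma1 M ⊓ Gamma0 p := by
  refine ⟨⟨Gamma0_mul_le M p hγ, h⟩, ?_⟩
  have h2 : γ ∈ Gamma0 (p * M) := by rwa [mul_comm] at hγ
  exact Gamma0_mul_le p M h2

theorem index_pmGamma1_inf_ne_zero : (H332.pmGamma1 M ⊓ Gamma0 p).index ≠ 0 := by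
  have : (Gamma0 p).FiniteIndex :=
    Subgroup.finiteIndex_of_le (Gamma1_in_Gamma0 p)
  exact Subgroup.FiniteIndex.index_ne_zero

/-- **G_inv** for `F1p`, `p ∤ M` prime, given
`[Qbar · F1p(M, p) : Qbar(j)] = [SL₂(ℤ) : ±Γ₁(M) ∩ Γ₀(p)]`. -/
theorem diamondP_fixed_mem_of_coprime (hp : p.Prime) (hMp : Nat.Coprime M p)
    (hdeg : IntermediateField.relfinrank jField (F1pL Qb M p) =
      (H332.pmGamma1 M ⊓ Gamma0 p).index)
    (x : F1pL Qb M p) (hx : ∀ d : (ZMod M)ˣ, diamondAutP M p d x = x) :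
    (x : LaurentSeries Qb) ∈ modularFunctionFieldBar (M * p) :=
  diamondP_fixed_mem M p hp _ (pmGamma1_inf_le M p hMp) (mem_pmGamma1_inf_of_mem M p) hdeg
    (index_pmGamma1_inf_ne_zero M p) x hx

/-- The same with the degree in `Module.finrank` form (`jP` any element with value `j`). -/
theorem diamondP_fixed_mem_of_finrank (hp : p.Prime) (hMp : Nat.Coprime M p)
    (jP : F1pL Qb M p) (hjP : (jP : LaurentSeries Qb) = coeffEmb Qb jq)
    (hdeg : Module.finrank ↥(IntermediateField.adjoin Qb {jP}) ↥(F1pL Qb M p) =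
      Nat.card (SL(2, ℤ) ⧸ (H332.pmGamma1 M ⊓ Gamma0 p)))
    (x : F1pL Qb M p) (hx : ∀ d : (ZMod M)ˣ, diamondAutP M p d x = x) :
    (x : LaurentSeries Qb) ∈ modularFunctionFieldBar (M * p) := by
  refine diamondP_fixed_mem_of_coprime M p hp hMp ?_ x hx
  rw [finrank_adjoin_simple_eq_relfinrank, hjP] at hdeg
  rw [Subgroup.index_eq_card]
  exact hdeg

end Fermat.Agent.S48.H848
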