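import Fermat.Agent.S48.H848.DiaPGal
import Fermat.Agent.S48.F1.RaiseF1

/-!
# S48 / Tower A1 — R4a (GAL) for `F1p M p`, unconditional (helper848)

`diamondP_fixed_mem_848` (**G_inv**): for `p` prime, `p ∤ M`, an element of `Qbar · F1p(M, p)`
fixed by all diamond automorphisms `diamondAutP M p d` lies in `Qbar · F0(M p)`.
Hence `diaPGroup_fixed_iff`: the fixed field of the (finite) diamond group `diaPGroup M p` is
exactly `Qbar · F0(M p)`.

Input: the degree `[Qbar · F1p(M, p) : Qbar(j)] = [SL₂(ℤ) : ±Γ₁(M) ∩ Γ₀(p)]`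
(`F1.finrank_F1pL`, helper168) and `DiaPGal.diamondP_fixed_mem_of_finrank`.
-/

set_option autoImplicit false

noncomputable section

open ModularCurve UpperHalfPlane CongruenceSubgroup
open scoped MatrixGroups

namespace Fermat.Agent.S48.H848

open Fermat.Agent.S48.F1 Fermat.Agent.S24

local notation "Qb" => AlgebraicClosure ℚ

variable (M p : ℕ) [NeZero M] [NeZero p]

/-- **G_inv** for `F1p M p` (`p` prime, `p ∤ M`). -/
theorem diamondP_fixed_mem_848 (hp : p.Prime) (hpM : ¬ p ∣ M) (x : F1pL Qb M p)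
    (hx : ∀ d : (ZMod M)ˣ, diamondAutP M p d x = x) :
    (x : LaurentSeries Qb) ∈ modularFunctionFieldBar (M * p) := by
  have : NeZero (M * p) := ⟨Nat.mul_ne_zero (NeZero.ne M) (NeZero.ne p)⟩
  have hcop : Nat.Coprime p M := (Nat.Prime.coprime_iff_not_dvd hp).mpr hpM
  exact diamondP_fixed_mem_of_finrank M p hp hcop.symm (jpL M p) (coe_jpL M p)
    (finrank_F1pL M p hcop) x hx

/-- **G_inv** for the diamond group of `F1p M p`. -/
theorem diaPGroup_inv_848 (hp : p.Prime) (hpM : ¬ p ∣ M) (x : F1pL Qb M p)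
    (hx : ∀ g ∈ diaPGroup M p, g x = x) :
    (x : LaurentSeries Qb) ∈ modularFunctionFieldBar (M * p) :=
  diamondP_fixed_mem_848 M p hp hpM x fun d => hx _ ⟨d, rfl⟩

/-- The fixed field of the diamond group of `Qbar · F1p(M, p)` is exactly `Qbar · F0(M p)`. -/
theorem diaPGroup_fixed_iff (hp : p.Prime) (hpM : ¬ p ∣ M) (x : F1pL Qb M p) :
    (∀ g ∈ diaPGroup M p, g x = x) ↔ (x : LaurentSeries Qb) ∈ modularFunctionFieldBar (M * p) :=
  ⟨diaPGroup_inv_848 M p hp hpM x, fun hx g hg => diaPGroup_fix M p hp g hg x hx⟩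

end Fermat.Agent.S48.H848
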