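import Fermat.Agent.S48.F1.Defs

/-!
# S48 / Tower A1 — `E`-recovery (helper848)

Linear disjointness of the constants `L` and `E((q))` over `E`, in the form needed for the
descent of the base field: for a subfield `E ⊆ L` and `F₀ ⊆ ℚ((q))`,

  `x ∈ L · F₀` with all coefficients in `E`  ⟹  `x ∈ E · F₀`

(`mem_closure_of_coeff_mem`), where `E · F₀ = Subfield.closure (E ∪ coeffEmb '' F₀)`.

Proof: `x = r / s` with `r, s` in the `L`-span of `coeffEmb '' F₀`.  For an `E`-linear functional
`φ : L → E` let `Λ_φ` be the coefficientwise application of `φ`; it is linear over series with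
coefficients in `E`, so `x · Λ_φ(s) = Λ_φ(r)`, and `Λ_φ(r), Λ_φ(s) ∈ E · F₀`; choose `φ` with
`Λ_φ(s) ≠ 0`.
-/

set_option autoImplicit false

noncomputable section

open ModularCurve HahnSeries

namespace Fermat.Agent.S48.H848

section ERecover

variable {L : Type*} [Field L] (E : Subfield L)

/-- An `E`-linear functional on `L`, as an additive map `L → L`. -/
def dualAdd (φ : L →ₗ[E] E) : L →+ L :=
  (E.subtype : E →+* L).toAddMonoidHom.comp φ.toAddMonoidHom

@[simp]
theorem dualAdd_apply (φ : L →ₗ[E] E) (a : L) : dualAdd E φ a = ((φ a : E) : L) := rfl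

/-- Coefficientwise application of an `E`-linear functional. -/
def dualCoeff (φ : L →ₗ[E] E) (x : LaurentSeries L) : LaurentSeries L :=
  x.map (dualAdd E φ)

@[simp]
theorem dualCoeff_coeff (φ : L →ₗ[E] E) (x : LaurentSeries L) (n : ℤ) :
    (dualCoeff E φ x).coeff n = ((φ (x.coeff n) : E) : L) := rfl

theorem dualCoeff_zero (φ : L →ₗ[E] E) : dualCoeff E φ 0 = 0 := by
  ext n
  simp

theorem dualCoeff_add (φ : L →ₗ[E] E) (x y : LaurentSeries L) :
    dualCoeff E φ (x + y) = dualCoeff E φ x + dualCoeff E φ y := by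
  ext n
  simp

theorem dualCoeff_support_subset (φ : L →ₗ[E] E) (y : LaurentSeries L) :
    (dualCoeff E φ y).support ⊆ y.support := by
  intro n hn
  rw [HahnSeries.mem_support] at hn ⊢
  intro h0
  apply hn
  rw [dualCoeff_coeff, h0, map_zero]
  rfl

/-- `Λ_φ` is linear over the series with coefficients in `E`. -/
theorem dualCoeff_mul_of_coeff_mem (φ : L →ₗ[E] E) {x : LaurentSeries L}
    (hx : ∀ n, x.coeff n ∈ E) (y : LaurentSeries L) :
    dualCoeff E φ (x * y) = x * dualCoeff E φ y := by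
  ext n
  rw [dualCoeff_coeff, HahnSeries.coeff_mul,
    HahnSeries.coeff_mul_right' y.isPWO_support (dualCoeff_support_subset E φ y), map_sum]
  push_cast
  refine Finset.sum_congr rfl fun ij _ => ?_
  have h1 : x.coeff ij.1 * y.coeff ij.2 = (⟨x.coeff ij.1, hx ij.1⟩ : E) • y.coeff ij.2 := rfl
  rw [h1, map_smul, dualCoeff_coeff]
  rfl

theorem coeff_C_mul (a : L) (y : LaurentSeries L) (n : ℤ) :
    (HahnSeries.C a * y).coeff n = a * y.coeff n := by
  rw [HahnSeries.C_mul_eq_smul]
  rfl

theorem coeff_C_848 (a : L) (n : ℤ) :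
    (HahnSeries.C a : LaurentSeries L).coeff n = if n = 0 then a else 0 := by
  rw [HahnSeries.C_apply]
  by_cases hn : n = 0
  · subst hn
    rw [if_pos rfl, HahnSeries.coeff_single_same]
  · rw [if_neg hn, HahnSeries.coeff_single_of_ne hn]

theorem dualCoeff_C_mul (φ : L →ₗ[E] E) (a : L) (y : LaurentSeries L) :
    dualCoeff E φ (HahnSeries.C a * y) = dualCoeff E (φ.comp (LinearMap.mulLeft E a)) y := by
  ext n
  rw [dualCoeff_coeff, dualCoeff_coeff, coeff_C_mul]
  rfl

theorem dualCoeff_one (φ : L →ₗ[E] E) :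
    dualCoeff E φ 1 = HahnSeries.C ((φ 1 : E) : L) := by
  ext n
  rw [dualCoeff_coeff, coeff_C_848, HahnSeries.coeff_one]
  by_cases hn : n = 0
  · rw [if_pos hn, if_pos hn]
  · rw [if_neg hn, if_neg hn, map_zero]
    rfl

/-- For a series with coefficients in `E`, `Λ_φ(x) = φ(1) · x`. -/
theorem dualCoeff_of_coeff_mem (φ : L →ₗ[E] E) {x : LaurentSeries L}
    (hx : ∀ n, x.coeff n ∈ E) :
    dualCoeff E φ x = x * HahnSeries.C ((φ 1 : E) : L) := by
  have h := dualCoeff_mul_of_coeff_mem E φ hx 1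
  rw [mul_one, dualCoeff_one] at h
  exact h

variable [Algebra ℚ L] (F₀ : IntermediateField ℚ (LaurentSeries ℚ))

/-- `E · F₀`, as a subfield of `L((q))`. -/
def fieldE : Subfield (LaurentSeries L) :=
  Subfield.closure ((HahnSeries.C '' (E : Set L)) ∪ ⇑(coeffEmb L) '' (F₀ : Set (LaurentSeries ℚ)))

theorem C_mem_fieldE {a : L} (ha : a ∈ E) : HahnSeries.C a ∈ fieldE E F₀ :=
  Subfield.subset_closure (Or.inl ⟨a, ha, rfl⟩)

theorem coeffEmb_mem_fieldE {z : LaurentSeries ℚ} (hz : z ∈ F₀) : coeffEmb L z ∈ fieldE E F₀ :=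
  Subfield.subset_closure (Or.inr ⟨z, hz, rfl⟩)

theorem coeffEmb_coeff_mem (z : LaurentSeries ℚ) (n : ℤ) : (coeffEmb L z).coeff n ∈ E := by
  rw [coeffEmb_coeff]
  have h : algebraMap ℚ L (z.coeff n) = ((z.coeff n : ℚ) : L) := by
    rw [eq_ratCast]
  rw [h]
  exact SubfieldClass.ratCast_mem E _

/-- `Λ_φ` maps the `L`-algebra generated by `coeffEmb '' F₀` into `E · F₀`. -/
theorem dualCoeff_mem_of_mem_adjoin {y : LaurentSeries L}
    (hy : y ∈ Algebra.adjoin L (⇑(coeffEmb L) '' (F₀ : Set (LaurentSeries ℚ))))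
    (φ : L →ₗ[E] E) : dualCoeff E φ y ∈ fieldE E F₀ := by
  have hy' : y ∈ Subalgebra.toSubmodule
      (Algebra.adjoin L (⇑(coeffEmb L) '' (F₀ : Set (LaurentSeries ℚ)))) := hy
  rw [Algebra.adjoin_eq_span] at hy'
  clear hy
  induction hy' using Submodule.span_induction generalizing φ with
  | mem u hu =>
      have hu' : u ∈ ⇑(coeffEmb L) '' (F₀ : Set (LaurentSeries ℚ)) := by
        induction hu using Submonoid.closure_induction with
        | mem u hu => exact hu
        | one => exact ⟨1, one_mem _, map_one _⟩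
        | mul u v _ _ hu hv =>
            obtain ⟨a, ha, rfl⟩ := hu
            obtain ⟨b, hb, rfl⟩ := hv
            exact ⟨a * b, mul_mem ha hb, map_mul _ _ _⟩
      obtain ⟨z, hz, rfl⟩ := hu'
      rw [dualCoeff_of_coeff_mem E φ (coeffEmb_coeff_mem E z)]
      exact mul_mem (coeffEmb_mem_fieldE E F₀ hz) (C_mem_fieldE E F₀ (φ 1).2)
  | zero =>
      rw [dualCoeff_zero]
      exact zero_mem _
  | add u v _ _ hu hv =>
      rw [dualCoeff_add]
      exact add_mem (hu φ) (hv φ)
  | smul a u _ hu =>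
      rw [Algebra.smul_def, F1.algebraMap_laurent_eq_single, ← HahnSeries.C_apply,
        dualCoeff_C_mul]
      exact hu _

/-- **`E`-recovery**: an element of `L · F₀` with all coefficients in `E` lies in `E · F₀`. -/
theorem mem_fieldE_of_coeff_mem {x : LaurentSeries L} (hx : x ∈ laurentBaseChange L F₀)
    (hcoef : ∀ n, x.coeff n ∈ E) : x ∈ fieldE E F₀ := by
  unfold laurentBaseChange at hx
  rw [IntermediateField.mem_adjoin_iff_div] at hx
  obtain ⟨r, hr, s, hs, rfl⟩ := hx
  by_cases hs0 : s = 0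
  · rw [hs0, div_zero]
    exact zero_mem _
  · obtain ⟨n, hn⟩ : ∃ n, s.coeff n ≠ 0 := by
      by_contra hcon
      refine hs0 (HahnSeries.ext (funext fun n => ?_))
      by_contra hn
      exact hcon ⟨n, hn⟩
    obtain ⟨φ, hφ⟩ : ∃ φ : L →ₗ[E] E, φ (s.coeff n) ≠ 0 := by
      by_contra hcon
      refine hn ((Module.forall_dual_apply_eq_zero_iff E (s.coeff n)).mp fun φ => ?_)
      by_contra hφ
      exact hcon ⟨φ, hφ⟩
    have hΛs : dualCoeff E φ s ≠ 0 := by
      intro h0
      have := congrArg (fun t : LaurentSeries L => t.coeff n) h0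
      simp only [dualCoeff_coeff, HahnSeries.coeff_zero] at this
      exact hφ (Subtype.ext this)
    have hmul : r / s * s = r := div_mul_cancel₀ r hs0
    have h1 := dualCoeff_mul_of_coeff_mem E φ hcoef s
    rw [hmul] at h1
    have h2 : r / s = dualCoeff E φ r / dualCoeff E φ s := by
      rw [eq_div_iff hΛs, ← h1]
    rw [h2]
    exact div_mem (dualCoeff_mem_of_mem_adjoin E F₀ hr φ) (dualCoeff_mem_of_mem_adjoin E F₀ hs φ)

omit [Algebra ℚ L] in
/-- A series with coefficients in `E` comes from `E((q))`. -/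
theorem exists_coeffMap_eq_of_coeff_mem {y : LaurentSeries L} (hy : ∀ n, y.coeff n ∈ E) :
    ∃ g : LaurentSeries E, coeffMap E.subtype g = y := by
  have hsupp : Function.support (fun n => (⟨y.coeff n, hy n⟩ : E)) = y.support := by
    ext n
    simp only [Function.mem_support, HahnSeries.mem_support, ne_eq]
    constructor
    · intro h h0
      exact h (Subtype.ext h0)
    · intro h h0
      exact h (congrArg Subtype.val h0)
  refine ⟨⟨fun n => ⟨y.coeff n, hy n⟩, ?_⟩, ?_⟩
  · rw [hsupp]
    exact y.isPWO_support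
  · ext n
    rfl

omit [Algebra ℚ L] in
theorem inv_coeff_mem {y : LaurentSeries L} (hy : ∀ n, y.coeff n ∈ E) (n : ℤ) :
    (y⁻¹).coeff n ∈ E := by
  obtain ⟨g, rfl⟩ := exists_coeffMap_eq_of_coeff_mem E hy
  rw [← map_inv₀]
  exact ((g⁻¹).coeff n).2

/-- Elements of `E · F₀` have coefficients in `E` and lie in `L · F₀`. -/
theorem coeff_mem_of_mem_fieldE {x : LaurentSeries L} (hx : x ∈ fieldE E F₀) :
    (∀ n, x.coeff n ∈ E) ∧ x ∈ laurentBaseChange L F₀ := by
  have hsub : ∀ y : LaurentSeries L, (∀ n, y.coeff n ∈ E) →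
      ∀ z : LaurentSeries L, (∀ n, z.coeff n ∈ E) → ∀ n, (y * z).coeff n ∈ E := by
    intro y hy z hz n
    rw [HahnSeries.coeff_mul]
    exact sum_mem fun ij _ => mul_mem (hy _) (hz _)
  unfold fieldE at hx
  induction hx using Subfield.closure_induction with
  | mem y hy =>
      rcases hy with ⟨a, ha, rfl⟩ | ⟨z, hz, rfl⟩
      · refine ⟨fun n => ?_, ?_⟩
        · rw [coeff_C_848]
          split_ifs
          · exact ha
          · exact zero_mem _
        · have h : (HahnSeries.C a : LaurentSeries L) = algebraMap L (LaurentSeries L) a := by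
            rw [F1.algebraMap_laurent_eq_single]
            rfl
          rw [h]
          exact (laurentBaseChange L F₀).algebraMap_mem a
      · exact ⟨coeffEmb_coeff_mem E z, coeffEmb_mem_laurentBaseChange L hz⟩
  | one =>
      refine ⟨fun n => ?_, one_mem _⟩
      rw [HahnSeries.coeff_one]
      split_ifs
      · exact one_mem _
      · exact zero_mem _
  | add y z _ _ hy hz =>
      exact ⟨fun n => by rw [HahnSeries.coeff_add]; exact add_mem (hy.1 n) (hz.1 n),
        add_mem hy.2 hz.2⟩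
  | neg y _ hy =>
      exact ⟨fun n => by rw [HahnSeries.coeff_neg]; exact neg_mem (hy.1 n), neg_mem hy.2⟩
  | inv y _ hy =>
      exact ⟨inv_coeff_mem E hy.1, inv_mem hy.2⟩
  | mul y z _ _ hy hz =>
      exact ⟨hsub y hy.1 z hz.1, mul_mem hy.2 hz.2⟩

end ERecover

end Fermat.Agent.S48.H848
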