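import Fermat.Agent.S48.H848.DiaGal
import Fermat.Agent.S48.H848.ERecover
import Fermat.Agent.S48.H908.CoreG
import Fermat.Agent.S18.H965.GlueLemmas

/-!
# S48 / Tower A1 / A1-RED — R4a at the level of a coefficient field `E` (helper848)

The group fields of `H588.StepCore` for the step `Ω = Om M = ℚ̄·F0(M) ⟶ Ω' = OmG (F1 M) = ℚ̄·F1(M)`,
`ι = iotaF1 M` (inclusion), `Fc = S18.Mod.Fc M E`, `Fc' = H908.FcG (F1 M) E`, `G = diaGroup M`,
for EVERY intermediate field `E` of `ℚ̄/ℚ`: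

* `mem_FcG_iff_coeff_mem` : `FcG F₀ E` = elements of `ℚ̄·F₀` with all coefficients in `E`
  (**`E`-recovery**, generic in `F₀`); `mem_Fc_iff_coeff_mem` (the same for `S18.Mod.Fc M E`);
* `step_F_le`  : `(Fc M E).map ι ≤ FcG (F1 M) E`;
* `step_G_fix` : `G` fixes `(Fc M E).map ι`;
* `step_G_F`   : `G` preserves `FcG (F1 M) E`;
* `step_G_inv` : `f ∈ FcG (F1 M) E` fixed by `G` ⟹ `f ∈ (Fc M E).map ι`;
* `finite_diaGroup` (from `DiaGal`) is `G_finite`.
-/

set_option autoImplicit false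

noncomputable section

open ModularCurve HahnSeries
open Fermat.Agent.S18 (Qb)

namespace Fermat.Agent.S48.H848

open Fermat.Agent.S48.F1 Fermat.Agent.S18.Mod Fermat.Agent.S48.H908.Core1

/-! ### `E`-recovery for `FcG` -/

section Recover

variable (F₀ : IntermediateField ℚ (LaurentSeries ℚ)) (E : IntermediateField ℚ Qb)

theorem exists_mem_FcG_of_mem_fieldE {x : LaurentSeries Qb} (hx : x ∈ fieldE E.toSubfield F₀) :
    ∃ f ∈ FcG F₀ E, (f : LaurentSeries Qb) = x := by
  unfold fieldE at hx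
  induction hx using Subfield.closure_induction with
  | mem y hy =>
      rcases hy with ⟨a, ha, rfl⟩ | ⟨z, hz, rfl⟩
      · refine ⟨algebraMap Qb (OmG F₀) a, algebraMap_mem_FcG ha, ?_⟩
        change algebraMap Qb (LaurentSeries Qb) a = _
        rw [algebraMap_laurent_eq_single, HahnSeries.C_apply]
      · exact exists_mem_FcG_of_mem hz
  | one => exact ⟨1, one_mem _, rfl⟩
  | add y z _ _ hy hz =>
      obtain ⟨f, hf, rfl⟩ := hy
      obtain ⟨g, hg, rfl⟩ := hz
      exact ⟨f + g, add_mem hf hg, rfl⟩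
  | neg y _ hy =>
      obtain ⟨f, hf, rfl⟩ := hy
      exact ⟨-f, neg_mem hf, rfl⟩
  | inv y _ hy =>
      obtain ⟨f, hf, rfl⟩ := hy
      exact ⟨f⁻¹, inv_mem hf, rfl⟩
  | mul y z _ _ hy hz =>
      obtain ⟨f, hf, rfl⟩ := hy
      obtain ⟨g, hg, rfl⟩ := hz
      exact ⟨f * g, mul_mem hf hg, rfl⟩

/-- **`E`-recovery**: an element of `ℚ̄·F₀` with all coefficients in `E` lies in `E·F₀`. -/
theorem mem_FcG_of_coeff_mem {f : OmG F₀} (hf : ∀ n : ℤ, (f : LaurentSeries Qb).coeff n ∈ E) :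
    f ∈ FcG F₀ E := by
  obtain ⟨g, hg, hgf⟩ := exists_mem_FcG_of_mem_fieldE F₀ E
    (mem_fieldE_of_coeff_mem E.toSubfield F₀ f.2 hf)
  have : g = f := Subtype.ext hgf
  rwa [this] at hg

theorem mem_FcG_iff_coeff_mem {f : OmG F₀} :
    f ∈ FcG F₀ E ↔ ∀ n : ℤ, (f : LaurentSeries Qb).coeff n ∈ E :=
  ⟨fun hf n => coeff_mem_of_mem_FcG hf n, mem_FcG_of_coeff_mem F₀ E⟩

end Recover

section RecoverS18

variable (M : ℕ) (E : IntermediateField ℚ Qb)

/-- `S18.Mod.Fc M E` and `FcG (modularFunctionFieldFull M) E` are the same subfield. -/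
theorem mem_Fc_iff_mem_FcG {f : Om M} :
    f ∈ Fc M E ↔ f ∈ FcG (modularFunctionFieldFull M) E := by
  constructor
  · intro hf
    exact mem_FcG_of_coeff_mem _ E (Fermat.Agent.S18.H965.coeff_mem_of_mem_Fc hf)
  · intro hf
    unfold FcG at hf
    induction hf using Subfield.closure_induction with
    | mem y hy =>
        rcases hy with ⟨a, ha, rfl⟩ | ⟨z, hz, hyz⟩
        · exact Fermat.Agent.S18.H965.algebraMap_mem_Fc ha
        · obtain ⟨g, hg, hgz⟩ :=
            Fermat.Agent.S18.H965.exists_mem_Fc_of_mem_full (M := M) (E := E) hz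
          have : g = y := Subtype.ext (hgz.trans hyz.symm)
          rwa [this] at hg
    | one => exact one_mem _
    | add y z _ _ hy hz => exact add_mem hy hz
    | neg y _ hy => exact neg_mem hy
    | inv y _ hy => exact inv_mem hy
    | mul y z _ _ hy hz => exact mul_mem hy hz

/-- **`E`-recovery** for `S18.Mod.Fc M E`. -/
theorem mem_Fc_iff_coeff_mem {f : Om M} :
    f ∈ Fc M E ↔ ∀ n : ℤ, (f : LaurentSeries Qb).coeff n ∈ E := by
  rw [mem_Fc_iff_mem_FcG]
  exact mem_FcG_iff_coeff_mem _ E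

end RecoverS18

/-! ### The step `F0(M) ⟶ F1(M)` -/

section Step

variable (M : ℕ) [NeZero M] (E : IntermediateField ℚ Qb)

/-- The inclusion `ℚ̄·F0(M) → ℚ̄·F1(M)`. -/
def iotaF1 : Om M →+* OmG (F1 M) :=
  (IntermediateField.inclusion (full_le_F1L M)).toRingHom

omit [NeZero M] in
theorem coe_iotaF1 (b : Om M) :
    ((iotaF1 M b : OmG (F1 M)) : LaurentSeries Qb) = (b : LaurentSeries Qb) :=
  IntermediateField.coe_inclusion (full_le_F1L M) b

omit [NeZero M] in
theorem iotaF1_eq_iff {b : Om M} {f : OmG (F1 M)} :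
    iotaF1 M b = f ↔ (b : LaurentSeries Qb) = (f : LaurentSeries Qb) := by
  rw [Subtype.ext_iff, coe_iotaF1]

omit [NeZero M] in
theorem mem_map_iotaF1_iff {f : OmG (F1 M)} :
    f ∈ (Fc M E).map (iotaF1 M) ↔
      (f : LaurentSeries Qb) ∈ modularFunctionFieldBar M ∧
        ∀ n : ℤ, (f : LaurentSeries Qb).coeff n ∈ E := by
  constructor
  · rintro ⟨b, hb, hbf⟩
    have e : (b : LaurentSeries Qb) = (f : LaurentSeries Qb) := (iotaF1_eq_iff M).mp hbf
    rw [← e]
    exact ⟨b.2, fun n => (mem_Fc_iff_coeff_mem M E).mp hb n⟩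
  · rintro ⟨h1, h2⟩
    refine ⟨⟨(f : LaurentSeries Qb), h1⟩, (mem_Fc_iff_coeff_mem M E).mpr h2, ?_⟩
    exact (iotaF1_eq_iff M).mpr rfl

omit [NeZero M] in
/-- **F_le**. -/
theorem step_F_le : (Fc M E).map (iotaF1 M) ≤ FcG (F1 M) E := by
  intro f hf
  rw [mem_map_iotaF1_iff] at hf
  exact mem_FcG_of_coeff_mem _ E hf.2

/-- **G_fix**. -/
theorem step_G_fix (g : OmG (F1 M) ≃+* OmG (F1 M)) (hg : g ∈ diaGroup M)
    (a : OmG (F1 M)) (ha : a ∈ (Fc M E).map (iotaF1 M)) : g a = a :=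
  diaGroup_fix M g hg a ((mem_map_iotaF1_iff M E).mp ha).1

/-- The diamond automorphisms preserve the image of `F1 M`. -/
theorem diamondAut_coeffEmb_mem (d : (ZMod M)ˣ) (z : LaurentSeries ℚ) (hz : z ∈ F1 M)
    (f : OmG (F1 M)) (hf : (f : LaurentSeries Qb) = coeffEmb Qb z) :
    diamondAut Qb M d f ∈ FcG (F1 M) E := by
  unfold F1 at hz
  induction hz using IntermediateField.adjoin_induction generalizing f with
  | mem y hy =>
      rcases hy with hy | ⟨a, ha, rfl⟩
      · have hmem : (f : LaurentSeries Qb) ∈ modularFunctionFieldBar M := by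
          rw [hf]
          exact coeffEmb_mem_laurentBaseChange Qb (IntermediateField.subset_adjoin ℚ _ hy)
        rw [diamondAut_fixes_full M d f hmem]
        exact Subfield.subset_closure (Or.inr ⟨y, IntermediateField.subset_adjoin ℚ _ (Or.inl hy), hf⟩)
      · have hfe : f = divGenL Qb M a ha := Subtype.ext hf
        rw [hfe, diamondAut_divGenL]
        exact Subfield.subset_closure
          (Or.inr ⟨_, divGen_mem_F1 M (unit_mul_ne_zero d ha), rfl⟩)
  | algebraMap q =>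
      have hfe : f = algebraMap Qb (OmG (F1 M)) (algebraMap ℚ Qb q) :=
        Subtype.ext (hf.trans (coeffEmb_algebraMap q))
      rw [hfe, AlgEquiv.commutes]
      exact algebraMap_mem_FcG (E.algebraMap_mem q)
  | add x y hx hy ihx ihy =>
      have hfe : f = (⟨coeffEmb Qb x, coeffEmb_mem_laurentBaseChange Qb hx⟩ : OmG (F1 M)) +
          ⟨coeffEmb Qb y, coeffEmb_mem_laurentBaseChange Qb hy⟩ :=
        Subtype.ext (hf.trans (map_add _ _ _))
      rw [hfe, map_add]
      exact add_mem (ihx _ rfl) (ihy _ rfl)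
  | inv x hx ihx =>
      have hfe : f = (⟨coeffEmb Qb x, coeffEmb_mem_laurentBaseChange Qb hx⟩ : OmG (F1 M))⁻¹ :=
        Subtype.ext (hf.trans (map_inv₀ _ _))
      rw [hfe, map_inv₀]
      exact inv_mem (ihx _ rfl)
  | mul x y hx hy ihx ihy =>
      have hfe : f = (⟨coeffEmb Qb x, coeffEmb_mem_laurentBaseChange Qb hx⟩ : OmG (F1 M)) *
          ⟨coeffEmb Qb y, coeffEmb_mem_laurentBaseChange Qb hy⟩ :=
        Subtype.ext (hf.trans (map_mul _ _ _))
      rw [hfe, map_mul]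
      exact mul_mem (ihx _ rfl) (ihy _ rfl)

/-- The diamond automorphisms preserve `E · F1(M)`. -/
theorem diamondAut_mem_FcG (d : (ZMod M)ˣ) (f : OmG (F1 M)) (hf : f ∈ FcG (F1 M) E) :
    diamondAut Qb M d f ∈ FcG (F1 M) E := by
  unfold FcG at hf
  induction hf using Subfield.closure_induction with
  | mem y hy =>
      rcases hy with ⟨a, ha, rfl⟩ | ⟨z, hz, hyz⟩
      · rw [AlgEquiv.commutes]
        exact algebraMap_mem_FcG ha
      · exact diamondAut_coeffEmb_mem M E d z hz y hyz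
  | one =>
      rw [map_one]
      exact one_mem _
  | add y z _ _ hy hz =>
      rw [map_add]
      exact add_mem hy hz
  | neg y _ hy =>
      rw [map_neg]
      exact neg_mem hy
  | inv y _ hy =>
      rw [map_inv₀]
      exact inv_mem hy
  | mul y z _ _ hy hz =>
      rw [map_mul]
      exact mul_mem hy hz

/-- **G_F**. -/
theorem step_G_F (g : OmG (F1 M) ≃+* OmG (F1 M)) (hg : g ∈ diaGroup M)
    (f : OmG (F1 M)) (hf : f ∈ FcG (F1 M) E) : g f ∈ FcG (F1 M) E := by
  obtain ⟨d, rfl⟩ := hg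
  exact diamondAut_mem_FcG M E d f hf

/-- **G_inv**. -/
theorem step_G_inv (f : OmG (F1 M)) (hf : f ∈ FcG (F1 M) E)
    (hfix : ∀ g ∈ diaGroup M, g f = f) : f ∈ (Fc M E).map (iotaF1 M) := by
  rw [mem_map_iotaF1_iff]
  exact ⟨diaGroup_inv M f hfix, fun n => coeff_mem_of_mem_FcG hf n⟩

end Step

end Fermat.Agent.S48.H848
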